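import Mathlib
import Fermat.Prelude.Def_GaloisRep_Residual

set_option autoImplicit false

open scoped TensorProduct

namespace Fermat.Agent.S53

section Abstract

variable {K U : Type*} [Field K] [IsAlgClosed K] [AddCommGroup U] [Module K U]
  [FiniteDimensional K U]

/-- Burnside's theorem for a subalgebra of `End_K U`, `K` algebraically closed. -/
theorem burnside_subalgebra (𝒜 : Subalgebra K (Module.End K U)) [Nontrivial U]
    (h : ∀ W : Submodule K U, (∀ a ∈ 𝒜, ∀ x ∈ W, a x ∈ W) → W = ⊥ ∨ W = ⊤) : 𝒜 = ⊤ := by
  have hs : IsSimpleModule 𝒜 U := by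
    refine (isSimpleModule_iff 𝒜 U).mpr ⟨fun W => ?_⟩
    rcases h (W.restrictScalars K) (fun a ha x hx => W.smul_mem (⟨a, ha⟩ : 𝒜) hx) with h0 | h1
    · left
      exact (Submodule.restrictScalars_eq_bot_iff (S := K) (R := 𝒜) (M := U)).1 h0
    · right
      exact (Submodule.restrictScalars_eq_top_iff (S := K) (R := 𝒜) (M := U)).1 h1
  have hschur := IsSimpleModule.algebraMap_end_bijective_of_isAlgClosed (A := 𝒜) (V := U) K
  have hfin : Module.Finite (Module.End 𝒜 U) U := by
    obtain ⟨s, hs⟩ := Module.Finite.fg_top (R := K) (M := U)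
    refine ⟨⟨s, ?_⟩⟩
    rw [eq_top_iff] at hs ⊢
    intro x _
    have hx := hs (Submodule.mem_top : x ∈ ⊤)
    induction hx using Submodule.span_induction with
    | mem y hy => exact Submodule.subset_span hy
    | zero => exact Submodule.zero_mem _
    | add y z _ _ hy hz => exact Submodule.add_mem _ (hy trivial) (hz trivial)
    | smul c y _ hy =>
      have := Submodule.smul_mem (Submodule.span (Module.End 𝒜 U) (s : Set U))
        (algebraMap K (Module.End 𝒜 U) c) (hy trivial)
      simpa using this
  rw [eq_top_iff]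
  intro T _
  -- `T` commutes with `End_𝒜 U = K`
  let f : Module.End (Module.End 𝒜 U) U :=
    { toFun := T
      map_add' := T.map_add
      map_smul' := by
        intro g x
        obtain ⟨c, rfl⟩ := hschur.2 g
        simp }
  obtain ⟨r, hr⟩ := Module.Finite.toModuleEnd_moduleEnd_surjective (R := 𝒜) (M := U) f
  have : (r : Module.End K U) = T := by
    ext x
    have h1 := congrArg (fun g => g x) hr
    have h2 : r • x = T x := by simpa [f] using h1
    exact h2
  rw [← this]
  exact r.2

end Abstract

section Galois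

variable {k : Type} [Field k]

local notation "Γℚ" => (AlgebraicClosure ℚ ≃ₐ[ℚ] AlgebraicClosure ℚ)

/-- Burnside over the algebraic closure for the base-changed representation. -/
theorem span_range_baseChange_eq_top (ρbar : ResidualGaloisRep k)
    (habs : ρbar.IsAbsolutelyIrreducible) :
    Submodule.span (AlgebraicClosure k)
      (Set.range (ρbar.baseChange (AlgebraicClosure k)).ρ) = ⊤ := by
  set ρK := ρbar.baseChange (AlgebraicClosure k) with hρK
  have : Nontrivial ρK.V := Module.nontrivial_of_finrank_pos (R := AlgebraicClosure k)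
    (by rw [ρK.finrank_eq]; norm_num)
  have key := burnside_subalgebra (K := AlgebraicClosure k) (U := ρK.V)
    (Algebra.adjoin (AlgebraicClosure k) (Set.range ρK.ρ)) (fun W hW =>
      habs W (fun σ x hx => hW _ (Algebra.subset_adjoin ⟨σ, rfl⟩) x hx))
  have h2 : Submonoid.closure (Set.range ρK.ρ) = MonoidHom.mrange ρK.ρ := by
    rw [← MonoidHom.coe_mrange, Submonoid.closure_eq]
  have h3 := Algebra.adjoin_eq_span (AlgebraicClosure k) (Set.range ρK.ρ)
  rw [key, h2, MonoidHom.coe_mrange] at h3
  rw [← h3]
  rfl

/-- **Burnside**: an absolutely irreducible residual representation spans `End_k V`. -/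
theorem span_range_eq_top (ρbar : ResidualGaloisRep k)
    (habs : ρbar.IsAbsolutelyIrreducible) :
    Submodule.span k (Set.range ρbar.ρ) = ⊤ := by
  classical
  set K := AlgebraicClosure k with hK
  set ρK := ρbar.baseChange K with hρK
  have htop := span_range_baseChange_eq_top ρbar habs
  let f : (ρbar.V →ₗ[k] ρbar.V) →ₗ[k] (K ⊗[k] ρbar.V →ₗ[K] K ⊗[k] ρbar.V) :=
    LinearMap.baseChangeHom k K ρbar.V ρbar.V
  obtain ⟨b, hb_sub, hb_span, hb_li⟩ := exists_linearIndependent K (Set.range ρK.ρ)
  have hg : ∀ x : b, ∃ σ : Γℚ, ρK.ρ σ = x := fun x => hb_sub x.2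
  choose g hg using hg
  let v : b → (ρbar.V →ₗ[k] ρbar.V) := fun x => ρbar.ρ (g x)
  have hfv : f ∘ v = ((↑) : b → (K ⊗[k] ρbar.V →ₗ[K] K ⊗[k] ρbar.V)) := by
    funext x
    exact hg x
  have hli : LinearIndependent k v := by
    have h1 : LinearIndependent k (f ∘ v) := by
      rw [hfv]
      refine hb_li.restrict_scalars ?_
      intro a c hac
      simpa [Algebra.smul_def] using hac
    exact h1.of_comp f
  have : Finite b := hb_li.finite
  have : Fintype b := Fintype.ofFinite b
  have hcardK : Fintype.card b = 4 := by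
    have h1 := finrank_span_eq_card hb_li
    rw [Subtype.range_coe, hb_span, htop, finrank_top, Module.finrank_linearMap] at h1
    have h2 : Module.finrank K (K ⊗[k] ρbar.V) = 2 := ρK.finrank_eq
    rw [h2] at h1
    exact h1.symm
  have hcard : Fintype.card b = Module.finrank k (ρbar.V →ₗ[k] ρbar.V) := by
    rw [hcardK, Module.finrank_linearMap, ρbar.finrank_eq]
  have hspan := hli.span_eq_top_of_card_eq_finrank' hcard
  rw [eq_top_iff, ← hspan]
  refine Submodule.span_mono ?_
  rintro _ ⟨x, rfl⟩
  exact ⟨g x, rfl⟩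

end Galois

end Fermat.Agent.S53
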