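/-
S53 team: basic definitions for the rigidified (Schlessinger-free) construction of the universal
deformation ring.  Everything lives in namespace `Fermat.Agent.S53`.
-/
import Mathlib
import Fermat.Prelude.Def_GaloisRep_DeformationRingData
import Fermat.Prelude.Def_GaloisRep_DeformationCondition

set_option autoImplicit false
set_option linter.unusedSectionVars false
set_option linter.unusedSimpArgs false

noncomputable section

namespace Fermat.Agent.S53

open IsLocalRing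

/-- The absolute Galois group of `ℚ`. -/
abbrev GQ : Type := AlgebraicClosure ℚ ≃ₐ[ℚ] AlgebraicClosure ℚ

/-- `2 × 2` matrices. -/
abbrev M2 (A : Type) : Type := Matrix (Fin 2) (Fin 2) A

section Mat

variable {A : Type} [CommRing A] [IsLocalRing A]

/-- Adic continuity of a matrix valued homomorphism. -/
def MatCont (r : GQ →* M2 A) : Prop :=
  ∀ n : ℕ, ∃ L : IntermediateField ℚ (AlgebraicClosure ℚ), FiniteDimensional ℚ L ∧
    ∀ σ : GQ, (∀ x ∈ L, σ x = x) → ∀ i j, (r σ - 1) i j ∈ maximalIdeal A ^ n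

theorem mem_smul_top_pi {I : Ideal A} {w : Fin 2 → A} (hw : ∀ i, w i ∈ I) :
    w ∈ I • (⊤ : Submodule A (Fin 2 → A)) := by
  have : w = ∑ i, w i • (Pi.single i (1 : A) : Fin 2 → A) := by
    ext j
    simp [Finset.sum_apply, Pi.single_apply]
  rw [this]
  exact Submodule.sum_mem _ fun i _ => Submodule.smul_mem_smul (hw i) Submodule.mem_top

/-- The `GaloisRepAdic` on `A²` attached to a continuous matrix valued homomorphism. -/
def ofMat (r : GQ →* M2 A) (hr : MatCont r) : GaloisRepAdic A where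
  V := Fin 2 → A
  finrank_eq := by simp
  ρ := (Matrix.toLinAlgEquiv' (R := A) (n := Fin 2)).toAlgHom.toRingHom.toMonoidHom.comp r
  isAdicContinuous := by
    intro n
    obtain ⟨L, hL, h⟩ := hr n
    refine ⟨L, hL, fun σ hσ v => ?_⟩
    have h1 : ((Matrix.toLinAlgEquiv' (R := A) (n := Fin 2)).toAlgHom.toRingHom.toMonoidHom.comp r) σ v - v
        = (r σ - 1).mulVec v := by
      simp [Matrix.sub_mulVec]
    rw [h1]
    refine mem_smul_top_pi fun i => ?_
    simp only [Matrix.mulVec, dotProduct]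
    exact Ideal.sum_mem _ fun j _ => Ideal.mul_mem_right _ _ (h σ hσ i j)

@[simp] theorem ofMat_ρ_apply (r : GQ →* M2 A) (hr : MatCont r) (σ : GQ) (v : Fin 2 → A) :
    (ofMat r hr).ρ σ v = (r σ).mulVec v := rfl

/-- The matrices of a `GaloisRepAdic` in a basis. -/
def matOf (ρ : GaloisRepAdic A) (b : Module.Basis (Fin 2) A ρ.V) : GQ →* M2 A :=
  (LinearMap.toMatrixAlgEquiv b).toAlgHom.toRingHom.toMonoidHom.comp ρ.ρ

@[simp] theorem matOf_apply (ρ : GaloisRepAdic A) (b : Module.Basis (Fin 2) A ρ.V) (σ : GQ) :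
    matOf ρ b σ = LinearMap.toMatrix b b (ρ.ρ σ) := rfl

/-- Push-forward of a matrix valued homomorphism along a ring homomorphism. -/
def mapMat {B : Type} [CommRing B] (φ : A →+* B) (r : GQ →* M2 A) : GQ →* M2 B :=
  (φ.mapMatrix : M2 A →+* M2 B).toMonoidHom.comp r

@[simp] theorem mapMat_apply {B : Type} [CommRing B] (φ : A →+* B) (r : GQ →* M2 A) (σ : GQ) :
    mapMat φ r σ = (r σ).map φ := rfl

/-- The set of all matrix entries of `r`. -/
def entries (r : GQ →* M2 A) : Set A := {a | ∃ σ i j, r σ i j = a}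

end Mat

section Frame

variable (𝒪 : Type) [CommRing 𝒪] [IsLocalRing 𝒪]

/-- Rigidification data for a residual representation: a basis, a set-theoretic lift `rt` of the
matrices to `𝒪`, and two elements `x`, `y` of the group algebra acting as `E₁₁` resp. with
`(1,0)`-entry `1`. -/
structure Frame (ρbar : ResidualGaloisRep (ResidueField 𝒪)) where
  e : Module.Basis (Fin 2) (ResidueField 𝒪) ρbar.V
  rt : GQ → M2 𝒪
  rt_spec : ∀ σ i j, residue 𝒪 (rt σ i j) = LinearMap.toMatrix e e (ρbar.ρ σ) i j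
  x : GQ →₀ 𝒪
  y : GQ →₀ 𝒪
  hx : ∀ i j, (x.sum fun g c => c • rt g) i j - (!![1, 0; 0, 0] : M2 𝒪) i j ∈ maximalIdeal 𝒪
  hy : (y.sum fun g c => c • rt g) 1 0 - 1 ∈ maximalIdeal 𝒪

end Frame

section Lift

variable {𝒪 : Type} [CommRing 𝒪] [IsLocalRing 𝒪] {ρbar : ResidualGaloisRep (ResidueField 𝒪)}
variable {A : Type} [CommRing A] [IsLocalRing A] [Algebra 𝒪 A]

/-- `r` reduces to `ρbar` (in the basis of the frame). -/
def IsLift (F : Frame 𝒪 ρbar) (r : GQ →* M2 A) : Prop :=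
  ∀ σ i j, r σ i j - algebraMap 𝒪 A (F.rt σ i j) ∈ maximalIdeal A

/-- Evaluation of `r` on an element of the group algebra. -/
def ev (c : GQ →₀ 𝒪) (r : GQ →* M2 A) : M2 A :=
  c.sum fun g a => a • r g

/-- The normal form: `r(x)` is diagonal and `r(y)` has `(1,0)`-entry `1`. -/
def IsNormalized (F : Frame 𝒪 ρbar) (r : GQ →* M2 A) : Prop :=
  ev F.x r 0 1 = 0 ∧ ev F.x r 1 0 = 0 ∧ ev F.y r 1 0 = 1

/-- A normalized lift of type `𝒟`. -/
structure IsDLift (F : Frame 𝒪 ρbar)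
    (𝒟 : ∀ ⦃A : Type⦄ [CommRing A] [IsLocalRing A] [Algebra 𝒪 A], GaloisRepAdic A → Prop)
    (r : GQ →* M2 A) : Prop where
  cont : MatCont r
  lift : IsLift F r
  norm : IsNormalized F r
  type : 𝒟 (ofMat r cont)

end Lift

section Obj

variable {𝒪 : Type} [CommRing 𝒪] [IsLocalRing 𝒪] {ρbar : ResidualGaloisRep (ResidueField 𝒪)}

/-- Objects of level `n`: Artinian test algebras with `𝔪ⁿ = 0`, generated by the entries of a
normalized lift of type `𝒟`. -/
structure Obj (F : Frame 𝒪 ρbar)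
    (𝒟 : ∀ ⦃A : Type⦄ [CommRing A] [IsLocalRing A] [Algebra 𝒪 A], GaloisRepAdic A → Prop)
    (n : ℕ) : Type 1 where
  A : Type
  [instCommRing : CommRing A]
  [instIsLocalRing : IsLocalRing A]
  [instAlgebra : Algebra 𝒪 A]
  test : GaloisRep.IsArtinianTestAlgebra 𝒪 A
  pow_eq : maximalIdeal A ^ n = ⊥
  r : GQ →* M2 A
  dlift : IsDLift F 𝒟 r
  gen : Algebra.adjoin 𝒪 (entries r) = ⊤

attribute [instance] Obj.instCommRing Obj.instIsLocalRing Obj.instAlgebra

end Obj

section Restrict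

variable {𝒪 : Type} [CommRing 𝒪] {T : Type} [CommRing T] [Algebra 𝒪 T]

/-- Restrict a matrix valued homomorphism to a subalgebra containing all its entries. -/
def restrictMat (S : Subalgebra 𝒪 T) (r : GQ →* M2 T) (h : ∀ σ i j, r σ i j ∈ S) : GQ →* M2 S where
  toFun σ := Matrix.of fun i j => ⟨r σ i j, h σ i j⟩
  map_one' := by
    ext i j
    simp [Matrix.one_apply]
    split_ifs <;> simp
  map_mul' σ τ := by
    ext i j
    simp [Matrix.mul_apply]

@[simp] theorem restrictMat_apply_coe (S : Subalgebra 𝒪 T) (r : GQ →* M2 T)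
    (h : ∀ σ i j, r σ i j ∈ S) (σ : GQ) (i j : Fin 2) :
    ((restrictMat S r h σ i j : S) : T) = r σ i j := rfl

theorem mapMat_restrictMat (S : Subalgebra 𝒪 T) (r : GQ →* M2 T) (h : ∀ σ i j, r σ i j ∈ S) :
    mapMat (S.val : S →+* T) (restrictMat S r h) = r := by
  ext σ i j
  rfl

/-- Pair two matrix valued homomorphisms into the product ring. -/
def prodMat {A B : Type} [CommRing A] [CommRing B] (r : GQ →* M2 A) (s : GQ →* M2 B) :
    GQ →* M2 (A × B) where
  toFun σ := Matrix.of fun i j => (r σ i j, s σ i j)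
  map_one' := by
    ext i j <;> simp [Matrix.one_apply] <;> split_ifs <;> simp
  map_mul' σ τ := by
    ext i j <;> simp [Matrix.mul_apply, Prod.fst_sum, Prod.snd_sum] 

@[simp] theorem prodMat_apply {A B : Type} [CommRing A] [CommRing B] (r : GQ →* M2 A)
    (s : GQ →* M2 B) (σ : GQ) (i j : Fin 2) : prodMat r s σ i j = (r σ i j, s σ i j) := rfl

end Restrict

section Eps

variable (𝒪 : Type) [CommRing 𝒪] [IsLocalRing 𝒪]

/-- The dual numbers `k[ε]` over the residue field, as a type synonym carrying exactly the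
`𝒪`-algebra structure used in `GaloisRep.TangentFinite`. -/
def Eps : Type := DualNumber (ResidueField 𝒪)

instance : CommRing (Eps 𝒪) := inferInstanceAs (CommRing (DualNumber (ResidueField 𝒪)))

instance : IsLocalRing (Eps 𝒪) := inferInstanceAs (IsLocalRing (DualNumber (ResidueField 𝒪)))

instance : Algebra 𝒪 (Eps 𝒪) :=
  ((algebraMap (ResidueField 𝒪) (DualNumber (ResidueField 𝒪))).comp
    (algebraMap 𝒪 (ResidueField 𝒪))).toAlgebra

end Eps

section Tangent

open GaloisRep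

variable {𝒪 : Type} [CommRing 𝒪] [IsLocalRing 𝒪]

/-- The map `k → k_{k[ε]}` on residue fields used in `GaloisRep.TangentFinite`. -/
def epsψ (𝒪 : Type) [CommRing 𝒪] [IsLocalRing 𝒪] : ResidueField 𝒪 →+* ResidueField (Eps 𝒪) :=
  (IsLocalRing.residue (DualNumber (ResidueField 𝒪))).comp
      (algebraMap (ResidueField 𝒪) (DualNumber (ResidueField 𝒪)))

theorem epsψ_spec (c : 𝒪) : epsψ 𝒪 (residue 𝒪 c) = residue (Eps 𝒪) (algebraMap 𝒪 (Eps 𝒪) c) := rfl

/-- Deformations of type `𝒟` to `k[ε]`. -/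
def TanSub (ρbar : ResidualGaloisRep (ResidueField 𝒪))
    (𝒟 : ∀ ⦃A : Type⦄ [CommRing A] [IsLocalRing A] [Algebra 𝒪 A], GaloisRepAdic A → Prop) : Type 1 :=
  {ρ : GaloisRepAdic (Eps 𝒪) // 𝒟 ρ ∧ ρ.residual.IsEquiv (ρbar.baseChangeAlong (epsψ 𝒪))}

/-- Equivalence of deformations to `k[ε]`. -/
def tanSetoid (ρbar : ResidualGaloisRep (ResidueField 𝒪))
    (𝒟 : ∀ ⦃A : Type⦄ [CommRing A] [IsLocalRing A] [Algebra 𝒪 A], GaloisRepAdic A → Prop) :
    Setoid (TanSub ρbar 𝒟) :=
  ⟨fun ρ ρ' => ρ.1.IsEquiv ρ'.1, ⟨fun ρ => ⟨GaloisRepAdic.Equiv.refl ρ.1⟩,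
        fun ⟨e⟩ => ⟨e.symm⟩, fun ⟨e⟩ ⟨e'⟩ => ⟨e.trans e'⟩⟩⟩

/-- `TangentFinite` restated with the synonym `Eps`. -/
theorem finite_tan {ρbar : ResidualGaloisRep (ResidueField 𝒪)}
    {𝒟 : ∀ ⦃A : Type⦄ [CommRing A] [IsLocalRing A] [Algebra 𝒪 A], GaloisRepAdic A → Prop}
    (hfin : TangentFinite 𝒪 ρbar 𝒟) : Finite (Quotient (tanSetoid ρbar 𝒟)) := hfin

end Tangent

end Fermat.Agent.S53

end
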