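/-
S53 team: assembly, part 1 (small general lemmas).
-/
import Fermat.Agent.S53.Defs

set_option autoImplicit false
set_option linter.unusedSectionVars false

noncomputable section

namespace Fermat.Agent.S53

open IsLocalRing GaloisRep

section general

variable {𝒪 : Type} [CommRing 𝒪] [IsLocalRing 𝒪]

/-- An `𝒪`-algebra hom into a local `𝒪`-algebra all of whose elements are constants modulo the
maximal ideal maps the maximal ideal into the maximal ideal. -/
theorem asm_map_mem_maximalIdeal {R B : Type} [CommRing R] [IsLocalRing R] [Algebra 𝒪 R]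
    [CommRing B] [IsLocalRing B] [Algebra 𝒪 B] (hloc : IsLocalHom (algebraMap 𝒪 B))
    (hconst : ∀ b : B, ∃ c : 𝒪, b - algebraMap 𝒪 B c ∈ maximalIdeal B)
    (f : R →ₐ[𝒪] B) {x : R} (hx : x ∈ maximalIdeal R) : f x ∈ maximalIdeal B := by
  by_contra hfx
  obtain ⟨c, hc⟩ := hconst (f x)
  have hcu : IsUnit c := by
    by_contra hcn
    have h1 : algebraMap 𝒪 B c ∈ maximalIdeal B := by
      rw [mem_maximalIdeal, mem_nonunits_iff]
      intro hu
      exact hcn (hloc.map_nonunit c hu)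
    exact hfx (by simpa using Ideal.add_mem _ hc h1)
  have h2 : IsUnit (x - algebraMap 𝒪 R c) := by
    by_contra hn
    have h3 : x - algebraMap 𝒪 R c ∈ maximalIdeal R := hn
    have h4 : algebraMap 𝒪 R c ∈ maximalIdeal R := by
      simpa using Ideal.sub_mem _ hx h3
    exact h4 (hcu.map (algebraMap 𝒪 R))
  have h5 : IsUnit (f x - algebraMap 𝒪 B c) := by
    have := h2.map f
    simpa using this
  exact hc h5

theorem asm_isLocalHom {R B : Type} [CommRing R] [IsLocalRing R] [Algebra 𝒪 R]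
    [CommRing B] [IsLocalRing B] [Algebra 𝒪 B] (hloc : IsLocalHom (algebraMap 𝒪 B))
    (hconst : ∀ b : B, ∃ c : 𝒪, b - algebraMap 𝒪 B c ∈ maximalIdeal B)
    (f : R →ₐ[𝒪] B) : IsLocalHom (f : R →+* B) := by
  refine ⟨fun x hx => ?_⟩
  by_contra hn
  exact asm_map_mem_maximalIdeal hloc hconst f (x := x) hn hx

theorem asm_const_of_residue_surjective {B : Type} [CommRing B] [IsLocalRing B] [Algebra 𝒪 B]
    (h : Function.Surjective (residue B ∘ algebraMap 𝒪 B)) (b : B) :
    ∃ c : 𝒪, b - algebraMap 𝒪 B c ∈ maximalIdeal B := by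
  obtain ⟨c, hc⟩ := h (residue B b)
  refine ⟨c, ?_⟩
  rw [← residue_eq_zero_iff, map_sub, sub_eq_zero]
  exact hc.symm

theorem asm_map_pow_le {R B : Type} [CommRing R] [IsLocalRing R] [CommRing B] [IsLocalRing B]
    (f : R →+* B) (hf : ∀ x ∈ maximalIdeal R, f x ∈ maximalIdeal B) (n : ℕ) {x : R}
    (hx : x ∈ maximalIdeal R ^ n) : f x ∈ maximalIdeal B ^ n := by
  have h1 : (maximalIdeal R).map f ≤ maximalIdeal B := Ideal.map_le_iff_le_comap.mpr hf
  have h2 : (maximalIdeal R ^ n).map f ≤ maximalIdeal B ^ n := by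
    rw [Ideal.map_pow]; exact Ideal.pow_right_mono h1 n
  exact h2 (Ideal.mem_map_of_mem f hx)

/-- Factor an algebra hom through a surjective one. -/
theorem asm_exists_factor {R A B : Type} [CommRing R] [Algebra 𝒪 R] [CommRing A] [Algebra 𝒪 A]
    [CommRing B] [Algebra 𝒪 B] (π : R →ₐ[𝒪] A) (hπ : Function.Surjective π) (f : R →ₐ[𝒪] B)
    (h : ∀ x, π x = 0 → f x = 0) : ∃ g : A →ₐ[𝒪] B, g.comp π = f := by
  let e := Ideal.quotientKerAlgEquivOfSurjective hπ
  let g0 : (R ⧸ RingHom.ker π) →ₐ[𝒪] B :=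
    Ideal.Quotient.liftₐ (RingHom.ker π) f (fun a ha => h a ha)
  refine ⟨g0.comp e.symm.toAlgHom, ?_⟩
  ext x
  have h1 : e.symm (π x) = Ideal.Quotient.mk _ x := by
    rw [AlgEquiv.symm_apply_eq]
    rfl
  show g0 (e.symm (π x)) = f x
  rw [h1]
  rfl

end general

section evmap

variable {𝒪 : Type} [CommRing 𝒪] [IsLocalRing 𝒪]
variable {A B : Type} [CommRing A] [Algebra 𝒪 A] [CommRing B] [Algebra 𝒪 B]

theorem asm_mapMat_comp {C : Type} [CommRing C] (φ : A →+* B) (ψ : B →+* C) (r : GQ →* M2 A) :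
    mapMat (ψ.comp φ) r = mapMat ψ (mapMat φ r) := by
  ext σ i j
  rfl

end evmap

end Fermat.Agent.S53

end
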