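/-
S53 team, block TA1: dictionary between `GaloisRepAdic A` and matrix valued homomorphisms.
-/
import Fermat.Agent.S53.Defs

set_option autoImplicit false
set_option linter.unusedSectionVars false

noncomputable section

namespace Fermat.Agent.S53

open IsLocalRing GaloisRep
open scoped TensorProduct

section A
variable {A : Type} [CommRing A] [IsLocalRing A]

/-- coordinates of an element of `I • ⊤` lie in `I`. -/
theorem dict_repr_mem {V : Type} [AddCommGroup V] [Module A V] (b : Module.Basis (Fin 2) A V)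
    {I : Ideal A} {x : V} (hx : x ∈ I • (⊤ : Submodule A V)) (i : Fin 2) : b.repr x i ∈ I := by
  refine Submodule.smul_induction_on (p := fun x => b.repr x i ∈ I) hx ?_ ?_
  · intro a ha w _
    simp only [map_smul, Finsupp.smul_apply, smul_eq_mul]
    exact Ideal.mul_mem_right _ _ ha
  · intro x y hx hy
    simp only [map_add, Finsupp.add_apply]
    exact Ideal.add_mem _ hx hy

theorem matCont_matOf (ρ : GaloisRepAdic A) (b : Module.Basis (Fin 2) A ρ.V) :
    MatCont (matOf ρ b) := by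
  intro n
  obtain ⟨L, hL, h⟩ := ρ.isAdicContinuous n
  refine ⟨L, hL, fun σ hσ i j => ?_⟩
  have h1 : (matOf ρ b σ - 1) i j = b.repr (ρ.ρ σ (b j) - b j) i := by
    simp only [matOf_apply, Matrix.sub_apply, LinearMap.toMatrix_apply, map_sub,
      Finsupp.sub_apply, Module.Basis.repr_self, Matrix.one_apply, Finsupp.single_apply]
    congr 1
    by_cases hij : i = j
    · simp [hij]
    · simp [hij, Ne.symm hij]
  rw [h1]
  exact dict_repr_mem b (h σ hσ (b j)) i

theorem isEquiv_ofMat_matOf (ρ : GaloisRepAdic A) (b : Module.Basis (Fin 2) A ρ.V) :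
    ρ.IsEquiv (ofMat (matOf ρ b) (matCont_matOf ρ b)) :=
  ⟨{ toLinearEquiv := b.equivFun
     map_apply := fun σ x => by
      show b.equivFun (ρ.ρ σ x) = (LinearMap.toMatrix b b (ρ.ρ σ)).mulVec (b.equivFun x)
      exact (LinearMap.toMatrix_mulVec_repr b b (ρ.ρ σ) x).symm }⟩

theorem exists_basis (ρ : GaloisRepAdic A) : Nonempty (Module.Basis (Fin 2) A ρ.V) :=
  ⟨Module.finBasisOfFinrankEq A ρ.V ρ.finrank_eq⟩

theorem dict_map_pow_le {B : Type} [CommRing B] [IsLocalRing B] (φ : A →+* B) (hφ : IsLocalHom φ)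
    (n : ℕ) {a : A} (ha : a ∈ maximalIdeal A ^ n) : φ a ∈ maximalIdeal B ^ n := by
  have hmap : (maximalIdeal A ^ n).map φ ≤ maximalIdeal B ^ n := by
    rw [Ideal.map_pow]
    exact Ideal.pow_right_mono (Ideal.map_le_iff_le_comap.mpr fun a ha =>
      Ideal.mem_comap.mpr (haveI := hφ; map_nonunit φ a ha)) n
  exact hmap (Ideal.mem_map_of_mem φ ha)

theorem matCont_mapMat {B : Type} [CommRing B] [IsLocalRing B] (φ : A →+* B) (hφ : IsLocalHom φ)
    {r : GQ →* M2 A} (hr : MatCont r) : MatCont (mapMat φ r) := by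
  intro n
  obtain ⟨L, hL, h⟩ := hr n
  refine ⟨L, hL, fun σ hσ i j => ?_⟩
  have h1 : (mapMat φ r σ - 1) i j = φ ((r σ - 1) i j) := by
    simp only [mapMat_apply, Matrix.sub_apply, Matrix.map_apply, map_sub, Matrix.one_apply]
    split_ifs <;> simp
  rw [h1]
  exact dict_map_pow_le φ hφ n (h σ hσ i j)

/-- `ofMat` only depends on the underlying homomorphism. -/
theorem dict_ofMat_isEquiv_of_eq {r r' : GQ →* M2 A} (hr : MatCont r) (hr' : MatCont r')
    (h : r = r') : (ofMat r hr).IsEquiv (ofMat r' hr') := by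
  subst h
  exact ⟨GaloisRepAdic.Equiv.refl _⟩

theorem dict_isEquiv_trans {ρ₁ ρ₂ ρ₃ : GaloisRepAdic A} (h : ρ₁.IsEquiv ρ₂) (h' : ρ₂.IsEquiv ρ₃) :
    ρ₁.IsEquiv ρ₃ := by
  obtain ⟨e⟩ := h
  obtain ⟨e'⟩ := h'
  exact ⟨e.trans e'⟩

theorem dict_isEquiv_symm {ρ₁ ρ₂ : GaloisRepAdic A} (h : ρ₁.IsEquiv ρ₂) : ρ₂.IsEquiv ρ₁ := by
  obtain ⟨e⟩ := h
  exact ⟨e.symm⟩

/-- The base changed basis of `B ⊗[A] ρ.V`. -/
def dictBaseChangeBasis {B : Type} [CommRing B] [IsLocalRing B] (φ : A →+* B)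
    (hφ : IsLocalHom φ) (ρ : GaloisRepAdic A) (b : Module.Basis (Fin 2) A ρ.V) :
    Module.Basis (Fin 2) B (ρ.baseChangeAlong φ hφ).V :=
  letI : Algebra A B := φ.toAlgebra
  Algebra.TensorProduct.basis B b

theorem matOf_baseChangeAlong {B : Type} [CommRing B] [IsLocalRing B] (φ : A →+* B)
    (hφ : IsLocalHom φ) (ρ : GaloisRepAdic A) (b : Module.Basis (Fin 2) A ρ.V) :
    matOf (ρ.baseChangeAlong φ hφ) (dictBaseChangeBasis φ hφ ρ b) = mapMat φ (matOf ρ b) := by
  let _ : Algebra A B := φ.toAlgebra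
  ext σ i j
  rw [matOf_apply, mapMat_apply, matOf_apply]
  exact congrFun (congrFun (LinearMap.toMatrix_baseChange B (ρ.ρ σ) b b) i) j

/-- The standard basis of the underlying module `A²` of `ofMat r hr`. -/
def dictStdBasis {r : GQ →* M2 A} (hr : MatCont r) : Module.Basis (Fin 2) A (ofMat r hr).V :=
  Pi.basisFun A (Fin 2)

theorem dict_matOf_ofMat {r : GQ →* M2 A} (hr : MatCont r) :
    matOf (ofMat r hr) (dictStdBasis hr) = r := by
  ext σ i j
  show LinearMap.toMatrix (Pi.basisFun A (Fin 2)) (Pi.basisFun A (Fin 2))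
    (Matrix.toLin' (r σ)) i j = r σ i j
  rw [LinearMap.toMatrix_eq_toMatrix', LinearMap.toMatrix'_toLin']

theorem baseChangeAlong_ofMat_isEquiv {B : Type} [CommRing B] [IsLocalRing B] (φ : A →+* B)
    (hφ : IsLocalHom φ) {r : GQ →* M2 A} (hr : MatCont r) :
    ((ofMat r hr).baseChangeAlong φ hφ).IsEquiv (ofMat (mapMat φ r) (matCont_mapMat φ hφ hr)) := by
  refine dict_isEquiv_trans (isEquiv_ofMat_matOf _
    (dictBaseChangeBasis φ hφ (ofMat r hr) (dictStdBasis hr))) ?_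
  refine dict_ofMat_isEquiv_of_eq _ _ ?_
  rw [matOf_baseChangeAlong, dict_matOf_ofMat]

theorem ofMat_isEquiv_iff {r r' : GQ →* M2 A} (hr : MatCont r) (hr' : MatCont r') :
    (ofMat r hr).IsEquiv (ofMat r' hr') ↔
      ∃ P : M2 A, IsUnit P.det ∧ ∀ σ, P * r σ = r' σ * P := by
  constructor
  · rintro ⟨e⟩
    let f : (Fin 2 → A) ≃ₗ[A] (Fin 2 → A) := e.toLinearEquiv
    refine ⟨LinearMap.toMatrix' (f : (Fin 2 → A) →ₗ[A] (Fin 2 → A)), ?_, fun σ => ?_⟩
    · have h := LinearEquiv.isUnit_det' f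
      rwa [← LinearMap.det_toMatrix'] at h
    · apply Matrix.toLin'.injective
      apply LinearMap.ext
      intro v
      have h := e.map_apply σ v
      simp only [Matrix.toLin'_mul, Matrix.toLin'_toMatrix', LinearMap.comp_apply,
        Matrix.toLin'_apply]
      exact h
  · rintro ⟨P, hP, h⟩
    refine ⟨{ toLinearEquiv := Matrix.toLinearEquiv' P ((Matrix.isUnit_iff_isUnit_det P).mpr hP).invertible
              map_apply := fun σ v => ?_ }⟩
    have key : ∀ w : Fin 2 → A, P.mulVec ((r σ).mulVec w) = (r' σ).mulVec (P.mulVec w) := by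
      intro w
      rw [Matrix.mulVec_mulVec, Matrix.mulVec_mulVec, h σ]
    exact key v

theorem matCont_of_conj {r r' : GQ →* M2 A} (hr : MatCont r) (P : M2 A) (hP : IsUnit P.det)
    (h : ∀ σ, P * r σ = r' σ * P) : MatCont r' := by
  intro n
  obtain ⟨L, hL, hc⟩ := hr n
  refine ⟨L, hL, fun σ hσ i j => ?_⟩
  have hPinv : P * P⁻¹ = 1 := Matrix.mul_nonsing_inv P hP
  have h1 : r' σ - 1 = P * (r σ - 1) * P⁻¹ := by
    rw [mul_sub, sub_mul, h σ, mul_assoc, hPinv, mul_one, mul_one, hPinv]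
  rw [h1]
  simp only [Matrix.mul_apply]
  refine Ideal.sum_mem _ fun k _ => Ideal.mul_mem_right _ _ ?_
  exact Ideal.sum_mem _ fun l _ => Ideal.mul_mem_left _ _ (hc σ hσ l k)

theorem matCont_of_mapMat_injective {B : Type} [CommRing B] [IsLocalRing B] (φ : A →+* B)
    (hinj : Function.Injective φ) (hB : ∃ n, maximalIdeal B ^ n = ⊥)
    {r : GQ →* M2 A} (hr : MatCont (mapMat φ r)) : MatCont r := by
  obtain ⟨n, hn⟩ := hB
  obtain ⟨L, hL, h⟩ := hr n
  intro m
  refine ⟨L, hL, fun σ hσ i j => ?_⟩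
  have h1 : (mapMat φ r σ - 1) i j = φ ((r σ - 1) i j) := by
    simp only [mapMat_apply, Matrix.sub_apply, Matrix.map_apply, map_sub, Matrix.one_apply]
    split_ifs <;> simp
  have h2 := h σ hσ i j
  rw [hn, Ideal.mem_bot, h1] at h2
  have h3 : (r σ - 1) i j = 0 := hinj (by rw [h2, map_zero])
  rw [h3]
  exact Ideal.zero_mem _

/-! ### Compatibility names (helper74's first version of this file) -/

theorem repr_mem_of_mem_smul_top {ι : Type} {V : Type} [AddCommGroup V] [Module A V]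
    (b : Module.Basis ι A V) (I : Ideal A) {v : V} (hv : v ∈ I • (⊤ : Submodule A V)) (i : ι) :
    b.repr v i ∈ I := by
  refine Submodule.smul_induction_on (p := fun x => b.repr x i ∈ I) hv ?_ ?_
  · intro a ha w _
    simp only [map_smul, Finsupp.smul_apply, smul_eq_mul]
    exact I.mul_mem_right _ ha
  · intro x y hx hy
    simp only [map_add, Finsupp.add_apply]
    exact I.add_mem hx hy

/-- An adic representation is equivalent to its matrix representation in any basis. -/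
def equivOfMat (ρ : GaloisRepAdic A) (b : Module.Basis (Fin 2) A ρ.V) :
    GaloisRepAdic.Equiv ρ (ofMat (matOf ρ b) (matCont_matOf ρ b)) where
  toLinearEquiv := b.equivFun
  map_apply σ x := by
    show b.equivFun (ρ.ρ σ x) = (matOf ρ b σ).mulVec (b.equivFun x)
    rw [matOf_apply]
    exact (LinearMap.toMatrix_mulVec_repr b b (ρ.ρ σ) x).symm

/-- Workhorse: a representation whose matrices in a basis `b` are `r σ` is equivalent to
`ofMat r`. -/
theorem isEquiv_ofMat_of_toMatrix_eq (ρ : GaloisRepAdic A) (b : Module.Basis (Fin 2) A ρ.V)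
    (r : GQ →* M2 A) (hr : MatCont r)
    (h : ∀ σ, LinearMap.toMatrix b b (ρ.ρ σ) = r σ) : ρ.IsEquiv (ofMat r hr) := by
  have : matOf ρ b = r := MonoidHom.ext h
  subst this
  exact isEquiv_ofMat_matOf ρ b

theorem isEquiv_refl (ρ : GaloisRepAdic A) : ρ.IsEquiv ρ := ⟨GaloisRepAdic.Equiv.refl ρ⟩

theorem isEquiv_symm {ρ₁ ρ₂ : GaloisRepAdic A} (h : ρ₁.IsEquiv ρ₂) : ρ₂.IsEquiv ρ₁ :=
  h.elim fun e => ⟨e.symm⟩

theorem isEquiv_trans {ρ₁ ρ₂ ρ₃ : GaloisRepAdic A} (h : ρ₁.IsEquiv ρ₂) (h' : ρ₂.IsEquiv ρ₃) :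
    ρ₁.IsEquiv ρ₃ :=
  h.elim fun e => h'.elim fun e' => ⟨e.trans e'⟩

theorem map_maximalIdeal_pow_le {B : Type} [CommRing B] [IsLocalRing B] (φ : A →+* B)
    (hφ : IsLocalHom φ) (n : ℕ) {a : A} (ha : a ∈ maximalIdeal A ^ n) :
    φ a ∈ maximalIdeal B ^ n := dict_map_pow_le φ hφ n ha

end A

end Fermat.Agent.S53

end
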