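import Mathlib
import Fermat.Agent.S53.Defs
import Fermat.Agent.S53.Burnside

set_option autoImplicit false

noncomputable section

namespace Fermat.Agent.S53

open IsLocalRing

/-- Every endomorphism is a finite linear combination of the `ρbar σ`. -/
theorem exists_finsupp_sum_eq {k : Type} [Field k] (ρbar : ResidualGaloisRep k)
    (habs : ρbar.IsAbsolutelyIrreducible) (T : Module.End k ρbar.V) :
    ∃ c : GQ →₀ k, (c.sum fun g a => a • ρbar.ρ g) = T := by
  have h : T ∈ Submodule.span k (Set.range ρbar.ρ) := by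
    rw [span_range_eq_top ρbar habs]; exact Submodule.mem_top
  exact (Finsupp.mem_span_range_iff_exists_finsupp).1 h

variable (𝒪 : Type) [CommRing 𝒪] [IsLocalRing 𝒪]

/-- A set-theoretic section of the residue map sending `0` to `0`. -/
def resSec (a : ResidueField 𝒪) : 𝒪 :=
  open scoped Classical in
  if a = 0 then 0 else Function.surjInv (residue_surjective (R := 𝒪)) a

theorem resSec_zero : resSec 𝒪 0 = 0 := by simp [resSec]

theorem residue_resSec (a : ResidueField 𝒪) : residue 𝒪 (resSec 𝒪 a) = a := by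
  unfold resSec
  split_ifs with h
  · simp [h]
  · exact Function.surjInv_eq _ a

variable {𝒪}

/-- Group algebra elements with `𝒪`-coefficients realising a prescribed residual matrix. -/
theorem exists_finsupp_lift (ρbar : ResidualGaloisRep (ResidueField 𝒪))
    (habs : ρbar.IsAbsolutelyIrreducible)
    (e : Module.Basis (Fin 2) (ResidueField 𝒪) ρbar.V) (rt : GQ → M2 𝒪)
    (hrt : ∀ σ i j, residue 𝒪 (rt σ i j) = LinearMap.toMatrix e e (ρbar.ρ σ) i j)
    (X : M2 (ResidueField 𝒪)) :
    ∃ x : GQ →₀ 𝒪, ∀ i j, residue 𝒪 ((x.sum fun g c => c • rt g) i j) = X i j := by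
  obtain ⟨c, hc⟩ := exists_finsupp_sum_eq ρbar habs (Matrix.toLin e e X)
  refine ⟨c.mapRange (resSec 𝒪) (resSec_zero 𝒪), fun i j => ?_⟩
  have h1 : LinearMap.toMatrix e e (c.sum fun g a => a • ρbar.ρ g) i j = X i j := by
    rw [hc, LinearMap.toMatrix_toLin]
  rw [← h1, Finsupp.sum_mapRange_index (by intro g; simp)]
  simp only [Finsupp.sum, Matrix.sum_apply, map_sum, Matrix.smul_apply, smul_eq_mul, map_mul,
    residue_resSec, hrt, map_smul]

/-- **Existence of a frame** for an absolutely irreducible residual representation. -/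
theorem exists_frame (ρbar : ResidualGaloisRep (ResidueField 𝒪))
    (habs : ρbar.IsAbsolutelyIrreducible) : Nonempty (Frame 𝒪 ρbar) := by
  let e : Module.Basis (Fin 2) (ResidueField 𝒪) ρbar.V :=
    Module.finBasisOfFinrankEq _ _ ρbar.finrank_eq
  let rt : GQ → M2 𝒪 := fun σ => Matrix.of fun i j =>
    resSec 𝒪 (LinearMap.toMatrix e e (ρbar.ρ σ) i j)
  have hrt : ∀ σ i j, residue 𝒪 (rt σ i j) = LinearMap.toMatrix e e (ρbar.ρ σ) i j :=
    fun σ i j => residue_resSec 𝒪 _
  obtain ⟨x, hx⟩ := exists_finsupp_lift ρbar habs e rt hrt !![1, 0; 0, 0]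
  obtain ⟨y, hy⟩ := exists_finsupp_lift ρbar habs e rt hrt !![0, 0; 1, 0]
  refine ⟨⟨e, rt, hrt, x, y, fun i j => ?_, ?_⟩⟩
  · rw [← residue_eq_zero_iff, map_sub, hx i j, sub_eq_zero]
    fin_cases i <;> fin_cases j <;> simp
  · rw [← residue_eq_zero_iff, map_sub, hy 1 0]
    simp

end Fermat.Agent.S53

end
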