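/-
TEAM S53, block TB: the diagonal normal form of a lift (existence over complete rings,
uniqueness, behaviour under push-forward).
-/
import Fermat.Agent.S53.Defs

set_option autoImplicit false

noncomputable section

namespace Fermat.Agent.S53

open IsLocalRing GaloisRep

section B
variable {𝒪 : Type} [CommRing 𝒪] [IsLocalRing 𝒪] {ρbar : ResidualGaloisRep (ResidueField 𝒪)}
variable {A : Type} [CommRing A] [IsLocalRing A] [Algebra 𝒪 A]

theorem normal_ev_apply (c : GQ →₀ 𝒪) (r : GQ →* M2 A) (i j : Fin 2) :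
    ev c r i j = c.sum fun g a => a • r g i j := by
  unfold ev
  rw [Finsupp.sum, Finsupp.sum, Matrix.sum_apply]
  rfl

theorem normal_ev_conj (c : GQ →₀ 𝒪) (r r' : GQ →* M2 A) (P : M2 A)
    (h : ∀ σ, P * r σ = r' σ * P) : P * ev c r = ev c r' * P := by
  unfold ev
  rw [Finsupp.sum, Finsupp.sum, Finset.mul_sum, Finset.sum_mul]
  refine Finset.sum_congr rfl fun σ _ => ?_
  rw [Matrix.mul_smul, Matrix.smul_mul, h]

theorem normal_ev_mapMat {B : Type} [CommRing B] [IsLocalRing B] [Algebra 𝒪 B] (φ : A →ₐ[𝒪] B)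
    (c : GQ →₀ 𝒪) (r : GQ →* M2 A) (i j : Fin 2) :
    ev c (mapMat (φ : A →+* B) r) i j = φ (ev c r i j) := by
  rw [normal_ev_apply, normal_ev_apply, Finsupp.sum, Finsupp.sum, map_sum]
  refine Finset.sum_congr rfl fun σ _ => ?_
  simp [mapMat_apply, Matrix.map_apply, Algebra.smul_def]

theorem normal_ev_sub_mem (F : Frame 𝒪 ρbar) {r : GQ →* M2 A} (hl : IsLift F r) (c : GQ →₀ 𝒪)
    (i j : Fin 2) :
    ev c r i j - algebraMap 𝒪 A ((c.sum fun g a => a • F.rt g) i j) ∈ maximalIdeal A := by
  rw [normal_ev_apply]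
  have h1 : (c.sum fun g a => a • F.rt g) i j = c.sum fun g a => a • F.rt g i j := by
    rw [Finsupp.sum, Finsupp.sum, Matrix.sum_apply]
    rfl
  rw [h1, Finsupp.sum, Finsupp.sum, map_sum, ← Finset.sum_sub_distrib]
  refine Ideal.sum_mem _ fun σ _ => ?_
  have h2 : c σ • r σ i j - algebraMap 𝒪 A (c σ • F.rt σ i j)
      = algebraMap 𝒪 A (c σ) * (r σ i j - algebraMap 𝒪 A (F.rt σ i j)) := by
    rw [Algebra.smul_def, smul_eq_mul, map_mul]
    ring
  rw [h2]
  exact Ideal.mul_mem_left _ _ (hl σ i j)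

theorem normal_algebraMap_mem (hloc : IsLocalHom (algebraMap 𝒪 A)) {c : 𝒪}
    (hc : c ∈ maximalIdeal 𝒪) : algebraMap 𝒪 A c ∈ maximalIdeal A := by
  rw [mem_maximalIdeal, mem_nonunits_iff] at hc ⊢
  intro h
  exact hc (hloc.map_nonunit c h)

theorem normal_evx_mem (hloc : IsLocalHom (algebraMap 𝒪 A)) (F : Frame 𝒪 ρbar) {r : GQ →* M2 A}
    (hl : IsLift F r) (i j : Fin 2) :
    ev F.x r i j - (!![1, 0; 0, 0] : M2 A) i j ∈ maximalIdeal A := by
  have h1 := normal_ev_sub_mem F hl F.x i j
  have h2 := normal_algebraMap_mem hloc (F.hx i j)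
  have h3 : algebraMap 𝒪 A ((!![1, 0; 0, 0] : M2 𝒪) i j) = (!![1, 0; 0, 0] : M2 A) i j := by
    fin_cases i <;> fin_cases j <;> simp
  rw [map_sub, h3] at h2
  have := (maximalIdeal A).add_mem h1 h2
  simpa using this

theorem normal_evy_mem (hloc : IsLocalHom (algebraMap 𝒪 A)) (F : Frame 𝒪 ρbar) {r : GQ →* M2 A}
    (hl : IsLift F r) : ev F.y r 1 0 - 1 ∈ maximalIdeal A := by
  have h1 := normal_ev_sub_mem F hl F.y 1 0
  have h2 := normal_algebraMap_mem hloc F.hy
  rw [map_sub, map_one] at h2
  have := (maximalIdeal A).add_mem h1 h2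
  simpa using this

theorem normal_isUnit_of_sub_one_mem {u : A} (hu : u - 1 ∈ maximalIdeal A) : IsUnit u := by
  by_contra hnu
  have h1 : u ∈ maximalIdeal A := (mem_maximalIdeal u).mpr hnu
  have h2 : (1 : A) ∈ maximalIdeal A := by
    have := (maximalIdeal A).sub_mem h1 hu
    simpa using this
  exact (Ideal.ne_top_iff_one _).mp (Ideal.IsMaximal.ne_top inferInstance) h2

theorem exists_normalized [IsAdicComplete (maximalIdeal A) A] (hloc : IsLocalHom (algebraMap 𝒪 A))
    (F : Frame 𝒪 ρbar) {r : GQ →* M2 A} (hl : IsLift F r) :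
    ∃ (P : M2 A) (r' : GQ →* M2 A), IsUnit P.det ∧ (∀ σ, P * r σ = r' σ * P) ∧
      IsLift F r' ∧ IsNormalized F r' := by
  have hx00 := normal_evx_mem hloc F hl 0 0
  have hx01 := normal_evx_mem hloc F hl 0 1
  have hx10 := normal_evx_mem hloc F hl 1 0
  have hx11 := normal_evx_mem hloc F hl 1 1
  have hy10 := normal_evy_mem hloc F hl
  simp only [Matrix.of_apply, Matrix.cons_val', Matrix.cons_val_zero, Matrix.cons_val_one,
    Matrix.cons_val_fin_one, sub_zero] at hx00 hx01 hx10 hx11
  set a := ev F.x r 0 0 with ha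
  set b := ev F.x r 0 1 with hb
  set c := ev F.x r 1 0 with hc
  set d := ev F.x r 1 1 with hd
  set n00 := ev F.y r 0 0 with hn00
  set n01 := ev F.y r 0 1 with hn01
  set n10 := ev F.y r 1 0 with hn10
  set n11 := ev F.y r 1 1 with hn11
  -- Hensel's lemma for the characteristic polynomial
  let f : Polynomial A := Polynomial.X ^ 2 - Polynomial.C (a + d) * Polynomial.X
    + Polynomial.C (a * d - b * c)
  have hfm : f.Monic := by
    have : f = Polynomial.X ^ 2 + (- Polynomial.C (a + d) * Polynomial.X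
      + Polynomial.C (a * d - b * c)) := by ring
    rw [this]
    apply Polynomial.monic_X_pow_add
    refine lt_of_le_of_lt (Polynomial.degree_add_le _ _) ?_
    refine max_lt ?_ ?_
    · rw [← Polynomial.C_neg]
      exact lt_of_le_of_lt (Polynomial.degree_C_mul_X_le _) (by norm_num)
    · exact lt_of_le_of_lt Polynomial.degree_C_le (by norm_num)
  have hfa : f.eval a ∈ maximalIdeal A := by
    have : f.eval a = - (b * c) := by
      simp only [f, Polynomial.eval_add, Polynomial.eval_sub, Polynomial.eval_pow,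
        Polynomial.eval_X, Polynomial.eval_mul, Polynomial.eval_C]
      ring
    rw [this]
    exact (maximalIdeal A).neg_mem ((maximalIdeal A).mul_mem_left _ hx10)
  have hfd : IsUnit (f.derivative.eval a) := by
    have : f.derivative.eval a = a - d := by
      simp only [f, Polynomial.derivative_add, Polynomial.derivative_sub,
        Polynomial.derivative_X_pow, Polynomial.derivative_mul, Polynomial.derivative_C,
        Polynomial.derivative_X, Polynomial.eval_add, Polynomial.eval_sub, Polynomial.eval_pow,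
        Polynomial.eval_X, Polynomial.eval_mul, Polynomial.eval_C, Polynomial.eval_zero,
        Polynomial.eval_one]
      simp
      ring
    rw [this]
    apply normal_isUnit_of_sub_one_mem
    have : a - d - 1 = (a - 1) - d := by ring
    rw [this]
    exact (maximalIdeal A).sub_mem hx00 hx11
  obtain ⟨lam, hroot, hlam⟩ := HenselianRing.is_henselian (I := maximalIdeal A) f hfm a hfa
    (hfd.map (Ideal.Quotient.mk (maximalIdeal A)))
  have hroot' : lam ^ 2 - (a + d) * lam + (a * d - b * c) = 0 := by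
    have := hroot
    simp only [f, Polynomial.IsRoot.def, Polynomial.eval_add, Polynomial.eval_sub,
      Polynomial.eval_pow, Polynomial.eval_X, Polynomial.eval_mul, Polynomial.eval_C] at this
    exact this
  set v0 := lam - d with hv0
  set w0 := n00 * v0 + n01 * c with hw0
  set w1 := n10 * v0 + n11 * c with hw1
  have hv0m : v0 - 1 ∈ maximalIdeal A := by
    have : v0 - 1 = (lam - a) + (a - 1) - d := by rw [hv0]; ring
    rw [this]
    exact (maximalIdeal A).sub_mem ((maximalIdeal A).add_mem hlam hx00) hx11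
  have hw1m : w1 - 1 ∈ maximalIdeal A := by
    have : w1 - 1 = (n10 - 1) * v0 + (v0 - 1) + n11 * c := by rw [hw1]; ring
    rw [this]
    exact (maximalIdeal A).add_mem ((maximalIdeal A).add_mem
      ((maximalIdeal A).mul_mem_right _ hy10) hv0m) ((maximalIdeal A).mul_mem_left _ hx10)
  -- the determinant of the eigenvector matrix
  have hδm : v0 * v0 + b * c - 1 ∈ maximalIdeal A := by
    have : v0 * v0 + b * c - 1 = (v0 - 1) * v0 + (v0 - 1) + b * c := by ring
    rw [this]
    exact (maximalIdeal A).add_mem ((maximalIdeal A).add_mem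
      ((maximalIdeal A).mul_mem_right _ hv0m) hv0m) ((maximalIdeal A).mul_mem_left _ hx10)
  obtain ⟨δu, hδu⟩ := normal_isUnit_of_sub_one_mem hδm
  set δi : A := ((δu⁻¹ : Aˣ) : A) with hδi
  have hδδi : (v0 * v0 + b * c) * δi = 1 := by
    rw [← hδu, hδi]; exact Units.mul_inv δu
  have hδim : δi - 1 ∈ maximalIdeal A := by
    have : δi - 1 = - ((v0 * v0 + b * c - 1) * δi) := by linear_combination hδδi
    rw [this]
    exact (maximalIdeal A).neg_mem ((maximalIdeal A).mul_mem_right _ hδm)
  set t := v0 * w1 - c * w0 with ht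
  have htm : t - 1 ∈ maximalIdeal A := by
    have : t - 1 = (v0 - 1) * w1 + (w1 - 1) - c * w0 := by rw [ht]; ring
    rw [this]
    exact (maximalIdeal A).sub_mem ((maximalIdeal A).add_mem
      ((maximalIdeal A).mul_mem_right _ hv0m) hw1m) ((maximalIdeal A).mul_mem_right _ hx10)
  have htu : IsUnit t := normal_isUnit_of_sub_one_mem htm
  set s := t * δi with hs
  have hsm : s - 1 ∈ maximalIdeal A := by
    have : s - 1 = (t - 1) * δi + (δi - 1) := by rw [hs]; ring
    rw [this]
    exact (maximalIdeal A).add_mem ((maximalIdeal A).mul_mem_right _ htm) hδim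
  let g : M2 A := !![v0, -(b * s); c, v0 * s]
  have hgdet : g.det = t := by
    rw [Matrix.det_fin_two_of]
    have : v0 * (v0 * s) - -(b * s) * c = t * ((v0 * v0 + b * c) * δi) := by rw [hs]; ring
    rw [this, hδδi, mul_one]
  have hgdu : IsUnit g.det := hgdet ▸ htu
  have hgu : IsUnit g := (Matrix.isUnit_iff_isUnit_det g).mpr hgdu
  have hgres : (residue A).mapMatrix g = 1 := by
    have r1 : ∀ u : A, u - 1 ∈ maximalIdeal A → residue A u = 1 := by
      intro u hu
      have := (residue_eq_zero_iff _).mpr hu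
      rw [map_sub, map_one, sub_eq_zero] at this
      exact this
    have r0 : ∀ u : A, u ∈ maximalIdeal A → residue A u = 0 := fun u hu =>
      (residue_eq_zero_iff _).mpr hu
    ext i j
    fin_cases i <;> fin_cases j
    · simpa [g] using r1 _ hv0m
    · simp [g, r0 _ hx01]
    · simpa [g] using r0 _ hx10
    · simp [g, r1 _ hv0m, r1 _ hsm]
  -- the conjugated homomorphism
  let r' : GQ →* M2 A :=
    { toFun := fun σ => g⁻¹ * r σ * g
      map_one' := by
        rw [map_one, mul_one, Matrix.nonsing_inv_mul g hgdu]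
      map_mul' := fun σ τ => by
        rw [map_mul]
        calc g⁻¹ * (r σ * r τ) * g = g⁻¹ * r σ * (g * g⁻¹) * r τ * g := by
              rw [Matrix.mul_nonsing_inv g hgdu, mul_one]; simp only [mul_assoc]
          _ = g⁻¹ * r σ * g * (g⁻¹ * r τ * g) := by simp only [mul_assoc] }
  have hr' : ∀ σ, g * r' σ = r σ * g := by
    intro σ
    change g * (g⁻¹ * r σ * g) = r σ * g
    rw [← mul_assoc, ← mul_assoc, Matrix.mul_nonsing_inv g hgdu, one_mul]
  refine ⟨g⁻¹, r', Matrix.isUnit_nonsing_inv_det g hgdu, ?_, ?_, ?_⟩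
  · intro σ
    change g⁻¹ * r σ = g⁻¹ * r σ * g * g⁻¹
    rw [mul_assoc (g⁻¹ * r σ), Matrix.mul_nonsing_inv g hgdu, mul_one]
  · intro σ i j
    have h1 := congrArg (residue A).mapMatrix (hr' σ)
    rw [map_mul, map_mul, hgres, one_mul, mul_one] at h1
    have h2 := congrFun (congrFun h1 i) j
    simp only [RingHom.mapMatrix_apply, Matrix.map_apply] at h2
    have h3 : r' σ i j - r σ i j ∈ maximalIdeal A := by
      rw [← residue_eq_zero_iff, map_sub, h2, sub_self]
    have := (maximalIdeal A).add_mem h3 (hl σ i j)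
    simpa using this
  · have hX := normal_ev_conj F.x r' r g hr'
    have hY := normal_ev_conj F.y r' r g hr'
    have hXd : ev F.x r' = !![lam, 0; 0, a + d - lam] := by
      apply (hgu.mul_right_inj).mp
      rw [hX]
      ext i j
      fin_cases i <;> fin_cases j
      · simp [g, Matrix.mul_apply, Fin.sum_univ_two]
        rw [← ha, ← hb]
        linear_combination (-1 : A) * hroot'
      · simp [g, Matrix.mul_apply, Fin.sum_univ_two]
        rw [← ha, ← hb]
        rw [hv0]; ring
      · simp [g, Matrix.mul_apply, Fin.sum_univ_two]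
        rw [← hc, ← hd]
        rw [hv0]; ring
      · simp [g, Matrix.mul_apply, Fin.sum_univ_two]
        rw [← hc, ← hd]
        linear_combination (s : A) * hroot'
    refine ⟨?_, ?_, ?_⟩
    · rw [hXd]; simp
    · rw [hXd]; simp
    · have e00 := congrFun (congrFun hY 0) 0
      have e10 := congrFun (congrFun hY 1) 0
      simp only [Matrix.mul_apply, Fin.sum_univ_two] at e00 e10
      simp only [g, Matrix.of_apply, Matrix.cons_val', Matrix.cons_val_zero, Matrix.cons_val_one,
        Matrix.cons_val_fin_one] at e00 e10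
      rw [← hn00, ← hn01] at e00
      rw [← hn10, ← hn11] at e10
      have key : t * (ev F.y r' 1 0 - 1) = 0 := by
        have h1 : t * ((v0 * v0 + b * c) * δi) * ev F.y r' 1 0 = t := by
          rw [ht, hw0, hw1]
          rw [hs] at e00 e10
          linear_combination v0 * e10 - c * e00
        rw [hδδi, mul_one] at h1
        linear_combination h1
      have := (htu.mul_right_eq_zero).mp key
      exact sub_eq_zero.mp this

theorem normalized_unique (hloc : IsLocalHom (algebraMap 𝒪 A))
    (F : Frame 𝒪 ρbar) {r r' : GQ →* M2 A} (hl : IsLift F r) (hn : IsNormalized F r)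
    (hl' : IsLift F r') (hn' : IsNormalized F r') (P : M2 A) (hP : IsUnit P.det)
    (h : ∀ σ, P * r σ = r' σ * P) : r = r' := by
  obtain ⟨hx01, hx10, hy10⟩ := hn
  obtain ⟨hx01', hx10', hy10'⟩ := hn'
  have hX := normal_ev_conj F.x r r' P h
  have hY := normal_ev_conj F.y r r' P h
  have e1 := congrFun (congrFun hX 0) 1
  have e2 := congrFun (congrFun hX 1) 0
  have e3 := congrFun (congrFun hY 1) 0
  simp only [Matrix.mul_apply, Fin.sum_univ_two] at e1 e2 e3
  rw [hx01, hx01'] at e1
  rw [hx10, hx10'] at e2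
  rw [hy10, hy10'] at e3
  have ha := normal_evx_mem hloc F hl 0 0
  have hb := normal_evx_mem hloc F hl 1 1
  have ha' := normal_evx_mem hloc F hl' 0 0
  have hb' := normal_evx_mem hloc F hl' 1 1
  simp only [Matrix.of_apply, Matrix.cons_val', Matrix.cons_val_zero, Matrix.cons_val_one,
    Matrix.cons_val_fin_one, sub_zero] at ha hb ha' hb'
  have hu1 : IsUnit (ev F.x r' 0 0 - ev F.x r 1 1) := by
    apply normal_isUnit_of_sub_one_mem
    have : ev F.x r' 0 0 - ev F.x r 1 1 - 1 = (ev F.x r' 0 0 - 1) - ev F.x r 1 1 := by ring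
    rw [this]
    exact (maximalIdeal A).sub_mem ha' hb
  have hu2 : IsUnit (ev F.x r 0 0 - ev F.x r' 1 1) := by
    apply normal_isUnit_of_sub_one_mem
    have : ev F.x r 0 0 - ev F.x r' 1 1 - 1 = (ev F.x r 0 0 - 1) - ev F.x r' 1 1 := by ring
    rw [this]
    exact (maximalIdeal A).sub_mem ha hb'
  have g01 : P 0 1 = 0 := by
    have : P 0 1 * (ev F.x r' 0 0 - ev F.x r 1 1) = 0 := by linear_combination (-1 : A) * e1
    exact (hu1.mul_left_eq_zero).mp this
  have g10 : P 1 0 = 0 := by
    have : P 1 0 * (ev F.x r 0 0 - ev F.x r' 1 1) = 0 := by linear_combination e2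
    exact (hu2.mul_left_eq_zero).mp this
  have g11 : P 1 1 = P 0 0 := by
    rw [g10] at e3
    linear_combination e3
  have hgs : P = P 0 0 • (1 : M2 A) := by
    ext i j
    fin_cases i <;> fin_cases j <;> simp [g10, g01, g11]
  have hu0 : IsUnit (P 0 0) := by
    rw [Matrix.det_fin_two, g10, g01, g11] at hP
    simp only [mul_zero, sub_zero] at hP
    exact isUnit_of_mul_isUnit_left hP
  ext1 σ
  have h' := h σ
  rw [hgs] at h'
  simp only [Matrix.smul_mul, Matrix.mul_smul, one_mul, mul_one] at h'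
  obtain ⟨u, hu'⟩ := hu0
  rw [← hu'] at h'
  have := congrArg (fun M => (↑u⁻¹ : A) • M) h'
  simpa [smul_smul] using this

theorem isLift_mapMat {B : Type} [CommRing B] [IsLocalRing B] [Algebra 𝒪 B] (φ : A →ₐ[𝒪] B)
    (hφ : IsLocalHom (φ : A →+* B)) (F : Frame 𝒪 ρbar) {r : GQ →* M2 A} (hl : IsLift F r) :
    IsLift F (mapMat (φ : A →+* B) r) := by
  intro σ i j
  have h1 := hl σ i j
  have h2 : mapMat (φ : A →+* B) r σ i j - algebraMap 𝒪 B (F.rt σ i j)
      = (φ : A →+* B) (r σ i j - algebraMap 𝒪 A (F.rt σ i j)) := by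
    simp [mapMat_apply, Matrix.map_apply]
  rw [h2]
  rw [mem_maximalIdeal, mem_nonunits_iff] at h1 ⊢
  intro h
  exact h1 (hφ.map_nonunit _ h)

theorem isNormalized_mapMat {B : Type} [CommRing B] [IsLocalRing B] [Algebra 𝒪 B] (φ : A →ₐ[𝒪] B)
    (F : Frame 𝒪 ρbar) {r : GQ →* M2 A} (hn : IsNormalized F r) :
    IsNormalized F (mapMat (φ : A →+* B) r) := by
  obtain ⟨h1, h2, h3⟩ := hn
  refine ⟨?_, ?_, ?_⟩
  · rw [normal_ev_mapMat, h1, map_zero]
  · rw [normal_ev_mapMat, h2, map_zero]
  · rw [normal_ev_mapMat, h3, map_one]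

theorem isNormalized_of_mapMat_injective {B : Type} [CommRing B] [IsLocalRing B] [Algebra 𝒪 B]
    (φ : A →ₐ[𝒪] B) (hinj : Function.Injective φ)
    (F : Frame 𝒪 ρbar) {r : GQ →* M2 A} (hn : IsNormalized F (mapMat (φ : A →+* B) r)) :
    IsNormalized F r := by
  obtain ⟨h1, h2, h3⟩ := hn
  rw [normal_ev_mapMat] at h1 h2 h3
  refine ⟨?_, ?_, ?_⟩
  · exact hinj (by rw [h1, map_zero])
  · exact hinj (by rw [h2, map_zero])
  · exact hinj (by rw [h3, map_one])

end B

end Fermat.Agent.S53

end
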