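/-
S53 team, package TA4: residual dictionary.
-/
import Fermat.Agent.S53.Defs

set_option autoImplicit false

noncomputable section

namespace Fermat.Agent.S53

open IsLocalRing GaloisRep
open scoped TensorProduct

section General

variable {K : Type} [Field K]

/-- Two residual representations having the same matrices in some bases are equivalent. -/
theorem residual_isEquiv_of_toMatrix_eq (ρ₁ ρ₂ : ResidualGaloisRep K)
    (b₁ : Module.Basis (Fin 2) K ρ₁.V) (b₂ : Module.Basis (Fin 2) K ρ₂.V)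
    (h : ∀ σ, LinearMap.toMatrix b₁ b₁ (ρ₁.ρ σ) = LinearMap.toMatrix b₂ b₂ (ρ₂.ρ σ)) :
    ρ₁.IsEquiv ρ₂ := by
  refine ⟨⟨b₁.equiv b₂ (Equiv.refl _), fun σ x => ?_⟩⟩
  have key : ((b₁.equiv b₂ (Equiv.refl _)).toLinearMap ∘ₗ ρ₁.ρ σ) =
      (ρ₂.ρ σ ∘ₗ (b₁.equiv b₂ (Equiv.refl _)).toLinearMap) := by
    refine b₁.ext fun j => ?_
    simp only [LinearMap.comp_apply, LinearEquiv.coe_coe, Module.Basis.equiv_apply, Equiv.refl_apply]
    have e1 : ρ₁.ρ σ (b₁ j) = ∑ i, LinearMap.toMatrix b₁ b₁ (ρ₁.ρ σ) i j • b₁ i := by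
      simp [LinearMap.toMatrix_apply, Module.Basis.sum_repr]
    have e2 : ρ₂.ρ σ (b₂ j) = ∑ i, LinearMap.toMatrix b₂ b₂ (ρ₂.ρ σ) i j • b₂ i := by
      simp [LinearMap.toMatrix_apply, Module.Basis.sum_repr]
    rw [e1, e2, map_sum]
    refine Finset.sum_congr rfl fun i _ => ?_
    rw [map_smul, Module.Basis.equiv_apply, Equiv.refl_apply, h]
  exact congrArg (fun f => f x) key

/-- An equivalence transports matrices. -/
theorem residual_toMatrix_map_equiv (ρ₁ ρ₂ : ResidualGaloisRep K) (E : ρ₁.Equiv ρ₂)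
    (b₂ : Module.Basis (Fin 2) K ρ₂.V) (σ : GQ) :
    LinearMap.toMatrix (b₂.map E.toLinearEquiv.symm) (b₂.map E.toLinearEquiv.symm) (ρ₁.ρ σ) =
      LinearMap.toMatrix b₂ b₂ (ρ₂.ρ σ) := by
  ext i j
  simp only [LinearMap.toMatrix_apply, Module.Basis.map_apply, Module.Basis.map_repr,
    LinearEquiv.trans_apply, LinearEquiv.symm_symm]
  rw [E.map_apply, LinearEquiv.apply_symm_apply]

end General

section A4
variable {𝒪 : Type} [CommRing 𝒪] [IsLocalRing 𝒪] {ρbar : ResidualGaloisRep (ResidueField 𝒪)}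
variable {A : Type} [CommRing A] [IsLocalRing A] [Algebra 𝒪 A]

/-- matrices of the residual representation -/
def residualBasis (ρ : GaloisRepAdic A) (b : Module.Basis (Fin 2) A ρ.V) :
    Module.Basis (Fin 2) (ResidueField A) ρ.residual.V :=
  Algebra.TensorProduct.basis (ResidueField A) b

theorem residual_toMatrix_baseChange (ρ : GaloisRepAdic A) (b : Module.Basis (Fin 2) A ρ.V)
    (σ : GQ) :
    LinearMap.toMatrix (residualBasis ρ b) (residualBasis ρ b) (ρ.residual.ρ σ) =
      (LinearMap.toMatrix b b (ρ.ρ σ)).map (residue A) :=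
  LinearMap.toMatrix_baseChange (ResidueField A) (ρ.ρ σ) b b

/-- the basis of `ρbar.baseChangeAlong ψ` induced by a basis of `ρbar` -/
def residualBasisAlong {k K : Type} [Field k] [Field K] (ψ : k →+* K) (ρ : ResidualGaloisRep k)
    (e : Module.Basis (Fin 2) k ρ.V) : Module.Basis (Fin 2) K (ρ.baseChangeAlong ψ).V :=
  letI : Algebra k K := ψ.toAlgebra
  Algebra.TensorProduct.basis K e

theorem residual_toMatrix_baseChangeAlong {k K : Type} [Field k] [Field K] (ψ : k →+* K)
    (ρ : ResidualGaloisRep k) (e : Module.Basis (Fin 2) k ρ.V) (σ : GQ) :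
    LinearMap.toMatrix (residualBasisAlong ψ ρ e) (residualBasisAlong ψ ρ e)
      ((ρ.baseChangeAlong ψ).ρ σ) = (LinearMap.toMatrix e e (ρ.ρ σ)).map ψ :=
  letI : Algebra k K := ψ.toAlgebra
  LinearMap.toMatrix_baseChange K (ρ.ρ σ) e e

theorem residual_residue_eq_of_isLift (F : Frame 𝒪 ρbar)
    (ψ : ResidueField 𝒪 →+* ResidueField A)
    (hψ : ∀ c : 𝒪, ψ (residue 𝒪 c) = residue A (algebraMap 𝒪 A c))
    {r : GQ →* M2 A} (hl : IsLift F r) (σ : GQ) (i j : Fin 2) :
    residue A (r σ i j) = ψ (LinearMap.toMatrix F.e F.e (ρbar.ρ σ) i j) := by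
  rw [← F.rt_spec, hψ, ← sub_eq_zero, ← map_sub, residue_eq_zero_iff]
  exact hl σ i j

theorem residual_isLift_of_residue_eq (F : Frame 𝒪 ρbar)
    (ψ : ResidueField 𝒪 →+* ResidueField A)
    (hψ : ∀ c : 𝒪, ψ (residue 𝒪 c) = residue A (algebraMap 𝒪 A c))
    {r : GQ →* M2 A}
    (h : ∀ σ i j, residue A (r σ i j) = ψ (LinearMap.toMatrix F.e F.e (ρbar.ρ σ) i j)) :
    IsLift F r := by
  intro σ i j
  rw [← residue_eq_zero_iff, map_sub, sub_eq_zero, h, ← F.rt_spec, hψ]

/-- the standard basis of `ofMat r hr` -/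
def residualOfMatBasis (r : GQ →* M2 A) (hr : MatCont r) : Module.Basis (Fin 2) A (ofMat r hr).V :=
  Pi.basisFun A (Fin 2)

theorem residual_toMatrix_ofMatBasis (r : GQ →* M2 A) (hr : MatCont r) (σ : GQ) :
    LinearMap.toMatrix (residualOfMatBasis r hr) (residualOfMatBasis r hr) ((ofMat r hr).ρ σ) = r σ := by
  show LinearMap.toMatrix (Pi.basisFun A (Fin 2)) (Pi.basisFun A (Fin 2))
    (Matrix.toLin' (r σ)) = r σ
  rw [LinearMap.toMatrix_eq_toMatrix', LinearMap.toMatrix'_toLin']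

theorem residual_isEquiv_of_isLift (F : Frame 𝒪 ρbar)
    (ψ : ResidueField 𝒪 →+* ResidueField A)
    (hψ : ∀ c : 𝒪, ψ (residue 𝒪 c) = residue A (algebraMap 𝒪 A c))
    {r : GQ →* M2 A} (hr : MatCont r) (hl : IsLift F r) :
    (ofMat r hr).residual.IsEquiv (ρbar.baseChangeAlong ψ) := by
  refine residual_isEquiv_of_toMatrix_eq _ _
    (residualBasis (ofMat r hr) (residualOfMatBasis r hr)) (residualBasisAlong ψ ρbar F.e)
    fun σ => ?_
  rw [residual_toMatrix_baseChangeAlong, residual_toMatrix_baseChange, residual_toMatrix_ofMatBasis]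
  ext i j
  exact residual_residue_eq_of_isLift F ψ hψ hl σ i j

theorem exists_basis_isLift (F : Frame 𝒪 ρbar)
    (ψ : ResidueField 𝒪 →+* ResidueField A)
    (hψ : ∀ c : 𝒪, ψ (residue 𝒪 c) = residue A (algebraMap 𝒪 A c))
    (ρA : GaloisRepAdic A) (h : ρA.residual.IsEquiv (ρbar.baseChangeAlong ψ)) :
    ∃ b : Module.Basis (Fin 2) A ρA.V, IsLift F (matOf ρA b) := by
  obtain ⟨E⟩ := h
  -- the transported basis of `k_A ⊗ V`
  let c : Module.Basis (Fin 2) (ResidueField A) (ResidueField A ⊗[A] ρA.V) :=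
    (residualBasisAlong ψ ρbar F.e).map E.toLinearEquiv.symm
  have hsurj : Function.Surjective (TensorProduct.mk A (ResidueField A) ρA.V 1) :=
    TensorProduct.mk_surjective A ρA.V (ResidueField A) residue_surjective
  choose v hv using fun i => hsurj (c i)
  have hcomp : (TensorProduct.mk A (ResidueField A) ρA.V 1 ∘ v) = c := funext hv
  have : Module.FinitePresentation A ρA.V := Module.finitePresentation_of_projective A ρA.V
  obtain ⟨b, hb⟩ := Module.exists_basis_of_basis_baseChange (R := A) (M := ρA.V) v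
    (by rw [hcomp]; exact c.linearIndependent) (by rw [hcomp]; exact c.span_eq)
    (Module.Flat.rTensor_preserves_injective_linearMap (maximalIdeal A).subtype
      Subtype.val_injective)
  refine ⟨b, residual_isLift_of_residue_eq F ψ hψ fun σ i j => ?_⟩
  have hbc : residualBasis ρA b = c := by
    refine Module.Basis.eq_of_apply_eq fun i => ?_
    have h1 : residualBasis ρA b i = (1 : ResidueField A) ⊗ₜ[A] b i :=
      Algebra.TensorProduct.basis_apply b i
    have h2 : (1 : ResidueField A) ⊗ₜ[A] b i = (1 : ResidueField A) ⊗ₜ[A] v i := by rw [hb]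
    exact h1.trans (h2.trans (hv i))
  have h1 := residual_toMatrix_baseChange ρA b σ
  rw [hbc] at h1
  have h2 := residual_toMatrix_map_equiv _ _ E (residualBasisAlong ψ ρbar F.e) σ
  have h3 := residual_toMatrix_baseChangeAlong ψ ρbar F.e σ
  have h4 : (LinearMap.toMatrix b b (ρA.ρ σ)).map (residue A) =
      (LinearMap.toMatrix F.e F.e (ρbar.ρ σ)).map ψ := h1.symm.trans (h2.trans h3)
  exact congrFun (congrFun h4 i) j

end A4

end Fermat.Agent.S53

end
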