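/-
S53 team, block TC1 : Artinian test algebras (pure algebra).
-/
import Fermat.Agent.S53.Defs

set_option autoImplicit false
set_option linter.unusedSectionVars false
set_option linter.style.haveILetI false

noncomputable section

namespace Fermat.Agent.S53

open IsLocalRing GaloisRep

section C1
variable {𝒪 : Type} [CommRing 𝒪] [IsLocalRing 𝒪]

theorem exists_pow_eq_bot_of_test {A : Type} [CommRing A] [IsLocalRing A]
    [Algebra 𝒪 A] (h : IsArtinianTestAlgebra 𝒪 A) : ∃ n, maximalIdeal A ^ n = ⊥ := by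
  haveI := h.isArtinian
  have hnil : IsNilpotent (maximalIdeal A) := by
    rw [← IsLocalRing.jacobson_eq_maximalIdeal (⊥ : Ideal A) bot_ne_top]
    exact IsArtinianRing.isNilpotent_jacobson_bot
  obtain ⟨n, hn⟩ := hnil
  exact ⟨n, hn⟩

/-- every element of a test algebra is a constant modulo the maximal ideal -/
theorem exists_const_of_test {A : Type} [CommRing A] [IsLocalRing A]
    [Algebra 𝒪 A] (h : IsArtinianTestAlgebra 𝒪 A) (a : A) :
    ∃ c : 𝒪, a - algebraMap 𝒪 A c ∈ maximalIdeal A := by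
  obtain ⟨c, hc⟩ := h.residue_surjective (residue A a)
  refine ⟨c, ?_⟩
  rw [← IsLocalRing.residue_eq_zero_iff, map_sub, sub_eq_zero]
  exact hc.symm

/-- any `𝒪`-algebra hom between test algebras is local -/
theorem isLocalHom_of_test {A B : Type} [CommRing A] [IsLocalRing A] [Algebra 𝒪 A]
    [CommRing B] [IsLocalRing B] [Algebra 𝒪 B] (hA : IsArtinianTestAlgebra 𝒪 A)
    (φ : A →ₐ[𝒪] B) : IsLocalHom (φ : A →+* B) := by
  refine ⟨fun a ha => ?_⟩
  by_contra hna
  have hmem : a ∈ maximalIdeal A := (IsLocalRing.mem_maximalIdeal a).mpr hna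
  obtain ⟨n, hn⟩ := exists_pow_eq_bot_of_test hA
  have h0 : a ^ n = 0 := by
    have : a ^ n ∈ maximalIdeal A ^ n := Ideal.pow_mem_pow hmem n
    rwa [hn] at this
  have h1 : ((φ : A →+* B) a) ^ n = 0 := by rw [← map_pow, h0, map_zero]
  have h2 : IsUnit (((φ : A →+* B) a) ^ n) := ha.pow n
  rw [h1] at h2
  exact not_isUnit_zero h2

theorem finite_residueField_of_test [Finite (ResidueField 𝒪)] {A : Type} [CommRing A]
    [IsLocalRing A] [Algebra 𝒪 A] (h : IsArtinianTestAlgebra 𝒪 A) : Finite (ResidueField A) := by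
  haveI := h.isLocalHom
  refine Finite.of_surjective (ResidueField.map (algebraMap 𝒪 A)) ?_
  intro x
  obtain ⟨c, hc⟩ := h.residue_surjective x
  exact ⟨residue 𝒪 c, hc⟩

theorem finite_of_test [Finite (ResidueField 𝒪)] {A : Type} [CommRing A] [IsLocalRing A]
    [Algebra 𝒪 A] (h : IsArtinianTestAlgebra 𝒪 A) : Finite A := by
  haveI := h.isArtinian
  haveI := finite_residueField_of_test h
  obtain ⟨n, hn⟩ := exists_pow_eq_bot_of_test h
  have hfin : Finite (A ⧸ (⊥ : Ideal A)) :=
    IsLocalRing.finite_quotient_iff.mpr ⟨n, hn.le⟩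
  exact Finite.of_equiv _ (RingEquiv.quotientBot A).toEquiv

theorem test_residueField : IsArtinianTestAlgebra 𝒪 (ResidueField 𝒪) where
  isLocalHom := by
    rw [IsLocalRing.ResidueField.algebraMap_eq]
    infer_instance
  residue_surjective := by
    rw [IsLocalRing.ResidueField.algebraMap_eq]
    exact (IsLocalRing.residue_surjective).comp IsLocalRing.residue_surjective
  isArtinian := inferInstance

/-- the projection `k[ε] → k`. -/
def epsFst (𝒪 : Type) [CommRing 𝒪] [IsLocalRing 𝒪] : Eps 𝒪 →+* ResidueField 𝒪 :=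
  (TrivSqZeroExt.fstHom (ResidueField 𝒪) (ResidueField 𝒪) (ResidueField 𝒪)).toRingHom

theorem epsFst_algebraMap (c : 𝒪) : epsFst 𝒪 (algebraMap 𝒪 (Eps 𝒪) c) = residue 𝒪 c := rfl

theorem test_eps : IsArtinianTestAlgebra 𝒪 (Eps 𝒪) where
  isLocalHom := by
    refine ⟨fun c hc => ?_⟩
    have h1 : IsUnit (residue 𝒪 c) := by
      have := hc.map (epsFst 𝒪)
      rwa [epsFst_algebraMap] at this
    exact isUnit_of_map_unit (residue 𝒪) c h1
  residue_surjective := by
    intro x
    obtain ⟨a, rfl⟩ := IsLocalRing.residue_surjective x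
    obtain ⟨c, hc⟩ := IsLocalRing.residue_surjective (epsFst 𝒪 a)
    refine ⟨c, ?_⟩
    simp only [Function.comp_apply]
    rw [← sub_eq_zero, ← map_sub, IsLocalRing.residue_eq_zero_iff, IsLocalRing.mem_maximalIdeal,
      mem_nonunits_iff]
    intro hu
    have h2 := hu.map (epsFst 𝒪)
    rw [map_sub, epsFst_algebraMap, hc, sub_self] at h2
    exact not_isUnit_zero h2
  isArtinian := by
    have h1 : Module.Finite (ResidueField 𝒪) (DualNumber (ResidueField 𝒪)) :=
      inferInstanceAs (Module.Finite (ResidueField 𝒪) (ResidueField 𝒪 × ResidueField 𝒪))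
    exact IsArtinianRing.of_finite (ResidueField 𝒪) (DualNumber (ResidueField 𝒪))

/-- the unique `𝒪`-algebra hom from a test algebra to `k` -/
theorem exists_toResidue {A : Type} [CommRing A] [IsLocalRing A] [Algebra 𝒪 A]
    (h : IsArtinianTestAlgebra 𝒪 A) :
    ∃ f : A →ₐ[𝒪] ResidueField 𝒪, ∀ a, f a = 0 ↔ a ∈ maximalIdeal A := by
  haveI := h.isLocalHom
  have hbij : Function.Bijective (ResidueField.map (algebraMap 𝒪 A)) := by
    refine ⟨(ResidueField.map (algebraMap 𝒪 A)).injective, fun x => ?_⟩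
    obtain ⟨c, hc⟩ := h.residue_surjective x
    exact ⟨residue 𝒪 c, hc⟩
  let e : ResidueField 𝒪 ≃+* ResidueField A := RingEquiv.ofBijective _ hbij
  have he : ∀ c : 𝒪, e (residue 𝒪 c) = residue A (algebraMap 𝒪 A c) := fun c => rfl
  refine ⟨{ toRingHom := (e.symm : ResidueField A →+* ResidueField 𝒪).comp (residue A)
            commutes' := fun c => ?_ }, fun a => ?_⟩
  · simp only [RingHom.toMonoidHom_eq_coe, OneHom.toFun_eq_coe, MonoidHom.toOneHom_coe,
      MonoidHom.coe_coe, RingHom.coe_comp, RingHom.coe_coe, Function.comp_apply]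
    rw [← he, RingEquiv.symm_apply_apply]
    rfl
  · change e.symm (residue A a) = 0 ↔ _
    rw [map_eq_zero_iff _ e.symm.injective, IsLocalRing.residue_eq_zero_iff]

/-- quotients of test algebras by proper ideals -/
theorem test_quotient {A : Type} [CommRing A] [IsLocalRing A] [Algebra 𝒪 A]
    (h : IsArtinianTestAlgebra 𝒪 A) (J : Ideal A) (hJ : J ≠ ⊤) :
    ∃ (_ : IsLocalRing (A ⧸ J)), IsArtinianTestAlgebra 𝒪 (A ⧸ J) ∧
      maximalIdeal (A ⧸ J) = (maximalIdeal A).map (Ideal.Quotient.mk J) := by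
  haveI : Nontrivial (A ⧸ J) := Ideal.Quotient.nontrivial_iff.mpr hJ
  haveI hloc : IsLocalRing (A ⧸ J) :=
    IsLocalRing.of_surjective' (Ideal.Quotient.mk J) Ideal.Quotient.mk_surjective
  haveI hlh : IsLocalHom (Ideal.Quotient.mk J) :=
    IsLocalHom.of_surjective (Ideal.Quotient.mk J) Ideal.Quotient.mk_surjective
  haveI := h.isLocalHom
  haveI := h.isArtinian
  refine ⟨hloc, ⟨?_, ?_, ?_⟩, ?_⟩
  · have : algebraMap 𝒪 (A ⧸ J) = (Ideal.Quotient.mk J).comp (algebraMap 𝒪 A) := rfl
    rw [this]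
    exact RingHom.isLocalHom_comp _ _
  · intro x
    obtain ⟨y, rfl⟩ := IsLocalRing.residue_surjective x
    obtain ⟨a, rfl⟩ := Ideal.Quotient.mk_surjective y
    obtain ⟨c, hc⟩ := exists_const_of_test h a
    refine ⟨c, ?_⟩
    simp only [Function.comp_apply]
    rw [eq_comm, ← sub_eq_zero, ← map_sub, IsLocalRing.residue_eq_zero_iff]
    have : (Ideal.Quotient.mk J) a - algebraMap 𝒪 (A ⧸ J) c =
        Ideal.Quotient.mk J (a - algebraMap 𝒪 A c) := by
      rw [map_sub]; rfl
    rw [this]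
    exact map_nonunit (Ideal.Quotient.mk J) _ hc
  · exact (Ideal.Quotient.mk_surjective (I := J)).isArtinianRing
  · exact (IsLocalRing.map_maximalIdeal_of_surjective _ Ideal.Quotient.mk_surjective).symm

/-- subalgebras of a finite `𝒪`-algebra `T` all of whose elements are constants modulo a
nilpotent ideal `I` are Artinian test algebras. -/
theorem subalgebra_test {T : Type} [CommRing T] [Algebra 𝒪 T] [Finite T] (I : Ideal T)
    (hI : I ≠ ⊤) (n : ℕ) (hn : I ^ n = ⊥)
    (hπ : ∀ c ∈ maximalIdeal 𝒪, algebraMap 𝒪 T c ∈ I)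
    (S : Subalgebra 𝒪 T) (hS : ∀ s ∈ S, ∃ c : 𝒪, s - algebraMap 𝒪 T c ∈ I) :
    ∃ (_ : IsLocalRing S), IsArtinianTestAlgebra 𝒪 S ∧
      (∀ s : S, s ∈ maximalIdeal S ↔ (s : T) ∈ I) ∧ maximalIdeal S ^ n = ⊥ := by
  haveI : Nontrivial T := by
    by_contra h
    rw [not_nontrivial_iff_subsingleton] at h
    exact hI (Subsingleton.elim _ _)
  haveI : Nontrivial S := inferInstance
  -- elements of `I` in `S` are nilpotent
  have hnil : ∀ s : S, (s : T) ∈ I → s ^ n = 0 := by
    intro s hs
    apply Subtype.ext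
    have : (s : T) ^ n ∈ I ^ n := Ideal.pow_mem_pow hs n
    rw [hn] at this
    simpa using this
  -- characterisation of units
  have hunit : ∀ s : S, IsUnit s ↔ (s : T) ∉ I := by
    intro s
    constructor
    · intro hu hs
      have := hu.pow n
      rw [hnil s hs] at this
      exact not_isUnit_zero this
    · intro hs
      obtain ⟨c, hc⟩ := hS s s.2
      have hcu : IsUnit c := by
        by_contra hcn
        have hcm : c ∈ maximalIdeal 𝒪 := (IsLocalRing.mem_maximalIdeal c).mpr hcn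
        apply hs
        have := I.add_mem hc (hπ c hcm)
        simpa using this
      have h1 : IsUnit (algebraMap 𝒪 S c) := hcu.map _
      have h2 : IsNilpotent (s - algebraMap 𝒪 S c) := ⟨n, hnil _ (by simpa using hc)⟩
      have h3 : s = algebraMap 𝒪 S c + (s - algebraMap 𝒪 S c) := by ring
      rw [h3]
      exact h2.isUnit_add_left_of_commute h1 (Commute.all _ _)
  haveI hloc : IsLocalRing S := by
    refine IsLocalRing.of_nonunits_add fun a b ha hb => ?_
    rw [mem_nonunits_iff, hunit, not_not] at ha hb ⊢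
    simpa using I.add_mem ha hb
  have hmax : ∀ s : S, s ∈ maximalIdeal S ↔ (s : T) ∈ I := by
    intro s
    rw [IsLocalRing.mem_maximalIdeal, mem_nonunits_iff, hunit, not_not]
  refine ⟨hloc, ⟨?_, ?_, ?_⟩, hmax, ?_⟩
  · refine ⟨fun c hc => ?_⟩
    by_contra hcn
    have hcm : c ∈ maximalIdeal 𝒪 := (IsLocalRing.mem_maximalIdeal c).mpr hcn
    exact (hunit _).mp hc (by simpa using hπ c hcm)
  · intro x
    obtain ⟨s, rfl⟩ := IsLocalRing.residue_surjective x
    obtain ⟨c, hc⟩ := hS s s.2
    refine ⟨c, ?_⟩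
    simp only [Function.comp_apply]
    rw [eq_comm, ← sub_eq_zero, ← map_sub, IsLocalRing.residue_eq_zero_iff, hmax]
    simpa using hc
  · haveI : Finite S := inferInstance
    exact isArtinian_of_finite
  · have hle : maximalIdeal S ≤ I.comap (S.val : S →+* T) := fun s hs => (hmax s).mp hs
    have h1 : (maximalIdeal S ^ n).map (S.val : S →+* T) ≤ I ^ n := by
      rw [Ideal.map_pow]
      exact Ideal.pow_right_mono (Ideal.map_le_iff_le_comap.mpr hle) n
    rw [hn] at h1
    rw [eq_bot_iff]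
    intro s hs
    have h2 := h1 (Ideal.mem_map_of_mem _ hs)
    rw [Ideal.mem_bot] at h2 ⊢
    exact Subtype.ext h2

end C1

end Fermat.Agent.S53
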