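/-
S53 team, E7: normal form of a deformation over a complete Noetherian local `𝒪`-algebra.
-/
import Fermat.Agent.S53.Dict
import Fermat.Agent.S53.TestAlg
import Fermat.Agent.S53.Residual
import Fermat.Agent.S53.Assembly1
import Fermat.Agent.S53.Normal

set_option autoImplicit false

noncomputable section

namespace Fermat.Agent.S53

open IsLocalRing GaloisRep

variable {𝒪 : Type} [CommRing 𝒪] [IsLocalRing 𝒪]
variable {ρbar : ResidualGaloisRep (ResidueField 𝒪)} (F : Frame 𝒪 ρbar)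
  {𝒟 : ∀ ⦃A : Type⦄ [CommRing A] [IsLocalRing A] [Algebra 𝒪 A], GaloisRepAdic A → Prop}

theorem exists_normalized_rep (h𝒟 : IsDeformationCondition 𝒪 𝒟)
    {A : Type} [CommRing A] [IsLocalRing A] [IsNoetherianRing A]
    [IsAdicComplete (maximalIdeal A) A] [Algebra 𝒪 A] [IsLocalHom (algebraMap 𝒪 A)]
    (hres : Function.Surjective (residue A ∘ algebraMap 𝒪 A))
    (ρA : GaloisRepAdic A) (hρ : 𝒟 ρA)
    (hbarA : ρA.residual.IsEquiv
      (ρbar.baseChangeAlong (IsLocalRing.ResidueField.map (algebraMap 𝒪 A)))) :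
    ∃ (s : GQ →* M2 A) (hs : MatCont s), IsLift F s ∧ IsNormalized F s ∧ ρA.IsEquiv (ofMat s hs) ∧
      ∀ (B : Type) [CommRing B] [IsLocalRing B] [Algebra 𝒪 B], IsArtinianTestAlgebra 𝒪 B →
        ∀ q : A →ₐ[𝒪] B, Function.Surjective q → IsDLift F 𝒟 (mapMat (q : A →+* B) s) := by
  obtain ⟨b, hb⟩ := exists_basis_isLift F (IsLocalRing.ResidueField.map (algebraMap 𝒪 A))
    (fun c => rfl) ρA hbarA
  obtain ⟨P, s, hP, hPs, hsl, hsn⟩ := exists_normalized (inferInstance : IsLocalHom (algebraMap 𝒪 A)) F hb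
  have hs : MatCont s := matCont_of_conj (matCont_matOf ρA b) P hP hPs
  have he : ρA.IsEquiv (ofMat s hs) := by
    obtain ⟨e1⟩ := isEquiv_ofMat_matOf ρA b
    obtain ⟨e2⟩ := (ofMat_isEquiv_iff (matCont_matOf ρA b) hs).mpr ⟨P, hP, hPs⟩
    exact ⟨e1.trans e2⟩
  refine ⟨s, hs, hsl, hsn, he, ?_⟩
  intro B _ _ _ hB q hq
  have hloc : IsLocalHom (q : A →+* B) := asm_isLocalHom hB.isLocalHom (exists_const_of_test hB) q
  refine ⟨matCont_mapMat _ hloc hs, isLift_mapMat q hloc F hsl, isNormalized_mapMat q F hsn, ?_⟩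
  have h1 : 𝒟 (ρA.baseChangeAlong (q : A →+* B) hloc) :=
    (h𝒟.iff_forall_surjective inferInstance hres ρA).mp hρ hB q hloc hq
  obtain ⟨e⟩ := he
  obtain ⟨e3⟩ := baseChangeAlong_ofMat_isEquiv (q : A →+* B) hloc hs
  exact h𝒟.of_isEquiv hB ⟨(e.baseChangeAlong (q : A →+* B) hloc).trans e3⟩ h1

end Fermat.Agent.S53

end
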