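/-
S53 team: the interface between the two halves of the final assembly.
`UnivData F 𝒟` = a complete Noetherian local `𝒪`-algebra `R` with a normalized lift `r` which is
universal for normalized lifts of type `𝒟` over Artinian test algebras.
-/
import Fermat.Agent.S53.Defs

set_option autoImplicit false

noncomputable section

namespace Fermat.Agent.S53

open IsLocalRing GaloisRep

variable {𝒪 : Type} [CommRing 𝒪] [IsLocalRing 𝒪] {ρbar : ResidualGaloisRep (ResidueField 𝒪)}

structure UnivData (F : Frame 𝒪 ρbar)
    (𝒟 : ∀ ⦃A : Type⦄ [CommRing A] [IsLocalRing A] [Algebra 𝒪 A], GaloisRepAdic A → Prop) :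
    Type 1 where
  R : Type
  [instCommRing : CommRing R]
  [instIsLocalRing : IsLocalRing R]
  [instIsNoetherianRing : IsNoetherianRing R]
  [instIsAdicComplete : IsAdicComplete (maximalIdeal R) R]
  [instAlgebra : Algebra 𝒪 R]
  [instIsLocalHom : IsLocalHom (algebraMap 𝒪 R)]
  residue_surjective : Function.Surjective (residue R ∘ algebraMap 𝒪 R)
  r : GQ →* M2 R
  cont : MatCont r
  lift : IsLift F r
  norm : IsNormalized F r
  /-- every specialization to an Artinian test algebra is of type `𝒟` -/
  dlift_map : ∀ (B : Type) [CommRing B] [IsLocalRing B] [Algebra 𝒪 B],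
    IsArtinianTestAlgebra 𝒪 B → ∀ f : R →ₐ[𝒪] B, IsDLift F 𝒟 (mapMat (f : R →+* B) r)
  /-- universal property on Artinian test algebras -/
  univ : ∀ (B : Type) [CommRing B] [IsLocalRing B] [Algebra 𝒪 B],
    IsArtinianTestAlgebra 𝒪 B → ∀ s : GQ →* M2 B, IsDLift F 𝒟 s →
      ∃! f : R →ₐ[𝒪] B, mapMat (f : R →+* B) r = s

attribute [instance] UnivData.instCommRing UnivData.instIsLocalRing UnivData.instIsNoetherianRing
  UnivData.instIsAdicComplete UnivData.instAlgebra UnivData.instIsLocalHom

end Fermat.Agent.S53

end
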