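/-
S53 team, E6: the universal representation is of type `𝒟`.
-/
import Fermat.Agent.S53.UnivData
import Fermat.Agent.S53.Dict

set_option autoImplicit false

noncomputable section

namespace Fermat.Agent.S53

open IsLocalRing GaloisRep

variable {𝒪 : Type} [CommRing 𝒪] [IsLocalRing 𝒪]
variable {ρbar : ResidualGaloisRep (ResidueField 𝒪)} (F : Frame 𝒪 ρbar)
  {𝒟 : ∀ ⦃A : Type⦄ [CommRing A] [IsLocalRing A] [Algebra 𝒪 A], GaloisRepAdic A → Prop}

theorem UnivData.isOfType (h𝒟 : IsDeformationCondition 𝒪 𝒟) (D : UnivData F 𝒟) :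
    𝒟 (ofMat D.r D.cont) := by
  refine (h𝒟.iff_forall_surjective inferInstance D.residue_surjective (ofMat D.r D.cont)).mpr ?_
  intro B _ _ _ hB q hq _
  have h1 := baseChangeAlong_ofMat_isEquiv (q : D.R →+* B) hq D.cont
  exact h𝒟.of_isEquiv hB (h1.elim fun e => ⟨e.symm⟩) (D.dlift_map B hB q).type

end Fermat.Agent.S53

end
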