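/-
S53 team, block E5 : `A/𝔪^(n+1)` is an Artinian test algebra (helper15).
-/
import Fermat.Agent.S53.Defs

set_option autoImplicit false
set_option linter.unusedSectionVars false
set_option linter.style.haveILetI false

noncomputable section

namespace Fermat.Agent.S53

open IsLocalRing GaloisRep

variable {𝒪 : Type} [CommRing 𝒪] [IsLocalRing 𝒪]

/-- E5: `A/𝔪^(n+1)` is a test algebra -/
theorem test_quotient_pow {A : Type} [CommRing A] [IsLocalRing A] [IsNoetherianRing A] [Algebra 𝒪 A]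
    (hloc : IsLocalHom (algebraMap 𝒪 A))
    (hres : Function.Surjective (residue A ∘ algebraMap 𝒪 A)) (n : ℕ) :
    ∃ (_ : IsLocalRing (A ⧸ maximalIdeal A ^ (n + 1))),
      IsArtinianTestAlgebra 𝒪 (A ⧸ maximalIdeal A ^ (n + 1)) ∧
      IsLocalHom (Ideal.Quotient.mk (maximalIdeal A ^ (n + 1))) := by
  set J : Ideal A := maximalIdeal A ^ (n + 1) with hJdef
  have hJ : J ≠ ⊤ := by
    intro h
    have h1 : J ≤ maximalIdeal A := Ideal.pow_le_self (Nat.succ_ne_zero n)
    rw [h] at h1
    exact (maximalIdeal.isMaximal A).ne_top (top_le_iff.mp h1)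
  haveI : Nontrivial (A ⧸ J) := Ideal.Quotient.nontrivial_iff.mpr hJ
  haveI hlocal : IsLocalRing (A ⧸ J) :=
    IsLocalRing.of_surjective' (Ideal.Quotient.mk J) Ideal.Quotient.mk_surjective
  haveI hlh : IsLocalHom (Ideal.Quotient.mk J) :=
    IsLocalHom.of_surjective (Ideal.Quotient.mk J) Ideal.Quotient.mk_surjective
  refine ⟨hlocal, ⟨?_, ?_, ?_⟩, hlh⟩
  · have : algebraMap 𝒪 (A ⧸ J) = (Ideal.Quotient.mk J).comp (algebraMap 𝒪 A) := rfl
    rw [this]
    exact RingHom.isLocalHom_comp _ _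
  · intro x
    obtain ⟨y, rfl⟩ := IsLocalRing.residue_surjective x
    obtain ⟨a, rfl⟩ := Ideal.Quotient.mk_surjective y
    obtain ⟨c, hc⟩ := hres (residue A a)
    have hc' : a - algebraMap 𝒪 A c ∈ maximalIdeal A := by
      rw [← residue_eq_zero_iff, map_sub, sub_eq_zero]
      exact hc.symm
    refine ⟨c, ?_⟩
    simp only [Function.comp_apply]
    rw [eq_comm, ← sub_eq_zero, ← map_sub, IsLocalRing.residue_eq_zero_iff]
    have : (Ideal.Quotient.mk J) a - algebraMap 𝒪 (A ⧸ J) c =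
        Ideal.Quotient.mk J (a - algebraMap 𝒪 A c) := by
      rw [map_sub]; rfl
    rw [this]
    exact map_nonunit (Ideal.Quotient.mk J) _ hc'
  · rw [isArtinianRing_iff_isNilpotent_maximalIdeal]
    refine ⟨n + 1, ?_⟩
    rw [← IsLocalRing.map_maximalIdeal_of_surjective _ (Ideal.Quotient.mk_surjective (I := J)),
      ← Ideal.map_pow, Ideal.zero_eq_bot, Ideal.map_quotient_self]

end Fermat.Agent.S53

end
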