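/-
S53 team, block E8 : universal property of `UnivData` over complete rings, matrix form (helper15).
-/
import Fermat.Agent.S53.UnivData
import Fermat.Agent.S53.Assembly1
import Fermat.Agent.S53.QuotPow

set_option autoImplicit false
set_option linter.unusedSectionVars false
set_option linter.style.haveILetI false

noncomputable section

namespace Fermat.Agent.S53

open IsLocalRing GaloisRep

variable {𝒪 : Type} [CommRing 𝒪] [IsLocalRing 𝒪] [IsNoetherianRing 𝒪] [Finite (ResidueField 𝒪)]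
variable {ρbar : ResidualGaloisRep (ResidueField 𝒪)} (F : Frame 𝒪 ρbar)
  {𝒟 : ∀ ⦃A : Type⦄ [CommRing A] [IsLocalRing A] [Algebra 𝒪 A], GaloisRepAdic A → Prop}

/-- E8: universal property over complete rings, matrix form -/
theorem UnivData.existsUnique_hom (D : UnivData F 𝒟)
    {A : Type} [CommRing A] [IsLocalRing A] [IsNoetherianRing A]
    [IsAdicComplete (maximalIdeal A) A] [Algebra 𝒪 A] [IsLocalHom (algebraMap 𝒪 A)]
    (hres : Function.Surjective (residue A ∘ algebraMap 𝒪 A))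
    (s : GQ →* M2 A)
    (hs : ∀ (B : Type) [CommRing B] [IsLocalRing B] [Algebra 𝒪 B], IsArtinianTestAlgebra 𝒪 B →
        ∀ q : A →ₐ[𝒪] B, Function.Surjective q → IsDLift F 𝒟 (mapMat (q : A →+* B) s)) :
    ∃! φ : D.R →ₐ[𝒪] A, mapMat (φ : D.R →+* A) D.r = s := by
  set m : Ideal A := maximalIdeal A with hm
  -- the property characterising the level `n` map
  let P : ∀ n : ℕ, (D.R →ₐ[𝒪] A ⧸ m ^ n) → Prop := fun n f =>
    mapMat (f : D.R →+* A ⧸ m ^ n) D.r = mapMat (Ideal.Quotient.mkₐ 𝒪 (m ^ n) : A →+* A ⧸ m ^ n) s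
  have key : ∀ n : ℕ, ∃! f : D.R →ₐ[𝒪] A ⧸ m ^ (n + 1), P (n + 1) f := by
    intro n
    obtain ⟨hloc, htest, -⟩ := test_quotient_pow (𝒪 := 𝒪) (A := A) inferInstance hres n
    letI := hloc
    exact D.univ (A ⧸ m ^ (n + 1)) htest _
      (hs _ htest (Ideal.Quotient.mkₐ 𝒪 (m ^ (n + 1))) (Ideal.Quotient.mkₐ_surjective _ _))
  have uniq : ∀ (n : ℕ) (h1 h2 : D.R →ₐ[𝒪] A ⧸ m ^ n), P n h1 → P n h2 → h1 = h2 := by
    intro n h1 h2 H1 H2
    cases n with
    | zero =>
      haveI : Subsingleton (A ⧸ m ^ 0) := by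
        rw [pow_zero, Ideal.one_eq_top]
        exact Ideal.Quotient.subsingleton_iff.mpr rfl
      ext x
      exact Subsingleton.elim _ _
    | succ n => exact (key n).unique H1 H2
  have Pfactor : ∀ {k n : ℕ} (hle : k ≤ n) (f : D.R →ₐ[𝒪] A ⧸ m ^ n), P n f →
      P k ((Ideal.Quotient.factorₐ 𝒪 (Ideal.pow_le_pow_right hle)).comp f) := by
    intro k n hle f hf
    ext σ i j
    have h := congrFun (congrFun (DFunLike.congr_fun hf σ) i) j
    simp only [mapMat_apply, Matrix.map_apply] at h ⊢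
    change (Ideal.Quotient.factorₐ 𝒪 (Ideal.pow_le_pow_right hle)) (f (D.r σ i j)) = _
    have h' : f (D.r σ i j) = Ideal.Quotient.mk (m ^ n) (s σ i j) := h
    rw [h', Ideal.Quotient.factorₐ_apply_mk]
    rfl
  choose f hf _ using key
  let g : ∀ n : ℕ, D.R →ₐ[𝒪] A ⧸ m ^ n := fun n =>
    (Ideal.Quotient.factorₐ 𝒪 (Ideal.pow_le_pow_right (Nat.le_succ n))).comp (f n)
  have hg : ∀ n, P n (g n) := fun n => Pfactor (Nat.le_succ n) _ (hf n)
  have hcompat : ∀ {k n : ℕ} (hle : k ≤ n),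
      (Ideal.Quotient.factorₐ 𝒪 (Ideal.pow_le_pow_right hle)).comp (g n) = g k :=
    fun {k n} hle => uniq k _ _ (Pfactor hle _ (hg n)) (hg k)
  have Pmk : ∀ (φ : D.R →ₐ[𝒪] A), mapMat (φ : D.R →+* A) D.r = s →
      ∀ n, P n ((Ideal.Quotient.mkₐ 𝒪 (m ^ n)).comp φ) := by
    intro φ hφ n
    ext σ i j
    have h := congrFun (congrFun (DFunLike.congr_fun hφ σ) i) j
    simp only [mapMat_apply, Matrix.map_apply] at h ⊢
    have h' : φ (D.r σ i j) = s σ i j := h
    change (Ideal.Quotient.mkₐ 𝒪 (m ^ n)) (φ (D.r σ i j)) = _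
    rw [h']
    rfl
  refine ⟨IsAdicComplete.liftAlgHom m g hcompat, ?_, ?_⟩
  · ext σ i j
    simp only [mapMat_apply, Matrix.map_apply]
    change IsAdicComplete.liftAlgHom m g hcompat (D.r σ i j) = s σ i j
    have hH : ∀ x y : A, (∀ n, Ideal.Quotient.mk (m ^ n) x = Ideal.Quotient.mk (m ^ n) y) →
        x = y := by
      intro x y hxy
      have := IsHausdorff.funext' m (R := Unit) (f := fun _ => x) (g := fun _ => y)
        (fun n _ => hxy n)
      exact congrFun this ()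
    refine hH _ _ fun n => ?_
    rw [IsAdicComplete.mk_liftAlgHom]
    have h := congrFun (congrFun (DFunLike.congr_fun (hg n) σ) i) j
    simp only [mapMat_apply, Matrix.map_apply] at h
    exact h
  · intro ψ hψ
    refine IsAdicComplete.algHom_ext m fun n => ?_
    refine uniq n _ _ (Pmk ψ hψ n) ?_
    rw [IsAdicComplete.mkₐ_comp_liftAlgHom]
    exact hg n

end Fermat.Agent.S53

end
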