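/-
S53 team, block TC2a : objects (descent to the generated subalgebra, the residue field object,
truncation, rigidity of morphisms).
-/
import Fermat.Agent.S53.Defs
import Fermat.Agent.S53.Dict
import Fermat.Agent.S53.TestAlg

set_option autoImplicit false
set_option linter.unusedSectionVars false
set_option linter.unusedVariables false

noncomputable section

namespace Fermat.Agent.S53

open IsLocalRing GaloisRep

/-! ### auxiliary lemmas on `ev`, `IsLift`, `IsNormalized`, `entries` -/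
section Aux

variable {𝒪 : Type} [CommRing 𝒪] [IsLocalRing 𝒪] {ρbar : ResidualGaloisRep (ResidueField 𝒪)}
variable {A : Type} [CommRing A] [IsLocalRing A] [Algebra 𝒪 A]

theorem obj_ev_mapMat {B : Type} [CommRing B] [Algebra 𝒪 B] (φ : A →ₐ[𝒪] B)
    (c : GQ →₀ 𝒪) (r : GQ →* M2 A) :
    ev c (mapMat (φ : A →+* B) r) = (ev c r).map φ := by
  have h : (ev c r).map φ = φ.mapMatrix (ev c r) := rfl
  rw [h]
  unfold ev
  rw [map_finsuppSum]
  refine Finsupp.sum_congr fun g _ => ?_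
  rw [map_smul]
  rfl

theorem obj_isLift_mapMat {B : Type} [CommRing B] [IsLocalRing B] [Algebra 𝒪 B] (φ : A →ₐ[𝒪] B)
    (hφ : IsLocalHom (φ : A →+* B)) (F : Frame 𝒪 ρbar) {r : GQ →* M2 A} (hl : IsLift F r) :
    IsLift F (mapMat (φ : A →+* B) r) := by
  intro σ i j
  have h := hl σ i j
  have h2 : (φ : A →+* B) (r σ i j - algebraMap 𝒪 A (F.rt σ i j)) ∈ maximalIdeal B :=
    map_nonunit (φ : A →+* B) _ h
  simpa using h2

theorem obj_isLift_of_mapMat {B : Type} [CommRing B] [IsLocalRing B] [Algebra 𝒪 B]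
    (φ : A →ₐ[𝒪] B) (F : Frame 𝒪 ρbar) {r : GQ →* M2 A}
    (hl : IsLift F (mapMat (φ : A →+* B) r)) : IsLift F r := by
  intro σ i j
  have h := hl σ i j
  rw [mem_maximalIdeal, mem_nonunits_iff] at h ⊢
  intro hu
  apply h
  have := hu.map φ
  simpa using this

theorem obj_isNormalized_mapMat {B : Type} [CommRing B] [IsLocalRing B] [Algebra 𝒪 B]
    (φ : A →ₐ[𝒪] B) (F : Frame 𝒪 ρbar) {r : GQ →* M2 A} (hn : IsNormalized F r) :
    IsNormalized F (mapMat (φ : A →+* B) r) := by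
  obtain ⟨h1, h2, h3⟩ := hn
  refine ⟨?_, ?_, ?_⟩ <;> rw [obj_ev_mapMat, Matrix.map_apply]
  · rw [h1, map_zero]
  · rw [h2, map_zero]
  · rw [h3, map_one]

theorem obj_isNormalized_of_mapMat_injective {B : Type} [CommRing B] [IsLocalRing B] [Algebra 𝒪 B]
    (φ : A →ₐ[𝒪] B) (hinj : Function.Injective φ)
    (F : Frame 𝒪 ρbar) {r : GQ →* M2 A} (hn : IsNormalized F (mapMat (φ : A →+* B) r)) :
    IsNormalized F r := by
  obtain ⟨h1, h2, h3⟩ := hn
  rw [obj_ev_mapMat, Matrix.map_apply] at h1 h2 h3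
  refine ⟨hinj (by rw [h1, map_zero]), hinj (by rw [h2, map_zero]), hinj (by rw [h3, map_one])⟩

theorem obj_entries_mapMat {B : Type} [CommRing B] (φ : A →+* B) (r : GQ →* M2 A) :
    entries (mapMat φ r) = φ '' entries r := by
  ext b
  constructor
  · rintro ⟨σ, i, j, rfl⟩
    exact ⟨r σ i j, ⟨σ, i, j, rfl⟩, rfl⟩
  · rintro ⟨a, ⟨σ, i, j, rfl⟩, rfl⟩
    exact ⟨σ, i, j, rfl⟩

end Aux

section C
variable {𝒪 : Type} [CommRing 𝒪] [IsLocalRing 𝒪] [Finite (ResidueField 𝒪)]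
variable {ρbar : ResidualGaloisRep (ResidueField 𝒪)} (F : Frame 𝒪 ρbar)
  {𝒟 : ∀ ⦃A : Type⦄ [CommRing A] [IsLocalRing A] [Algebra 𝒪 A], GaloisRepAdic A → Prop}

/-- TC2a -/
theorem isDLift_mapMat (h𝒟 : IsDeformationCondition 𝒪 𝒟)
    {A B : Type} [CommRing A] [IsLocalRing A] [Algebra 𝒪 A] [CommRing B] [IsLocalRing B]
    [Algebra 𝒪 B] (hA : IsArtinianTestAlgebra 𝒪 A) (hB : IsArtinianTestAlgebra 𝒪 B)
    (φ : A →ₐ[𝒪] B) {r : GQ →* M2 A} (hr : IsDLift F 𝒟 r) :
    IsDLift F 𝒟 (mapMat (φ : A →+* B) r) := by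
  have hφ : IsLocalHom (φ : A →+* B) := isLocalHom_of_test hA φ
  exact
    { cont := matCont_mapMat (φ : A →+* B) hφ hr.cont
      lift := obj_isLift_mapMat φ hφ F hr.lift
      norm := obj_isNormalized_mapMat φ F hr.norm
      type := h𝒟.of_isEquiv hB (baseChangeAlong_ofMat_isEquiv (φ : A →+* B) hφ hr.cont)
        (h𝒟.baseChangeAlong hA hB φ hφ hr.type) }

/-- TC2a -/
theorem isDLift_of_mapMat_injective (h𝒟 : IsDeformationCondition 𝒪 𝒟)
    {A B : Type} [CommRing A] [IsLocalRing A] [Algebra 𝒪 A] [CommRing B] [IsLocalRing B]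
    [Algebra 𝒪 B] (hA : IsArtinianTestAlgebra 𝒪 A) (hB : IsArtinianTestAlgebra 𝒪 B)
    (φ : A →ₐ[𝒪] B) (hinj : Function.Injective φ) {r : GQ →* M2 A}
    (hr : IsDLift F 𝒟 (mapMat (φ : A →+* B) r)) : IsDLift F 𝒟 r := by
  have hφ : IsLocalHom (φ : A →+* B) := isLocalHom_of_test hA φ
  have hc : MatCont r :=
    matCont_of_mapMat_injective (φ : A →+* B) hinj (exists_pow_eq_bot_of_test hB) hr.cont
  exact
    { cont := hc
      lift := obj_isLift_of_mapMat φ F hr.lift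
      norm := obj_isNormalized_of_mapMat_injective φ hinj F hr.norm
      type := h𝒟.of_baseChangeAlong_injective hA hB φ hφ hinj
        (h𝒟.of_isEquiv hB (isEquiv_symm (baseChangeAlong_ofMat_isEquiv (φ : A →+* B) hφ hc))
          hr.type) }

/-- TC2a -/
theorem exists_obj_of_isDLift (h𝒟 : IsDeformationCondition 𝒪 𝒟)
    {A : Type} [CommRing A] [IsLocalRing A] [Algebra 𝒪 A] (hA : IsArtinianTestAlgebra 𝒪 A)
    (n : ℕ) (hn : maximalIdeal A ^ n = ⊥) {r : GQ →* M2 A} (hr : IsDLift F 𝒟 r) :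
    ∃ (U : Obj F 𝒟 n) (ι : U.A →ₐ[𝒪] A), Function.Injective ι ∧
      mapMat (ι : U.A →+* A) U.r = r := by
  have : Finite A := finite_of_test hA
  set S : Subalgebra 𝒪 A := Algebra.adjoin 𝒪 (entries r) with hS
  have hmem : ∀ σ i j, r σ i j ∈ S := fun σ i j => Algebra.subset_adjoin ⟨σ, i, j, rfl⟩
  obtain ⟨hloc, htest, -, hpow⟩ := subalgebra_test (𝒪 := 𝒪) (maximalIdeal A)
    (Ideal.IsPrime.ne_top inferInstance) n hn
    (fun c hc => by
      have := hA.isLocalHom
      exact map_nonunit (algebraMap 𝒪 A) c hc) S (fun s _ => exists_const_of_test hA s)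
  have hmap : mapMat ((S.val : S →ₐ[𝒪] A) : S →+* A) (restrictMat S r hmem) = r :=
    mapMat_restrictMat S r hmem
  have hd : IsDLift F 𝒟 (restrictMat S r hmem) :=
    isDLift_of_mapMat_injective F h𝒟 htest hA S.val Subtype.val_injective (by rw [hmap]; exact hr)
  have hgen : Algebra.adjoin 𝒪 (entries (restrictMat S r hmem)) = ⊤ := by
    apply Subalgebra.map_injective (f := S.val) Subtype.val_injective
    rw [AlgHom.map_adjoin, Algebra.map_top, Subalgebra.range_val]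
    have : (S.val : S → A) '' entries (restrictMat S r hmem) = entries r := by
      have h := obj_entries_mapMat ((S.val : S →ₐ[𝒪] A) : S →+* A) (restrictMat S r hmem)
      rw [hmap] at h
      exact h.symm
    rw [this]
  exact ⟨{ A := S, test := htest, pow_eq := hpow, r := restrictMat S r hmem, dlift := hd,
           gen := hgen }, S.val, Subtype.val_injective, hmap⟩

/-- TC2a -/
theorem nonempty_obj (h𝒟 : IsDeformationCondition 𝒪 𝒟)
    (hbar : 𝒟 (GaloisRepAdic.ofResidualGaloisRep ρbar)) (n : ℕ) : Nonempty (Obj F 𝒟 (n + 1)) := by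
  set ρ0 : GaloisRepAdic (ResidueField 𝒪) := GaloisRepAdic.ofResidualGaloisRep ρbar with hρ0
  let b : Module.Basis (Fin 2) (ResidueField 𝒪) ρ0.V := F.e
  set r : GQ →* M2 (ResidueField 𝒪) := matOf ρ0 b with hr
  have hrt : ∀ σ, r σ = (F.rt σ).map (algebraMap 𝒪 (ResidueField 𝒪)) := by
    intro σ
    ext i j
    exact (F.rt_spec σ i j).symm
  have hev : ∀ c : GQ →₀ 𝒪, ev c r =
      (c.sum fun g a => a • F.rt g).map (algebraMap 𝒪 (ResidueField 𝒪)) := by
    intro c
    have h : (c.sum fun g a => a • F.rt g).map (algebraMap 𝒪 (ResidueField 𝒪)) =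
        (Algebra.ofId 𝒪 (ResidueField 𝒪)).mapMatrix (c.sum fun g a => a • F.rt g) := rfl
    rw [h]
    unfold ev
    rw [map_finsuppSum]
    refine Finsupp.sum_congr fun g _ => ?_
    rw [map_smul, hrt]
    rfl
  have hres : ∀ a b : 𝒪, a - b ∈ maximalIdeal 𝒪 →
      algebraMap 𝒪 (ResidueField 𝒪) a = algebraMap 𝒪 (ResidueField 𝒪) b := by
    intro a b hab
    have := (residue_eq_zero_iff (a - b)).mpr hab
    rw [map_sub, sub_eq_zero] at this
    exact this
  have hd : IsDLift F 𝒟 r :=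
    { cont := matCont_matOf ρ0 b
      lift := by
        intro σ i j
        rw [hrt, Matrix.map_apply, sub_self]
        exact zero_mem _
      norm := by
        refine ⟨?_, ?_, ?_⟩
        · rw [hev, Matrix.map_apply, hres _ _ (F.hx 0 1)]
          simp
        · rw [hev, Matrix.map_apply, hres _ _ (F.hx 1 0)]
          simp
        · rw [hev, Matrix.map_apply, hres _ _ F.hy, map_one]
      type := h𝒟.of_isEquiv test_residueField (isEquiv_ofMat_matOf ρ0 b) hbar }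
  obtain ⟨U, -⟩ := exists_obj_of_isDLift F h𝒟 test_residueField (n + 1)
    (by rw [maximalIdeal_eq_bot]; exact Ideal.bot_pow (Nat.succ_ne_zero n)) hd
  exact ⟨U⟩

/-- TC2a : truncation `U.A / 𝔪^(n+1)` -/
theorem exists_obj_quotient (h𝒟 : IsDeformationCondition 𝒪 𝒟) (N n : ℕ) (U : Obj F 𝒟 N) :
    ∃ (V : Obj F 𝒟 (n + 1)) (q : U.A →ₐ[𝒪] V.A), Function.Surjective q ∧
      RingHom.ker (q : U.A →+* V.A) = maximalIdeal U.A ^ (n + 1) ∧
      mapMat (q : U.A →+* V.A) U.r = V.r := by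
  set J : Ideal U.A := maximalIdeal U.A ^ (n + 1) with hJ
  have hJtop : J ≠ ⊤ := by
    intro h
    have h1 : J ≤ maximalIdeal U.A := Ideal.pow_le_self (Nat.succ_ne_zero n)
    rw [h] at h1
    exact (Ideal.IsPrime.ne_top (inferInstance : (maximalIdeal U.A).IsPrime)) (top_le_iff.mp h1)
  obtain ⟨hloc, htest, hmax⟩ := test_quotient U.test J hJtop
  let q : U.A →ₐ[𝒪] U.A ⧸ J := Ideal.Quotient.mkₐ 𝒪 J
  have hq : Function.Surjective q := Ideal.Quotient.mkₐ_surjective 𝒪 J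
  have hd : IsDLift F 𝒟 (mapMat (q : U.A →+* U.A ⧸ J) U.r) :=
    isDLift_mapMat F h𝒟 U.test htest q U.dlift
  have hpow : maximalIdeal (U.A ⧸ J) ^ (n + 1) = ⊥ := by
    rw [hmax, ← Ideal.map_pow, ← hJ, Ideal.map_quotient_self]
  have hgen : Algebra.adjoin 𝒪 (entries (mapMat (q : U.A →+* U.A ⧸ J) U.r)) = ⊤ := by
    rw [obj_entries_mapMat]
    have : ((q : U.A →+* U.A ⧸ J) : U.A → U.A ⧸ J) '' entries U.r = q '' entries U.r := rfl
    rw [this, ← AlgHom.map_adjoin, U.gen, Algebra.map_top]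
    exact (AlgHom.range_eq_top q).mpr hq
  exact ⟨{ A := U.A ⧸ J, test := htest, pow_eq := hpow, r := mapMat (q : U.A →+* U.A ⧸ J) U.r,
           dlift := hd, gen := hgen }, q, hq, Ideal.Quotient.mkₐ_ker 𝒪 J, rfl⟩

/-- TC2a : homs out of an object are determined by the image of `r`. -/
theorem Obj.hom_ext {n : ℕ} (U : Obj F 𝒟 n) {B : Type} [CommRing B] [Algebra 𝒪 B]
    (φ ψ : U.A →ₐ[𝒪] B) (h : mapMat (φ : U.A →+* B) U.r = mapMat (ψ : U.A →+* B) U.r) :
    φ = ψ := by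
  refine AlgHom.ext_of_adjoin_eq_top U.gen ?_
  rintro _ ⟨σ, i, j, rfl⟩
  have h1 := congrFun (congrFun (DFunLike.congr_fun h σ) i) j
  exact h1

/-- TC2a : homs between objects compatible with the lifts are onto. -/
theorem Obj.hom_surjective {n m : ℕ} (U : Obj F 𝒟 n) (V : Obj F 𝒟 m)
    (φ : U.A →ₐ[𝒪] V.A) (h : mapMat (φ : U.A →+* V.A) U.r = V.r) : Function.Surjective φ := by
  rw [← AlgHom.range_eq_top, ← Algebra.map_top, ← U.gen, AlgHom.map_adjoin, ← V.gen, ← h,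
    obj_entries_mapMat]
  rfl

end C

end Fermat.Agent.S53

end
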