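/-
S53 team, block E1 (core) : the tower of universal objects, given universal objects at each level.
-/
import Fermat.Agent.S53.Objects
import Fermat.Agent.S53.Assembly1

set_option autoImplicit false
set_option linter.unusedSectionVars false
set_option linter.unusedVariables false

noncomputable section

namespace Fermat.Agent.S53

open IsLocalRing GaloisRep

variable {𝒪 : Type} [CommRing 𝒪] [IsLocalRing 𝒪] [Finite (ResidueField 𝒪)]
variable {ρbar : ResidualGaloisRep (ResidueField 𝒪)} (F : Frame 𝒪 ρbar)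
  {𝒟 : ∀ ⦃A : Type⦄ [CommRing A] [IsLocalRing A] [Algebra 𝒪 A], GaloisRepAdic A → Prop}

/-- An object of level `n` is an object of level `n + 1`. -/
def Obj.up {F : Frame 𝒪 ρbar} {n : ℕ} (W : Obj F 𝒟 n) : Obj F 𝒟 (n + 1) where
  A := W.A
  test := W.test
  pow_eq := by rw [pow_succ, W.pow_eq, Ideal.bot_mul]
  r := W.r
  dlift := W.dlift
  gen := W.gen

/-- E1, with the existence of universal objects as a hypothesis. -/
theorem exists_tower_core (h𝒟 : IsDeformationCondition 𝒪 𝒟)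
    (huniv : ∀ n, ∃ U : Obj F 𝒟 (n + 1), ∀ V : Obj F 𝒟 (n + 1), ∃ φ : U.A →ₐ[𝒪] V.A,
      mapMat (φ : U.A →+* V.A) U.r = V.r) :
    ∃ (U : ∀ n, Obj F 𝒟 (n + 1)) (τ : ∀ n, (U (n + 1)).A →ₐ[𝒪] (U n).A),
      (∀ n (V : Obj F 𝒟 (n + 1)), ∃ φ : (U n).A →ₐ[𝒪] V.A,
        mapMat (φ : (U n).A →+* V.A) (U n).r = V.r) ∧
      (∀ n, mapMat (τ n : (U (n + 1)).A →+* (U n).A) (U (n + 1)).r = (U n).r) ∧
      (∀ n, Function.Surjective (τ n)) ∧
      (∀ n, RingHom.ker (τ n : (U (n + 1)).A →+* (U n).A) =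
        maximalIdeal (U (n + 1)).A ^ (n + 1)) := by
  choose U hU using huniv
  have hτ' : ∀ n, ∃ τ : (U (n + 1)).A →ₐ[𝒪] (U n).A,
      mapMat (τ : (U (n + 1)).A →+* (U n).A) (U (n + 1)).r = (U n).r :=
    fun n => hU (n + 1) (U n).up
  choose τ hτ using hτ'
  refine ⟨U, τ, hU, hτ, fun n => Obj.hom_surjective F (U (n + 1)) (U n) (τ n) (hτ n), fun n => ?_⟩
  apply le_antisymm
  · intro x hx
    obtain ⟨V, q, -, hker, hqr⟩ := exists_obj_quotient F h𝒟 (n + 1 + 1) n (U (n + 1))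
    obtain ⟨φ, hφ⟩ := hU n V
    have hcomp : φ.comp (τ n) = q := by
      refine Obj.hom_ext F (U (n + 1)) _ _ ?_
      have h1 : mapMat ((φ.comp (τ n) : (U (n + 1)).A →ₐ[𝒪] V.A) : (U (n + 1)).A →+* V.A)
          (U (n + 1)).r = mapMat (φ : (U n).A →+* V.A)
            (mapMat (τ n : (U (n + 1)).A →+* (U n).A) (U (n + 1)).r) := by
        ext σ i j
        rfl
      rw [h1, hτ, hφ, hqr]
    rw [← hker, RingHom.mem_ker]
    have hx' : τ n x = 0 := hx
    have h2 : q x = φ (τ n x) := by rw [← hcomp]; rfl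
    show q x = 0
    rw [h2, hx', map_zero]
  · intro x hx
    rw [RingHom.mem_ker]
    have hloc : IsLocalHom (τ n : (U (n + 1)).A →+* (U n).A) :=
      isLocalHom_of_test (U (n + 1)).test (τ n)
    have h1 : (τ n : (U (n + 1)).A →+* (U n).A) x ∈ maximalIdeal (U n).A ^ (n + 1) :=
      asm_map_pow_le (τ n : (U (n + 1)).A →+* (U n).A)
        (fun y hy => map_nonunit (τ n : (U (n + 1)).A →+* (U n).A) y hy) (n + 1) hx
    rw [(U n).pow_eq] at h1
    exact h1

end Fermat.Agent.S53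

end
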