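/-
S53 team, task TC3b: a uniform cardinality bound for Artinian test algebras with `𝔪ⁿ = 0`
generated by `d` elements of the maximal ideal.
-/
import Mathlib
import Fermat.Agent.S53.Defs

set_option autoImplicit false
set_option linter.unusedSectionVars false
set_option linter.unusedSimpArgs false

noncomputable section

namespace Fermat.Agent.S53

open IsLocalRing GaloisRep

section CardBound

variable {𝒪 : Type} [CommRing 𝒪] [IsLocalRing 𝒪]

/-- The augmentation `𝒪[X₁,…,X_d] → k`. -/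
def cbAug (𝒪 : Type) [CommRing 𝒪] [IsLocalRing 𝒪] (d : ℕ) :
    MvPolynomial (Fin d) 𝒪 →+* ResidueField 𝒪 :=
  (residue 𝒪).comp MvPolynomial.constantCoeff

theorem cbAug_surjective (d : ℕ) : Function.Surjective (cbAug 𝒪 d) := by
  intro x
  obtain ⟨a, rfl⟩ := residue_surjective x
  exact ⟨MvPolynomial.C a, by simp [cbAug]⟩

/-- A polynomial evaluated at elements of an ideal is congruent to its constant coefficient. -/
theorem cb_aeval_sub_mem {A : Type} [CommRing A] [Algebra 𝒪 A] (I : Ideal A) {d : ℕ}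
    (y : Fin d → A) (hy : ∀ i, y i ∈ I) (q : MvPolynomial (Fin d) 𝒪) :
    MvPolynomial.aeval y q - algebraMap 𝒪 A (MvPolynomial.constantCoeff q) ∈ I := by
  induction q using MvPolynomial.induction_on with
  | C a => simp
  | add p q hp hq =>
    have : MvPolynomial.aeval y (p + q) - algebraMap 𝒪 A (MvPolynomial.constantCoeff (p + q))
        = (MvPolynomial.aeval y p - algebraMap 𝒪 A (MvPolynomial.constantCoeff p))
          + (MvPolynomial.aeval y q - algebraMap 𝒪 A (MvPolynomial.constantCoeff q)) := by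
      simp only [map_add]; ring
    rw [this]
    exact I.add_mem hp hq
  | mul_X p i _ =>
    simp only [map_mul, MvPolynomial.aeval_X, MvPolynomial.constantCoeff_X, mul_zero, map_zero,
      sub_zero]
    exact I.mul_mem_left _ (hy i)

variable [Finite (ResidueField 𝒪)]

/-- TC3b : pure algebra (needs `𝒪` Noetherian) -/
theorem exists_card_bound [IsNoetherianRing 𝒪] (d n : ℕ) :
    ∃ b : ℕ, ∀ (A : Type) [CommRing A] [IsLocalRing A] [Algebra 𝒪 A],
    IsArtinianTestAlgebra 𝒪 A → maximalIdeal A ^ n = ⊥ →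
    (∃ y : Fin d → A, (∀ i, y i ∈ maximalIdeal A) ∧ Algebra.adjoin 𝒪 (Set.range y) = ⊤) →
    Nat.card A ≤ b := by
  set M : Ideal (MvPolynomial (Fin d) 𝒪) := RingHom.ker (cbAug 𝒪 d) with hM
  have : Finite (MvPolynomial (Fin d) 𝒪 ⧸ M) :=
    Finite.of_equiv _ (RingHom.quotientKerEquivOfSurjective (cbAug_surjective (𝒪 := 𝒪) d)).symm.toEquiv
  have : Finite (MvPolynomial (Fin d) 𝒪 ⧸ M ^ n) :=
    Ideal.finite_quotient_pow (IsNoetherian.noetherian M) n
  refine ⟨Nat.card (MvPolynomial (Fin d) 𝒪 ⧸ M ^ n), ?_⟩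
  intro A _ _ _ hA hn ⟨y, hy, hgen⟩
  have := hA.isLocalHom
  -- `aeval y` maps `M` into the maximal ideal
  have h1 : ∀ q ∈ M, MvPolynomial.aeval y q ∈ maximalIdeal A := by
    intro q hq
    have h2 := cb_aeval_sub_mem (𝒪 := 𝒪) (maximalIdeal A) y hy q
    have h3 : MvPolynomial.constantCoeff q ∈ maximalIdeal 𝒪 := by
      have : residue 𝒪 (MvPolynomial.constantCoeff q) = 0 := hq
      rwa [residue_eq_zero_iff] at this
    have h4 : algebraMap 𝒪 A (MvPolynomial.constantCoeff q) ∈ maximalIdeal A := by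
      have h7 : (maximalIdeal 𝒪).map (algebraMap 𝒪 A) ≤ maximalIdeal A :=
        ((local_hom_TFAE (algebraMap 𝒪 A)).out 0 2).mp hA.isLocalHom
      exact h7 (Ideal.mem_map_of_mem _ h3)
    have := (maximalIdeal A).add_mem h2 h4
    simpa using this
  have h5 : M ^ n ≤ RingHom.ker (MvPolynomial.aeval y : MvPolynomial (Fin d) 𝒪 →ₐ[𝒪] A).toRingHom := by
    have h6 : M.map (MvPolynomial.aeval y : MvPolynomial (Fin d) 𝒪 →ₐ[𝒪] A).toRingHom
        ≤ maximalIdeal A := by
      rw [Ideal.map_le_iff_le_comap]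
      exact fun q hq => h1 q hq
    intro q hq
    have h8 : (MvPolynomial.aeval y : MvPolynomial (Fin d) 𝒪 →ₐ[𝒪] A).toRingHom q
        ∈ (M ^ n).map (MvPolynomial.aeval y : MvPolynomial (Fin d) 𝒪 →ₐ[𝒪] A).toRingHom :=
      Ideal.mem_map_of_mem _ hq
    rw [Ideal.map_pow] at h8
    have h9 := Ideal.pow_right_mono h6 n h8
    rw [hn] at h9
    exact h9
  have hsurj : Function.Surjective (MvPolynomial.aeval y : MvPolynomial (Fin d) 𝒪 →ₐ[𝒪] A) := by
    rw [← AlgHom.range_eq_top, ← Algebra.adjoin_range_eq_range_aeval, hgen]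
  refine Nat.card_le_card_of_surjective
    (Ideal.Quotient.lift (M ^ n) (MvPolynomial.aeval y : MvPolynomial (Fin d) 𝒪 →ₐ[𝒪] A).toRingHom
      (fun q hq => h5 hq)) ?_
  exact Ideal.Quotient.lift_surjective_of_surjective _ _ hsurj

end CardBound

end Fermat.Agent.S53
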