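import Fermat.Agent.S53.Objects

/-!
# S53, block TC2b: the join of two objects (fibre product over the residue field)
-/

set_option autoImplicit false

noncomputable section

namespace Fermat.Agent.S53

open IsLocalRing GaloisRep

section JoinAux

variable {𝒪 : Type} [CommRing 𝒪]

/-- `ev` commutes with push-forward along an algebra homomorphism. -/
theorem join_ev_mapMat {A B : Type} [CommRing A] [IsLocalRing A] [Algebra 𝒪 A] [CommRing B]
    [IsLocalRing B] [Algebra 𝒪 B] (φ : A →ₐ[𝒪] B) (c : GQ →₀ 𝒪) (r : GQ →* M2 A) (i j : Fin 2) :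
    ev c (mapMat (φ : A →+* B) r) i j = φ (ev c r i j) := by
  unfold ev
  simp only [Finsupp.sum, Matrix.sum_apply, map_sum, mapMat_apply, Matrix.smul_apply,
    Matrix.map_apply, RingHom.coe_coe, map_smul]

theorem join_prod_pow_eq_bot {A B : Type} [CommRing A] [CommRing B] (I : Ideal A) (J : Ideal B)
    (n : ℕ) (hI : I ^ n = ⊥) (hJ : J ^ n = ⊥) : (Ideal.prod I J) ^ n = ⊥ := by
  rw [eq_bot_iff]
  intro x hx
  have h1 : x.1 ∈ (Ideal.map (RingHom.fst A B) (Ideal.prod I J)) ^ n := by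
    rw [← Ideal.map_pow]
    exact Ideal.mem_map_of_mem (RingHom.fst A B) hx
  have h2 : x.2 ∈ (Ideal.map (RingHom.snd A B) (Ideal.prod I J)) ^ n := by
    rw [← Ideal.map_pow]
    exact Ideal.mem_map_of_mem (RingHom.snd A B) hx
  rw [Ideal.map_fst_prod, hI] at h1
  rw [Ideal.map_snd_prod, hJ] at h2
  exact Prod.ext h1 h2

end JoinAux

section C
variable {𝒪 : Type} [CommRing 𝒪] [IsLocalRing 𝒪] [Finite (ResidueField 𝒪)]
variable {ρbar : ResidualGaloisRep (ResidueField 𝒪)} (F : Frame 𝒪 ρbar)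
  {𝒟 : ∀ ⦃A : Type⦄ [CommRing A] [IsLocalRing A] [Algebra 𝒪 A], GaloisRepAdic A → Prop}

/-- TC2b -/
theorem exists_join (h𝒟 : IsDeformationCondition 𝒪 𝒟) (n : ℕ) (U V : Obj F 𝒟 n) :
    ∃ (W : Obj F 𝒟 n) (p : W.A →ₐ[𝒪] U.A) (q : W.A →ₐ[𝒪] V.A),
      mapMat (p : W.A →+* U.A) W.r = U.r ∧ mapMat (q : W.A →+* V.A) W.r = V.r := by
  obtain ⟨f, hf⟩ := exists_toResidue U.test
  obtain ⟨g, hg⟩ := exists_toResidue V.test
  have : Finite U.A := finite_of_test U.test
  have : Finite V.A := finite_of_test V.test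
  set I : Ideal (U.A × V.A) := Ideal.prod (maximalIdeal U.A) (maximalIdeal V.A) with hI
  have hItop : I ≠ ⊤ := by
    intro h
    rw [hI, Ideal.prod_eq_top_iff] at h
    exact Ideal.IsPrime.ne_top inferInstance h.1
  have hIn : I ^ n = ⊥ := join_prod_pow_eq_bot _ _ n U.pow_eq V.pow_eq
  have hπ : ∀ c ∈ maximalIdeal 𝒪, algebraMap 𝒪 (U.A × V.A) c ∈ I := by
    intro c hc
    have := U.test.isLocalHom
    have := V.test.isLocalHom
    exact ⟨map_nonunit (algebraMap 𝒪 U.A) c hc, map_nonunit (algebraMap 𝒪 V.A) c hc⟩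
  set Fib : Subalgebra 𝒪 (U.A × V.A) :=
    AlgHom.equalizer (f.comp (AlgHom.fst 𝒪 U.A V.A)) (g.comp (AlgHom.snd 𝒪 U.A V.A)) with hFib
  have hmemFib : ∀ s : U.A × V.A, s ∈ Fib ↔ f s.1 = g s.2 := fun s => Iff.rfl
  have hS : ∀ s ∈ Fib, ∃ c : 𝒪, s - algebraMap 𝒪 (U.A × V.A) c ∈ I := by
    intro s hs
    obtain ⟨c, hc⟩ := exists_const_of_test U.test s.1
    refine ⟨c, hc, ?_⟩
    have h1 : f s.1 = algebraMap 𝒪 (ResidueField 𝒪) c := by
      have := (hf _).mpr hc
      rwa [map_sub, AlgHom.commutes, sub_eq_zero] at this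
    refine (hg _).mp ?_
    show g (s.2 - algebraMap 𝒪 V.A c) = 0
    rw [map_sub, AlgHom.commutes, ← (hmemFib s).mp hs, h1, sub_self]
  obtain ⟨hloc, htest, hmem, hpow⟩ := subalgebra_test I hItop n hIn hπ Fib hS
  have := hloc
  -- residues of the entries
  have hfU : ∀ σ i j, f (U.r σ i j) = algebraMap 𝒪 (ResidueField 𝒪) (F.rt σ i j) := by
    intro σ i j
    have := (hf _).mpr (U.dlift.lift σ i j)
    rwa [map_sub, AlgHom.commutes, sub_eq_zero] at this
  have hgV : ∀ σ i j, g (V.r σ i j) = algebraMap 𝒪 (ResidueField 𝒪) (F.rt σ i j) := by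
    intro σ i j
    have := (hg _).mpr (V.dlift.lift σ i j)
    rwa [map_sub, AlgHom.commutes, sub_eq_zero] at this
  have hent : ∀ σ i j, prodMat U.r V.r σ i j ∈ Fib := by
    intro σ i j
    rw [hmemFib, prodMat_apply, hfU, hgV]
  set rF : GQ →* M2 Fib := restrictMat Fib (prodMat U.r V.r) hent with hrF
  set pA : Fib →ₐ[𝒪] U.A := (AlgHom.fst 𝒪 U.A V.A).comp Fib.val with hpA
  set pB : Fib →ₐ[𝒪] V.A := (AlgHom.snd 𝒪 U.A V.A).comp Fib.val with hpB
  have hpAr : mapMat (pA : Fib →+* U.A) rF = U.r := by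
    ext σ i j; rfl
  have hpBr : mapMat (pB : Fib →+* V.A) rF = V.r := by
    ext σ i j; rfl
  have hinj : Function.Injective (fun x : Fib => (pA x, pB x)) := by
    intro x y hxy
    exact Subtype.ext hxy
  have hlocA : IsLocalHom (pA : Fib →+* U.A) := isLocalHom_of_test htest pA
  have hlocB : IsLocalHom (pB : Fib →+* V.A) := isLocalHom_of_test htest pB
  -- continuity
  have hcont : MatCont rF := by
    intro m
    obtain ⟨L₁, hL₁, h₁⟩ := U.dlift.cont n
    obtain ⟨L₂, hL₂, h₂⟩ := V.dlift.cont n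
    refine ⟨L₁ ⊔ L₂, IntermediateField.finiteDimensional_sup L₁ L₂, fun σ hσ i j => ?_⟩
    have e1 : (U.r σ - 1) i j = 0 := by
      have := h₁ σ (fun x hx => hσ x ((le_sup_left : L₁ ≤ L₁ ⊔ L₂) hx)) i j
      rwa [U.pow_eq] at this
    have e2 : (V.r σ - 1) i j = 0 := by
      have := h₂ σ (fun x hx => hσ x ((le_sup_right : L₂ ≤ L₁ ⊔ L₂) hx)) i j
      rwa [V.pow_eq] at this
    have e3 : (rF σ - 1) i j = 0 := by
      apply hinj
      simp only [map_zero]
      refine Prod.ext ?_ ?_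
      · show pA ((rF σ - 1) i j) = 0
        rw [← e1, Matrix.sub_apply, Matrix.sub_apply, map_sub]
        congr 1
        rw [Matrix.one_apply, Matrix.one_apply]
        split_ifs <;> simp
      · show pB ((rF σ - 1) i j) = 0
        rw [← e2, Matrix.sub_apply, Matrix.sub_apply, map_sub]
        congr 1
        rw [Matrix.one_apply, Matrix.one_apply]
        split_ifs <;> simp
    rw [e3]
    exact Ideal.zero_mem _
  have hlift : IsLift F rF := by
    intro σ i j
    rw [hmem]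
    exact ⟨U.dlift.lift σ i j, V.dlift.lift σ i j⟩
  have hev : ∀ (c : GQ →₀ 𝒪) (i j : Fin 2) (a : Fib), ev c U.r i j = pA a → ev c V.r i j = pB a →
      ev c rF i j = a := by
    intro c i j a h1 h2
    apply hinj
    refine Prod.ext ?_ ?_
    · show pA (ev c rF i j) = pA a
      rw [← join_ev_mapMat, hpAr, h1]
    · show pB (ev c rF i j) = pB a
      rw [← join_ev_mapMat, hpBr, h2]
  have hnorm : IsNormalized F rF := by
    obtain ⟨u1, u2, u3⟩ := U.dlift.norm
    obtain ⟨v1, v2, v3⟩ := V.dlift.norm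
    exact ⟨hev _ _ _ 0 (by rw [u1, map_zero]) (by rw [v1, map_zero]),
      hev _ _ _ 0 (by rw [u2, map_zero]) (by rw [v2, map_zero]),
      hev _ _ _ 1 (by rw [u3, map_one]) (by rw [v3, map_one])⟩
  have htype : 𝒟 (ofMat rF hcont) := by
    refine h𝒟.of_fibreProduct U.test V.test test_residueField htest f g pA pB hlocA hlocB
      ?_ hinj ?_ ?_ ?_
    · ext x
      exact x.2
    · intro a b hab
      exact ⟨⟨(a, b), hab⟩, rfl, rfl⟩
    · have h1 := baseChangeAlong_ofMat_isEquiv (pA : Fib →+* U.A) hlocA hcont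
      have h2 : 𝒟 (ofMat (mapMat (pA : Fib →+* U.A) rF) (matCont_mapMat _ hlocA hcont)) := by
        have := U.dlift.type
        simp only [hpAr]
        exact this
      obtain ⟨e⟩ := h1
      exact h𝒟.of_isEquiv U.test ⟨e.symm⟩ h2
    · have h1 := baseChangeAlong_ofMat_isEquiv (pB : Fib →+* V.A) hlocB hcont
      have h2 : 𝒟 (ofMat (mapMat (pB : Fib →+* V.A) rF) (matCont_mapMat _ hlocB hcont)) := by
        have := V.dlift.type
        simp only [hpBr]
        exact this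
      obtain ⟨e⟩ := h1
      exact h𝒟.of_isEquiv V.test ⟨e.symm⟩ h2
  obtain ⟨W, ι, -, hι⟩ := exists_obj_of_isDLift F h𝒟 htest n hpow
    (⟨hcont, hlift, hnorm, htype⟩ : IsDLift F 𝒟 rF)
  refine ⟨W, pA.comp ι, pB.comp ι, ?_, ?_⟩
  · rw [← hpAr, ← hι]; rfl
  · rw [← hpBr, ← hι]; rfl

end C

end Fermat.Agent.S53
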