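import Mathlib
import Fermat.Prelude.Def_GaloisRep_DeformationCondition

set_option autoImplicit false
set_option linter.style.haveILetI false
set_option linter.unusedSectionVars false

namespace Fermat.Agent.S53.X

open IsLocalRing GaloisRep

variable {𝒪 : Type} [CommRing 𝒪] [IsLocalRing 𝒪]

section basics

variable {A : Type} [CommRing A] [IsLocalRing A] [Algebra 𝒪 A]

/-- the maximal ideal of an Artinian test algebra is nilpotent -/
theorem art_pow_eq_bot (hA : IsArtinianTestAlgebra 𝒪 A) : ∃ n : ℕ, maximalIdeal A ^ n = ⊥ := by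
  haveI := hA.isArtinian
  obtain ⟨n, hn⟩ := (isArtinianRing_iff_isNilpotent_maximalIdeal A).mp inferInstance
  exact ⟨n, hn⟩

theorem art_isNilpotent (hA : IsArtinianTestAlgebra 𝒪 A) {a : A} (ha : a ∈ maximalIdeal A) :
    IsNilpotent a := by
  obtain ⟨n, hn⟩ := art_pow_eq_bot hA
  refine ⟨n, ?_⟩
  have : a ^ n ∈ maximalIdeal A ^ n := Ideal.pow_mem_pow ha n
  rw [hn] at this
  simpa using this

theorem exists_sub_mem (hs : Function.Surjective (IsLocalRing.residue A ∘ algebraMap 𝒪 A)) (a : A) :
    ∃ c : 𝒪, a - algebraMap 𝒪 A c ∈ maximalIdeal A := by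
  obtain ⟨c, hc⟩ := hs (IsLocalRing.residue A a)
  refine ⟨c, ?_⟩
  rw [← IsLocalRing.residue_eq_zero_iff, map_sub, sub_eq_zero]
  exact hc.symm

/-- every `𝒪`-algebra hom from a local `𝒪`-algebra to a local `𝒪`-algebra with residue field
covered by `𝒪` is local. -/
theorem isLocalHom_of_residue_surjective {B : Type} [CommRing B] [IsLocalRing B] [Algebra 𝒪 B]
    (hs : Function.Surjective (IsLocalRing.residue B ∘ algebraMap 𝒪 B)) (φ : A →ₐ[𝒪] B) :
    IsLocalHom (φ : A →+* B) := by
  constructor
  intro a ha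
  by_contra hna
  have ha' : IsUnit (φ a) := ha
  obtain ⟨u, hu⟩ := ha'
  obtain ⟨c, hc⟩ := exists_sub_mem hs (↑u⁻¹ : B)
  have h1 : IsUnit (1 - algebraMap 𝒪 A c * a) := by
    have hmem : algebraMap 𝒪 A c * a ∈ maximalIdeal A :=
      Ideal.mul_mem_left _ _ ((IsLocalRing.mem_maximalIdeal a).mpr hna)
    have := IsLocalRing.isUnit_one_sub_self_of_mem_nonunits _ ((IsLocalRing.mem_maximalIdeal _).mp hmem)
    exact this
  have h2 : IsUnit (φ (1 - algebraMap 𝒪 A c * a)) := h1.map φ
  have h3 : φ (1 - algebraMap 𝒪 A c * a) = ((↑u⁻¹ : B) - algebraMap 𝒪 B c) * φ a := by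
    rw [map_sub, map_one, map_mul, AlgHom.commutes, sub_mul, ← hu, Units.inv_mul]
  rw [h3] at h2
  have h4 : ((↑u⁻¹ : B) - algebraMap 𝒪 B c) * φ a ∈ maximalIdeal B := Ideal.mul_mem_right _ _ hc
  exact (IsLocalRing.mem_maximalIdeal _).mp h4 h2

theorem art_finite [Finite (ResidueField 𝒪)] (hA : IsArtinianTestAlgebra 𝒪 A) : Finite A := by
  haveI := hA.isArtinian
  obtain ⟨n, hn⟩ := art_pow_eq_bot hA
  haveI : Finite (A ⧸ maximalIdeal A) := by
    have hsurj : Function.Surjective (IsLocalRing.residue A ∘ algebraMap 𝒪 A) := hA.residue_surjective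
    haveI := hA.isLocalHom
    have : Function.Surjective (IsLocalRing.ResidueField.map (algebraMap 𝒪 A)) := by
      intro x
      obtain ⟨c, hc⟩ := hsurj x
      exact ⟨IsLocalRing.residue 𝒪 c, by rw [IsLocalRing.ResidueField.map_residue]; exact hc⟩
    exact Finite.of_surjective _ this
  have hfin : Finite (A ⧸ maximalIdeal A ^ n) :=
    Ideal.finite_quotient_pow (IsNoetherian.noetherian _) n
  rw [hn] at hfin
  exact Finite.of_equiv _ (RingEquiv.quotientBot A).toEquiv

end basics

/-- the residue field of `𝒪` is the residue field of `A`. -/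
noncomputable def resEquiv (A : Type) [CommRing A] [IsLocalRing A] [Algebra 𝒪 A]
    [IsLocalHom (algebraMap 𝒪 A)]
    (hs : Function.Surjective (IsLocalRing.residue A ∘ algebraMap 𝒪 A)) :
    ResidueField 𝒪 ≃+* ResidueField A :=
  RingEquiv.ofBijective (IsLocalRing.ResidueField.map (algebraMap 𝒪 A))
    ⟨RingHom.injective _, fun x => by
      obtain ⟨c, hc⟩ := hs x
      exact ⟨IsLocalRing.residue 𝒪 c, by rw [IsLocalRing.ResidueField.map_residue]; exact hc⟩⟩

/-- the augmentation of an Artinian test algebra (more generally a local algebra with local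
structure map and residue field covered by `𝒪`). -/
noncomputable def aug (A : Type) [CommRing A] [IsLocalRing A] [Algebra 𝒪 A]
    [IsLocalHom (algebraMap 𝒪 A)]
    (hs : Function.Surjective (IsLocalRing.residue A ∘ algebraMap 𝒪 A)) :
    A →ₐ[𝒪] ResidueField 𝒪 :=
  { (((resEquiv A hs).symm : ResidueField A →+* ResidueField 𝒪).comp (IsLocalRing.residue A)) with
    commutes' := fun c => by
      show (resEquiv A hs).symm (IsLocalRing.residue A (algebraMap 𝒪 A c)) = _
      rw [RingEquiv.symm_apply_eq]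
      show _ = IsLocalRing.ResidueField.map (algebraMap 𝒪 A) (IsLocalRing.residue 𝒪 c)
      rw [IsLocalRing.ResidueField.map_residue] }

theorem aug_apply {A : Type} [CommRing A] [IsLocalRing A] [Algebra 𝒪 A]
    [IsLocalHom (algebraMap 𝒪 A)]
    (hs : Function.Surjective (IsLocalRing.residue A ∘ algebraMap 𝒪 A)) (a : A) :
    aug A hs a = (resEquiv A hs).symm (IsLocalRing.residue A a) := rfl

theorem aug_eq_zero_iff {A : Type} [CommRing A] [IsLocalRing A] [Algebra 𝒪 A]
    [IsLocalHom (algebraMap 𝒪 A)]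
    (hs : Function.Surjective (IsLocalRing.residue A ∘ algebraMap 𝒪 A)) (a : A) :
    aug A hs a = 0 ↔ a ∈ maximalIdeal A := by
  rw [aug_apply, map_eq_zero_iff _ (RingEquiv.injective _), IsLocalRing.residue_eq_zero_iff]

/-- Criterion: an `𝒪`-algebra with an augmentation to `k` with nil kernel, finite, is an
Artinian test algebra. -/
theorem isLocalRing_of_aug {B : Type} [CommRing B] [Algebra 𝒪 B]
    (v : B →ₐ[𝒪] ResidueField 𝒪) (hnil : ∀ b, v b = 0 → IsNilpotent b) : IsLocalRing B := by
  haveI : Nontrivial B := ⟨⟨0, 1, fun h => by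
    have := congrArg v h
    rw [map_zero, map_one] at this
    exact zero_ne_one this⟩⟩
  refine IsLocalRing.of_isUnit_or_isUnit_one_sub_self fun b => ?_
  by_cases hb : v b = 0
  · right
    exact (hnil b hb).isUnit_one_sub
  · left
    obtain ⟨c, hc⟩ := IsLocalRing.residue_surjective (v b)
    have hcu : IsUnit c := by
      by_contra hcn
      apply hb
      rw [← hc]
      exact (IsLocalRing.residue_eq_zero_iff c).mpr ((IsLocalRing.mem_maximalIdeal c).mpr hcn)
    have h0 : v (b - algebraMap 𝒪 B c) = 0 := by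
      rw [map_sub, AlgHom.commutes, ← hc]
      exact sub_self _
    have hn := hnil _ h0
    have : b = algebraMap 𝒪 B c + (b - algebraMap 𝒪 B c) := by ring
    rw [this]
    exact IsNilpotent.isUnit_add_left_of_commute hn (hcu.map _) (Commute.all _ _)

theorem mem_maximalIdeal_iff_of_aug {B : Type} [CommRing B] [IsLocalRing B] [Algebra 𝒪 B]
    (v : B →ₐ[𝒪] ResidueField 𝒪) (hnil : ∀ b, v b = 0 → IsNilpotent b) (b : B) :
    b ∈ maximalIdeal B ↔ v b = 0 := by
  constructor
  · intro hb
    by_contra hv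
    have : IsUnit (v b) := isUnit_iff_ne_zero.mpr hv
    obtain ⟨c, hc⟩ := IsLocalRing.residue_surjective (v b)
    have hcu : IsUnit c := by
      by_contra hcn
      apply hv
      rw [← hc]
      exact (IsLocalRing.residue_eq_zero_iff c).mpr ((IsLocalRing.mem_maximalIdeal c).mpr hcn)
    have h0 : v (b - algebraMap 𝒪 B c) = 0 := by
      rw [map_sub, AlgHom.commutes, ← hc]
      exact sub_self _
    have hn := hnil _ h0
    have hmem : b - algebraMap 𝒪 B c ∈ maximalIdeal B := by
      rw [IsLocalRing.mem_maximalIdeal]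
      intro hu
      obtain ⟨n, hn⟩ := hn
      have := hu.pow n
      rw [hn] at this
      exact not_isUnit_zero this
    have : algebraMap 𝒪 B c ∈ maximalIdeal B := by
      have := Ideal.sub_mem _ hb hmem
      simpa using this
    exact (IsLocalRing.mem_maximalIdeal _).mp this (hcu.map _)
  · intro hv
    rw [IsLocalRing.mem_maximalIdeal]
    intro hu
    obtain ⟨n, hn⟩ := hnil b hv
    have := hu.pow n
    rw [hn] at this
    exact not_isUnit_zero this

theorem art_of_aug {B : Type} [CommRing B] [IsLocalRing B] [Algebra 𝒪 B] [Finite B]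
    (v : B →ₐ[𝒪] ResidueField 𝒪) (hnil : ∀ b, v b = 0 → IsNilpotent b) :
    IsArtinianTestAlgebra 𝒪 B where
  isLocalHom := by
    constructor
    intro c hc
    have h1 : IsUnit (v (algebraMap 𝒪 B c)) := hc.map v
    rw [AlgHom.commutes] at h1
    by_contra hcn
    have : algebraMap 𝒪 (ResidueField 𝒪) c = 0 :=
      (IsLocalRing.residue_eq_zero_iff c).mpr ((IsLocalRing.mem_maximalIdeal c).mpr hcn)
    rw [this] at h1
    exact not_isUnit_zero h1
  residue_surjective := by
    intro x
    obtain ⟨b, rfl⟩ := IsLocalRing.residue_surjective x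
    obtain ⟨c, hc⟩ := IsLocalRing.residue_surjective (v b)
    refine ⟨c, ?_⟩
    show IsLocalRing.residue B (algebraMap 𝒪 B c) = IsLocalRing.residue B b
    rw [← sub_eq_zero, ← map_sub, IsLocalRing.residue_eq_zero_iff,
      mem_maximalIdeal_iff_of_aug v hnil, map_sub, AlgHom.commutes, ← hc]
    exact sub_self _
  isArtinian := inferInstance

theorem art_residueField : IsArtinianTestAlgebra 𝒪 (ResidueField 𝒪) where
  isLocalHom := by
    constructor
    intro c hc
    by_contra hcn
    have : algebraMap 𝒪 (ResidueField 𝒪) c = 0 :=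
      (IsLocalRing.residue_eq_zero_iff c).mpr ((IsLocalRing.mem_maximalIdeal c).mpr hcn)
    rw [this] at hc
    exact not_isUnit_zero hc
  residue_surjective := by
    intro x
    obtain ⟨b, rfl⟩ := IsLocalRing.residue_surjective x
    obtain ⟨c, rfl⟩ := IsLocalRing.residue_surjective b
    exact ⟨c, rfl⟩
  isArtinian := inferInstance

end Fermat.Agent.S53.X
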