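import Mathlib
import Fermat.Agent.S53.XArt

set_option autoImplicit false
set_option linter.style.haveILetI false
set_option linter.unusedSectionVars false

namespace Fermat.Agent.S53.X

open IsLocalRing GaloisRep

variable {𝒪 : Type} [CommRing 𝒪] [IsLocalRing 𝒪]

/-- Lemma T: an ideal strictly smaller than the maximal ideal is killed by a map to the
"dual numbers" `E` which does not kill the maximal ideal. -/
theorem exists_algHom_dual
    {B : Type} [CommRing B] [IsLocalRing B] [Algebra 𝒪 B] (hB : IsArtinianTestAlgebra 𝒪 B)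
    {E : Type} [CommRing E] [Algebra 𝒪 E] (ε : E) (hε0 : ε ≠ 0) (hε2 : ε * ε = 0)
    (hεm : ∀ c ∈ maximalIdeal 𝒪, algebraMap 𝒪 E c = 0)
    (𝔞 : Ideal B) (h𝔞 : 𝔞 < maximalIdeal B) (h𝔞m : ∀ c ∈ maximalIdeal 𝒪, algebraMap 𝒪 B c ∈ 𝔞) :
    ∃ ψ : B →ₐ[𝒪] E, (∀ a ∈ 𝔞, ψ a = 0) ∧ ∃ b ∈ maximalIdeal B, ψ b ≠ 0 := by
  haveI := hB.isArtinian
  haveI := hB.isLocalHom
  set m := maximalIdeal B with hm
  -- Step 1
  have h𝔟 : 𝔞 ⊔ m * m < m := by
    refine lt_of_le_of_ne (sup_le h𝔞.le Ideal.mul_le_left) fun heq => ?_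
    have h1 : m ≤ 𝔞 ⊔ m • m := by rw [smul_eq_mul]; exact heq.ge
    have h2 : m ≤ 𝔞 := Submodule.le_of_le_smul_of_le_jacobson_bot (IsNoetherian.noetherian m)
      (IsLocalRing.maximalIdeal_le_jacobson _) h1
    exact absurd h𝔞 (not_lt_of_ge h2)
  -- Step 2
  obtain ⟨𝔠, ⟨h𝔠1, h𝔠2⟩, h𝔠max⟩ :=
    WellFounded.has_min (wellFounded_gt (α := Ideal B)) {𝔠 | 𝔞 ⊔ m * m ≤ 𝔠 ∧ 𝔠 < m} ⟨_, le_rfl, h𝔟⟩
  obtain ⟨w₀, hw₀m, hw₀𝔠⟩ := SetLike.exists_of_lt h𝔠2
  have hsup : 𝔠 ⊔ Ideal.span {w₀} = m := by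
    by_contra hne
    have hle : 𝔠 ⊔ Ideal.span {w₀} ≤ m :=
      sup_le h𝔠2.le ((Ideal.span_singleton_le_iff_mem _).mpr hw₀m)
    have hlt : 𝔠 ⊔ Ideal.span {w₀} < m := lt_of_le_of_ne hle hne
    refine h𝔠max _ ⟨h𝔠1.trans le_sup_left, hlt⟩ ?_
    refine lt_of_le_of_ne le_sup_left fun heq => hw₀𝔠 ?_
    rw [heq]
    exact Ideal.mem_sup_right (Ideal.mem_span_singleton_self w₀)
  have h𝔞𝔠 : 𝔞 ≤ 𝔠 := le_sup_left.trans h𝔠1
  have hmm𝔠 : m * m ≤ 𝔠 := le_sup_right.trans h𝔠1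
  -- Step 3
  have key1 : ∀ b : B, ∃ c d : 𝒪, b - (algebraMap 𝒪 B c + algebraMap 𝒪 B d * w₀) ∈ 𝔠 := by
    intro b
    obtain ⟨c, hc⟩ := exists_sub_mem hB.residue_surjective b
    rw [← hm, ← hsup] at hc
    obtain ⟨y, hy, z, hz, hyz⟩ := Submodule.mem_sup.mp hc
    obtain ⟨r, rfl⟩ := Ideal.mem_span_singleton'.mp hz
    obtain ⟨d, hd⟩ := exists_sub_mem hB.residue_surjective r
    refine ⟨c, d, ?_⟩
    have : b - (algebraMap 𝒪 B c + algebraMap 𝒪 B d * w₀) = y + (r - algebraMap 𝒪 B d) * w₀ := by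
      linear_combination -hyz
    rw [this]
    exact 𝔠.add_mem hy (hmm𝔠 (Ideal.mul_mem_mul hd hw₀m))
  have key2 : ∀ c d : 𝒪, algebraMap 𝒪 B c + algebraMap 𝒪 B d * w₀ ∈ 𝔠 →
      c ∈ maximalIdeal 𝒪 ∧ d ∈ maximalIdeal 𝒪 := by
    intro c d h
    have hc : c ∈ maximalIdeal 𝒪 := by
      rw [IsLocalRing.mem_maximalIdeal]
      intro hcu
      have h1 : algebraMap 𝒪 B c ∈ m := by
        have := m.sub_mem (h𝔠2.le h) (m.mul_mem_left (algebraMap 𝒪 B d) hw₀m)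
        simpa using this
      exact (IsLocalRing.mem_maximalIdeal _).mp h1 (hcu.map _)
    refine ⟨hc, ?_⟩
    rw [IsLocalRing.mem_maximalIdeal]
    intro hdu
    have h1 : algebraMap 𝒪 B d * w₀ ∈ 𝔠 := by
      have := 𝔠.sub_mem h (h𝔞𝔠 (h𝔞m c hc))
      simpa using this
    exact hw₀𝔠 ((Ideal.unit_mul_mem_iff_mem 𝔠 (hdu.map _)).mp h1)
  let g : 𝒪 → 𝒪 → E := fun c d => algebraMap 𝒪 E c + algebraMap 𝒪 E d * ε
  have key3 : ∀ c d c' d' : 𝒪, (algebraMap 𝒪 B c + algebraMap 𝒪 B d * w₀) -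
      (algebraMap 𝒪 B c' + algebraMap 𝒪 B d' * w₀) ∈ 𝔠 → g c d = g c' d' := by
    intro c d c' d' h
    have h' : algebraMap 𝒪 B (c - c') + algebraMap 𝒪 B (d - d') * w₀ ∈ 𝔠 := by
      have : algebraMap 𝒪 B (c - c') + algebraMap 𝒪 B (d - d') * w₀ =
        (algebraMap 𝒪 B c + algebraMap 𝒪 B d * w₀) -
          (algebraMap 𝒪 B c' + algebraMap 𝒪 B d' * w₀) := by
        rw [map_sub, map_sub]; ring
      rw [this]; exact h
    obtain ⟨h1, h2⟩ := key2 _ _ h'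
    have e1 := hεm _ h1
    have e2 := hεm _ h2
    rw [map_sub] at e1 e2
    show algebraMap 𝒪 E c + algebraMap 𝒪 E d * ε = algebraMap 𝒪 E c' + algebraMap 𝒪 E d' * ε
    linear_combination e1 + ε * e2
  choose cf df hcd using key1
  have key4 : ∀ (b : B) (c d : 𝒪), b - (algebraMap 𝒪 B c + algebraMap 𝒪 B d * w₀) ∈ 𝔠 →
      g (cf b) (df b) = g c d := by
    intro b c d h
    apply key3
    have := 𝔠.sub_mem h (hcd b)
    have e : (algebraMap 𝒪 B (cf b) + algebraMap 𝒪 B (df b) * w₀) -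
      (algebraMap 𝒪 B c + algebraMap 𝒪 B d * w₀) =
      (b - (algebraMap 𝒪 B c + algebraMap 𝒪 B d * w₀)) -
        (b - (algebraMap 𝒪 B (cf b) + algebraMap 𝒪 B (df b) * w₀)) := by ring
    rw [e]; exact this
  let ψ : B →ₐ[𝒪] E :=
    { toFun := fun b => g (cf b) (df b)
      map_one' := by
        rw [key4 1 1 0 (by simp)]
        simp [g]
      map_mul' := fun b b' => by
        rw [key4 (b * b') (cf b * cf b') (cf b * df b' + cf b' * df b)]
        · simp only [g, map_mul, map_add]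
          linear_combination (-(algebraMap 𝒪 E (df b) * algebraMap 𝒪 E (df b'))) * hε2
        · have e : b * b' - (algebraMap 𝒪 B (cf b * cf b') +
              algebraMap 𝒪 B (cf b * df b' + cf b' * df b) * w₀) =
              (b - (algebraMap 𝒪 B (cf b) + algebraMap 𝒪 B (df b) * w₀)) * b' +
              (algebraMap 𝒪 B (cf b) + algebraMap 𝒪 B (df b) * w₀) *
                (b' - (algebraMap 𝒪 B (cf b') + algebraMap 𝒪 B (df b') * w₀)) +
              (algebraMap 𝒪 B (df b) * algebraMap 𝒪 B (df b')) * (w₀ * w₀) := by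
            simp only [map_mul, map_add]; ring
          rw [e]
          exact 𝔠.add_mem (𝔠.add_mem (𝔠.mul_mem_right _ (hcd b)) (𝔠.mul_mem_left _ (hcd b')))
            (𝔠.mul_mem_left _ (hmm𝔠 (Ideal.mul_mem_mul hw₀m hw₀m)))
      map_zero' := by
        rw [key4 0 0 0 (by simp)]
        simp [g]
      map_add' := fun b b' => by
        rw [key4 (b + b') (cf b + cf b') (df b + df b')]
        · simp only [g, map_add]; ring
        · have e : b + b' - (algebraMap 𝒪 B (cf b + cf b') +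
              algebraMap 𝒪 B (df b + df b') * w₀) =
              (b - (algebraMap 𝒪 B (cf b) + algebraMap 𝒪 B (df b) * w₀)) +
              (b' - (algebraMap 𝒪 B (cf b') + algebraMap 𝒪 B (df b') * w₀)) := by
            simp only [map_add]; ring
          rw [e]
          exact 𝔠.add_mem (hcd b) (hcd b')
      commutes' := fun r => by
        rw [key4 (algebraMap 𝒪 B r) r 0 (by simp)]
        simp [g] }
  refine ⟨ψ, fun a ha => ?_, w₀, hw₀m, ?_⟩
  · show g (cf a) (df a) = 0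
    rw [key4 a 0 0 (by simpa using h𝔞𝔠 ha)]
    simp [g]
  · show g (cf w₀) (df w₀) ≠ 0
    rw [key4 w₀ 0 1 (by simp)]
    simpa [g] using hε0

end Fermat.Agent.S53.X
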