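/-
S53 team, block TC3i: the algebra part of the tangent space bound.
If an Artinian test algebra `A` has at most `c` homomorphisms to the dual numbers `k[ε]`, then `A`
is generated as an `𝒪`-algebra by `c` elements of its maximal ideal.
-/
import Mathlib
import Fermat.Agent.S53.Defs
import Fermat.Agent.S53.XArt
import Fermat.Agent.S53.XTangent

set_option autoImplicit false
set_option linter.unusedSectionVars false
set_option linter.style.haveILetI false

namespace Fermat.Agent.S53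

open IsLocalRing GaloisRep

variable {𝒪 : Type} [CommRing 𝒪] [IsLocalRing 𝒪]

section TangentAlg

variable {A : Type} [CommRing A] [IsLocalRing A] [Algebra 𝒪 A]

/-- Nakayama type induction step. -/
theorem tangentAlg_step (A' : Subalgebra 𝒪 A)
    (h : ∀ a ∈ maximalIdeal A, ∃ a' ∈ A', a - a' ∈ maximalIdeal A ^ 2) (j : ℕ) :
    ∀ a ∈ maximalIdeal A ^ (j + 1), ∃ a' ∈ A', a - a' ∈ maximalIdeal A ^ (j + 2) := by
  induction j with
  | zero =>
    intro a ha
    rw [zero_add, pow_one] at ha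
    exact h a ha
  | succ j ih =>
    intro a ha
    rw [pow_succ] at ha
    refine Submodule.mul_induction_on ha ?_ ?_
    · intro x hx y hy
      obtain ⟨x', hx', hxx⟩ := ih x hx
      obtain ⟨y', hy', hyy⟩ := h y hy
      refine ⟨x' * y', A'.mul_mem hx' hy', ?_⟩
      have hx'm : x' ∈ maximalIdeal A ^ (j + 1) := by
        have h1 : x - x' ∈ maximalIdeal A ^ (j + 1) := Ideal.pow_le_pow_right (by omega) hxx
        have := Ideal.sub_mem _ hx h1
        simpa using this
      have e : x * y - x' * y' = (x - x') * y + x' * (y - y') := by ring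
      rw [e]
      refine Ideal.add_mem _ ?_ ?_
      · have := Ideal.mul_mem_mul hxx hy
        rwa [← pow_succ] at this
      · have := Ideal.mul_mem_mul hx'm hyy
        rwa [← pow_add] at this
    · intro x y ⟨x', hx', hxx⟩ ⟨y', hy', hyy⟩
      refine ⟨x' + y', A'.add_mem hx' hy', ?_⟩
      have e : x + y - (x' + y') = (x - x') + (y - y') := by ring
      rw [e]
      exact Ideal.add_mem _ hxx hyy

/-- Nakayama type lemma: a subalgebra which covers `𝔪 / 𝔪 ^ 2` is everything. -/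
theorem tangentAlg_eq_top (hA : IsArtinianTestAlgebra 𝒪 A) (A' : Subalgebra 𝒪 A)
    (h : ∀ a ∈ maximalIdeal A, ∃ a' ∈ A', a - a' ∈ maximalIdeal A ^ 2) : A' = ⊤ := by
  have key : ∀ (j : ℕ) (a : A), ∃ a' ∈ A', a - a' ∈ maximalIdeal A ^ (j + 1) := by
    intro j
    induction j with
    | zero =>
      intro a
      obtain ⟨c, hc⟩ := X.exists_sub_mem hA.residue_surjective a
      exact ⟨algebraMap 𝒪 A c, A'.algebraMap_mem c, by simpa using hc⟩
    | succ j ih =>
      intro a
      obtain ⟨a', ha', haa⟩ := ih a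
      obtain ⟨a'', ha'', haa'⟩ := tangentAlg_step A' h j _ haa
      refine ⟨a' + a'', A'.add_mem ha' ha'', ?_⟩
      have e : a - (a' + a'') = a - a' - a'' := by ring
      rw [e]
      exact haa'
  obtain ⟨n, hn⟩ := X.art_pow_eq_bot hA
  rw [eq_top_iff]
  intro a _
  obtain ⟨a', ha', haa⟩ := key n a
  have h1 : a - a' ∈ maximalIdeal A ^ n := Ideal.pow_le_pow_right (by omega) haa
  rw [hn, Ideal.mem_bot, sub_eq_zero] at h1
  rw [h1]
  exact ha'

/-- the ideal generated by a set `t` and the image of the maximal ideal of `𝒪`. -/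
def tangentAlgIdeal (𝒪 : Type) [CommRing 𝒪] [IsLocalRing 𝒪] {A : Type} [CommRing A] [Algebra 𝒪 A]
    (t : Set A) : Ideal A :=
  Ideal.span (t ∪ (algebraMap 𝒪 A) '' (maximalIdeal 𝒪 : Set 𝒪))

theorem tangentAlgIdeal_le (hA : IsArtinianTestAlgebra 𝒪 A) {t : Set A}
    (ht : ∀ a ∈ t, a ∈ maximalIdeal A) : tangentAlgIdeal 𝒪 t ≤ maximalIdeal A := by
  haveI := hA.isLocalHom
  refine Ideal.span_le.mpr ?_
  rintro a (ha | ⟨c, hc, rfl⟩)
  · exact ht a ha
  · show algebraMap 𝒪 A c ∈ maximalIdeal A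
    rw [IsLocalRing.mem_maximalIdeal]
    intro hu
    exact (IsLocalRing.mem_maximalIdeal c).mp hc (isUnit_of_map_unit (algebraMap 𝒪 A) c hu)

/-- if `t` and `𝔪_𝒪` generate the maximal ideal, then `t` generates `A` as an algebra. -/
theorem tangentAlg_adjoin_eq_top (hA : IsArtinianTestAlgebra 𝒪 A) {t : Set A}
    (ht : ∀ a ∈ t, a ∈ maximalIdeal A) (h : maximalIdeal A ≤ tangentAlgIdeal 𝒪 t) :
    Algebra.adjoin 𝒪 t = ⊤ := by
  refine tangentAlg_eq_top hA _ fun a ha => ?_
  have hle := tangentAlgIdeal_le hA ht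
  have ha' := h ha
  clear ha
  unfold tangentAlgIdeal at ha'
  induction ha' using Submodule.span_induction with
  | mem x hx =>
    refine ⟨x, ?_, by simp⟩
    rcases hx with hx | ⟨c, _, rfl⟩
    · exact Algebra.subset_adjoin hx
    · exact Subalgebra.algebraMap_mem _ c
  | zero => exact ⟨0, Subalgebra.zero_mem _, by simp⟩
  | add x y _ _ hx hy =>
    obtain ⟨x', hx', hxx⟩ := hx
    obtain ⟨y', hy', hyy⟩ := hy
    refine ⟨x' + y', Subalgebra.add_mem _ hx' hy', ?_⟩
    have e : x + y - (x' + y') = (x - x') + (y - y') := by ring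
    rw [e]
    exact Ideal.add_mem _ hxx hyy
  | smul r x hxs hx =>
    obtain ⟨x', hx', hxx⟩ := hx
    obtain ⟨e, he⟩ := X.exists_sub_mem hA.residue_surjective r
    refine ⟨algebraMap 𝒪 A e * x', Subalgebra.mul_mem _ (Subalgebra.algebraMap_mem _ e) hx', ?_⟩
    have e1 : r • x - algebraMap 𝒪 A e * x' = algebraMap 𝒪 A e * (x - x') +
        (r - algebraMap 𝒪 A e) * x := by
      rw [smul_eq_mul]; ring
    rw [e1]
    refine Ideal.add_mem _ (Ideal.mul_mem_left _ _ hxx) ?_
    rw [pow_two]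
    exact Ideal.mul_mem_mul he (hle hxs)

/-- conversely, algebra generators in the maximal ideal generate it together with `𝔪_𝒪`. -/
theorem tangentAlg_le_of_adjoin_eq_top {t : Set A}
    (ht : ∀ a ∈ t, a ∈ maximalIdeal A) (h : Algebra.adjoin 𝒪 t = ⊤) :
    maximalIdeal A ≤ tangentAlgIdeal 𝒪 t := by
  have key : ∀ a ∈ Algebra.adjoin 𝒪 t, ∃ c : 𝒪, a - algebraMap 𝒪 A c ∈ Ideal.span t := by
    intro a ha
    induction ha using Algebra.adjoin_induction with
    | mem x hx => exact ⟨0, by simpa using Ideal.subset_span hx⟩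
    | algebraMap r => exact ⟨r, by simp⟩
    | add x y _ _ hx hy =>
      obtain ⟨c, hc⟩ := hx
      obtain ⟨c', hc'⟩ := hy
      refine ⟨c + c', ?_⟩
      have e : x + y - algebraMap 𝒪 A (c + c') = (x - algebraMap 𝒪 A c) +
          (y - algebraMap 𝒪 A c') := by rw [map_add]; ring
      rw [e]
      exact Ideal.add_mem _ hc hc'
    | mul x y _ _ hx hy =>
      obtain ⟨c, hc⟩ := hx
      obtain ⟨c', hc'⟩ := hy
      refine ⟨c * c', ?_⟩
      have e : x * y - algebraMap 𝒪 A (c * c') = (x - algebraMap 𝒪 A c) * y +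
          algebraMap 𝒪 A c * (y - algebraMap 𝒪 A c') := by rw [map_mul]; ring
      rw [e]
      exact Ideal.add_mem _ (Ideal.mul_mem_right _ _ hc) (Ideal.mul_mem_left _ _ hc')
  intro b hb
  obtain ⟨c, hc⟩ := key b (by rw [h]; exact Algebra.mem_top)
  have hspan : Ideal.span t ≤ maximalIdeal A := Ideal.span_le.mpr fun a ha => ht a ha
  have hcm : algebraMap 𝒪 A c ∈ maximalIdeal A := by
    have := Ideal.sub_mem _ hb (hspan hc)
    simpa using this
  have hc𝒪 : c ∈ maximalIdeal 𝒪 := by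
    rw [IsLocalRing.mem_maximalIdeal]
    intro hu
    exact (IsLocalRing.mem_maximalIdeal _).mp hcm (hu.map _)
  have e : b = (b - algebraMap 𝒪 A c) + algebraMap 𝒪 A c := by ring
  rw [e]
  refine Ideal.add_mem _ ?_ ?_
  · exact Ideal.span_mono Set.subset_union_left hc
  · exact Ideal.subset_span (Or.inr ⟨c, hc𝒪, rfl⟩)

instance tangentAlg_finite_eps [Finite (ResidueField 𝒪)] : Finite (Eps 𝒪) :=
  inferInstanceAs (Finite (ResidueField 𝒪 × ResidueField 𝒪))

/-- the element `ε` of `k[ε]`. -/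
noncomputable def tangentAlgEps (𝒪 : Type) [CommRing 𝒪] [IsLocalRing 𝒪] : Eps 𝒪 :=
  (DualNumber.eps : DualNumber (ResidueField 𝒪))

theorem tangentAlgEps_ne_zero : tangentAlgEps 𝒪 ≠ 0 := by
  intro h
  have : TrivSqZeroExt.snd (DualNumber.eps : DualNumber (ResidueField 𝒪)) = 0 := by
    have h' : (DualNumber.eps : DualNumber (ResidueField 𝒪)) = 0 := h
    rw [h']; rfl
  rw [DualNumber.snd_eps] at this
  exact one_ne_zero this

theorem tangentAlgEps_mul_self : tangentAlgEps 𝒪 * tangentAlgEps 𝒪 = 0 :=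
  DualNumber.eps_mul_eps

theorem tangentAlg_algebraMap_eq_zero (c : 𝒪) (hc : c ∈ maximalIdeal 𝒪) :
    algebraMap 𝒪 (Eps 𝒪) c = 0 := by
  have h1 : algebraMap 𝒪 (Eps 𝒪) c =
    algebraMap (ResidueField 𝒪) (DualNumber (ResidueField 𝒪)) (algebraMap 𝒪 (ResidueField 𝒪) c) := rfl
  have h2 : algebraMap 𝒪 (ResidueField 𝒪) c = 0 := (IsLocalRing.residue_eq_zero_iff c).mpr hc
  rw [h1, h2, map_zero]
  rfl

end TangentAlg

variable [Finite (ResidueField 𝒪)]

theorem exists_generators_of_card_hom_le {A : Type} [CommRing A] [IsLocalRing A] [Algebra 𝒪 A]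
    (hA : IsArtinianTestAlgebra 𝒪 A) (c : ℕ) (hc : Nat.card (A →ₐ[𝒪] Eps 𝒪) ≤ c) :
    ∃ y : Fin c → A, (∀ i, y i ∈ maximalIdeal A) ∧ Algebra.adjoin 𝒪 (Set.range y) = ⊤ := by
  classical
  haveI : Finite A := X.art_finite hA
  haveI : Fintype A := Fintype.ofFinite A
  haveI : Finite (A →ₐ[𝒪] Eps 𝒪) :=
    Finite.of_injective (fun f => (f : A → Eps 𝒪)) DFunLike.coe_injective
  -- a generating set of minimal cardinality
  let P : ℕ → Prop := fun n => ∃ s : Finset A, s.card = n ∧ (∀ a ∈ s, a ∈ maximalIdeal A) ∧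
    Algebra.adjoin 𝒪 (s : Set A) = ⊤
  have hP : ∃ n, P n := by
    refine ⟨_, Finset.univ.filter (· ∈ maximalIdeal A), rfl, fun a ha => (Finset.mem_filter.mp ha).2,
      ?_⟩
    refine tangentAlg_eq_top hA _ fun a ha => ⟨a, Algebra.subset_adjoin ?_, by simp⟩
    simpa using ha
  obtain ⟨s, hscard, hsm, hsgen⟩ := Nat.find_spec hP
  have hmin : ∀ i ∈ s, Algebra.adjoin 𝒪 ((s.erase i : Finset A) : Set A) ≠ ⊤ := by
    intro i hi hgen
    have hlt : (s.erase i).card < Nat.find hP := by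
      rw [← hscard]
      exact Finset.card_erase_lt_of_mem hi
    exact Nat.find_min hP hlt ⟨s.erase i, rfl, fun a ha => hsm a (Finset.mem_of_mem_erase ha), hgen⟩
  -- the coordinate homomorphisms
  have hψ : ∀ i : s, ∃ ψ : A →ₐ[𝒪] Eps 𝒪,
      (∀ a ∈ tangentAlgIdeal 𝒪 ((s.erase i : Finset A) : Set A), ψ a = 0) ∧
      ∃ b ∈ maximalIdeal A, ψ b ≠ 0 := by
    rintro ⟨i, hi⟩
    have hm' : ∀ a ∈ ((s.erase i : Finset A) : Set A), a ∈ maximalIdeal A :=
      fun a ha => hsm a (Finset.mem_of_mem_erase (Finset.mem_coe.mp ha))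
    refine X.exists_algHom_dual hA (tangentAlgEps 𝒪) tangentAlgEps_ne_zero tangentAlgEps_mul_self
      tangentAlg_algebraMap_eq_zero _ ?_ ?_
    · refine lt_of_le_of_ne (tangentAlgIdeal_le hA hm') fun heq => ?_
      exact hmin i hi (tangentAlg_adjoin_eq_top hA hm' heq.ge)
    · intro c hc
      exact Ideal.subset_span (Or.inr ⟨c, hc, rfl⟩)
  choose ψ hψ0 hψ1 using hψ
  have hinj : Function.Injective ψ := by
    intro i j hij
    by_contra hne
    obtain ⟨b, hb, hb0⟩ := hψ1 i
    apply hb0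
    have hle := tangentAlg_le_of_adjoin_eq_top (fun a ha => hsm a (Finset.mem_coe.mp ha)) hsgen
    have hker : tangentAlgIdeal 𝒪 (s : Set A) ≤ RingHom.ker (ψ i : A →+* Eps 𝒪) := by
      refine Ideal.span_le.mpr ?_
      rintro a (ha | ⟨c, hc, rfl⟩)
      · have ha' : a ∈ s := Finset.mem_coe.mp ha
        by_cases hai : a = i
        · -- use `ψ j`
          have : ψ j a = 0 := by
            refine hψ0 j a (Ideal.subset_span (Or.inl ?_))
            refine Finset.mem_coe.mpr (Finset.mem_erase.mpr ⟨?_, ha'⟩)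
            rw [hai]
            exact fun h => hne (Subtype.ext h)
          rw [← hij] at this
          exact this
        · exact hψ0 i a (Ideal.subset_span (Or.inl (Finset.mem_coe.mpr
            (Finset.mem_erase.mpr ⟨hai, ha'⟩))))
      · exact hψ0 i _ (Ideal.subset_span (Or.inr ⟨c, hc, rfl⟩))
    exact hker (hle hb)
  have hcard : s.card ≤ c := by
    have h1 := Nat.card_le_card_of_injective ψ hinj
    rw [Nat.card_eq_fintype_card, Fintype.card_coe] at h1
    exact h1.trans hc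
  -- enumerate
  let y : Fin c → A := fun i =>
    if h : (i : ℕ) < s.card then (s.equivFin.symm ⟨i, h⟩ : A) else 0
  refine ⟨y, fun i => ?_, ?_⟩
  · by_cases h : (i : ℕ) < s.card
    · simp only [y, dif_pos h]
      exact hsm _ (s.equivFin.symm ⟨i, h⟩).2
    · simp only [y, dif_neg h]
      exact Ideal.zero_mem _
  · rw [eq_top_iff, ← hsgen]
    refine Algebra.adjoin_mono ?_
    intro a ha
    have ha' : a ∈ s := Finset.mem_coe.mp ha
    set k := s.equivFin ⟨a, ha'⟩ with hk
    refine ⟨⟨k, k.2.trans_le hcard⟩, ?_⟩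
    have hlt : ((⟨k, k.2.trans_le hcard⟩ : Fin c) : ℕ) < s.card := k.2
    simp only [y, dif_pos hlt]
    have : (⟨(k : ℕ), hlt⟩ : Fin s.card) = k := rfl
    rw [this, hk, Equiv.symm_apply_apply]

end Fermat.Agent.S53
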