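/-
S53 team, package TC3ii: the tangent bound, Galois part.
-/
import Fermat.Agent.S53.Defs
import Fermat.Agent.S53.Dict
import Fermat.Agent.S53.TestAlg
import Fermat.Agent.S53.Objects
import Fermat.Agent.S53.Residual

set_option autoImplicit false
set_option linter.unusedSectionVars false

noncomputable section

namespace Fermat.Agent.S53

open IsLocalRing GaloisRep

section B
variable {𝒪 : Type} [CommRing 𝒪] [IsLocalRing 𝒪] {ρbar : ResidualGaloisRep (ResidueField 𝒪)}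
variable {A : Type} [CommRing A] [IsLocalRing A] [Algebra 𝒪 A]

theorem tg_mul_ev (c : GQ →₀ 𝒪) {r r' : GQ →* M2 A} (P : M2 A)
    (h : ∀ σ, P * r σ = r' σ * P) : P * ev c r = ev c r' * P := by
  unfold ev Finsupp.sum
  rw [Finset.mul_sum, Finset.sum_mul]
  refine Finset.sum_congr rfl fun g _ => ?_
  rw [Matrix.mul_smul, Matrix.smul_mul, h]

theorem tg_ev_sub_mem (F : Frame 𝒪 ρbar) (c : GQ →₀ 𝒪) {r : GQ →* M2 A} (hl : IsLift F r)
    (i j : Fin 2) :
    ev c r i j - algebraMap 𝒪 A ((c.sum fun g a => a • F.rt g) i j) ∈ maximalIdeal A := by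
  unfold ev Finsupp.sum
  rw [Matrix.sum_apply, Matrix.sum_apply, map_sum, ← Finset.sum_sub_distrib]
  refine Ideal.sum_mem _ fun g _ => ?_
  have h := hl g i j
  have h2 : (c g • r g) i j - algebraMap 𝒪 A ((c g • F.rt g) i j)
      = algebraMap 𝒪 A (c g) * (r g i j - algebraMap 𝒪 A (F.rt g i j)) := by
    simp [Matrix.smul_apply, Algebra.smul_def, mul_sub]
  rw [h2]
  exact Ideal.mul_mem_left _ _ h

theorem tg_normalized_unique (hloc : IsLocalHom (algebraMap 𝒪 A))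
    (F : Frame 𝒪 ρbar) {r r' : GQ →* M2 A} (hl : IsLift F r) (hn : IsNormalized F r)
    (hl' : IsLift F r') (hn' : IsNormalized F r') (P : M2 A) (hP : IsUnit P.det)
    (h : ∀ σ, P * r σ = r' σ * P) : r = r' := by
  obtain ⟨hx01, hx10, hy⟩ := hn
  obtain ⟨hx01', hx10', hy'⟩ := hn'
  have hX := tg_mul_ev F.x P h
  have hY := tg_mul_ev F.y P h
  -- entries of `ev x` modulo `m`
  have key : ∀ {s : GQ →* M2 A}, IsLift F s → ∀ i j,
      ev F.x s i j - algebraMap 𝒪 A ((!![1, 0; 0, 0] : M2 𝒪) i j) ∈ maximalIdeal A := by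
    intro s hs i j
    have h1 := tg_ev_sub_mem F F.x hs i j
    have h2 : algebraMap 𝒪 A ((F.x.sum fun g c => c • F.rt g) i j - (!![1, 0; 0, 0] : M2 𝒪) i j)
        ∈ maximalIdeal A := map_nonunit (algebraMap 𝒪 A) _ (F.hx i j)
    have := Ideal.add_mem _ h1 h2
    rw [map_sub] at this
    simpa using this
  have ha : ev F.x r 0 0 - 1 ∈ maximalIdeal A := by simpa using key hl 0 0
  have hd : ev F.x r 1 1 ∈ maximalIdeal A := by simpa using key hl 1 1
  have ha' : ev F.x r' 0 0 - 1 ∈ maximalIdeal A := by simpa using key hl' 0 0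
  have hd' : ev F.x r' 1 1 ∈ maximalIdeal A := by simpa using key hl' 1 1
  have unit_of : ∀ {u v : A}, u - 1 ∈ maximalIdeal A → v ∈ maximalIdeal A → IsUnit (u - v) := by
    intro u v hu hv
    by_contra hcon
    have h3 : u - v ∈ maximalIdeal A := hcon
    have h4 : (1 : A) ∈ maximalIdeal A := by
      have := Ideal.sub_mem _ (Ideal.add_mem _ h3 hv) hu
      simpa using this
    exact (Ideal.ne_top_iff_one _).mp (maximalIdeal.isMaximal A).ne_top h4
  have e01 := congrFun (congrFun hX 0) 1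
  have e10 := congrFun (congrFun hX 1) 0
  have f10 := congrFun (congrFun hY 1) 0
  simp only [Matrix.mul_apply, Fin.sum_univ_two] at e01 e10 f10
  rw [hx01, hx01'] at e01
  rw [hx10, hx10'] at e10
  have hq : P 0 1 = 0 := by
    have : (ev F.x r' 0 0 - ev F.x r 1 1) * P 0 1 = 0 := by linear_combination -e01
    exact (unit_of ha' hd).mul_right_eq_zero.mp this
  have hs : P 1 0 = 0 := by
    have : (ev F.x r 0 0 - ev F.x r' 1 1) * P 1 0 = 0 := by linear_combination e10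
    exact (unit_of ha hd').mul_right_eq_zero.mp this
  rw [hy, hy', hs] at f10
  have hpt : P 1 1 = P 0 0 := by linear_combination f10
  have hPs : P = P 0 0 • (1 : M2 A) := by
    ext i j
    fin_cases i <;> fin_cases j <;> simp [hq, hs, hpt]
  have hu : IsUnit (P 0 0) := by
    rw [Matrix.det_fin_two, hq, hpt] at hP
    simp only [zero_mul, sub_zero] at hP
    exact isUnit_of_mul_isUnit_left hP
  ext σ i j
  have h5 := congrFun (congrFun (h σ) i) j
  rw [hPs] at h5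
  simp only [Matrix.smul_mul, Matrix.mul_smul, Matrix.one_mul, Matrix.mul_one,
    Matrix.smul_apply, smul_eq_mul] at h5
  exact hu.mul_left_cancel h5

end B

section C
variable {𝒪 : Type} [CommRing 𝒪] [IsLocalRing 𝒪] [Finite (ResidueField 𝒪)]
variable {ρbar : ResidualGaloisRep (ResidueField 𝒪)} (F : Frame 𝒪 ρbar)
  {𝒟 : ∀ ⦃A : Type⦄ [CommRing A] [IsLocalRing A] [Algebra 𝒪 A], GaloisRepAdic A → Prop}

/-- The deformation to `k[ε]` attached to a homomorphism `U.A → k[ε]`. -/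
def tanOfHom (h𝒟 : IsDeformationCondition 𝒪 𝒟) {n : ℕ} (U : Obj F 𝒟 n)
    (φ : U.A →ₐ[𝒪] Eps 𝒪) : TanSub ρbar 𝒟 :=
  have hd : IsDLift F 𝒟 (mapMat (φ : U.A →+* Eps 𝒪) U.r) :=
    isDLift_mapMat F h𝒟 U.test test_eps φ U.dlift
  ⟨ofMat (mapMat (φ : U.A →+* Eps 𝒪) U.r) hd.cont, hd.type,
    residual_isEquiv_of_isLift F (epsψ 𝒪) epsψ_spec hd.cont hd.lift⟩

/-- TC3ii -/
theorem exists_card_hom_eps_le (h𝒟 : IsDeformationCondition 𝒪 𝒟) (hfin : TangentFinite 𝒪 ρbar 𝒟) :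
    ∃ c : ℕ, ∀ (n : ℕ) (U : Obj F 𝒟 n), Nat.card (U.A →ₐ[𝒪] Eps 𝒪) ≤ c := by
  haveI : Finite (Quotient (tanSetoid ρbar 𝒟)) := finite_tan hfin
  refine ⟨Nat.card (Quotient (tanSetoid ρbar 𝒟)), fun n U => ?_⟩
  refine Nat.card_le_card_of_injective
    (fun φ : U.A →ₐ[𝒪] Eps 𝒪 => Quotient.mk (tanSetoid ρbar 𝒟) (tanOfHom F h𝒟 U φ)) ?_
  intro φ φ' h
  have h1 : (tanOfHom F h𝒟 U φ).1.IsEquiv (tanOfHom F h𝒟 U φ').1 := Quotient.exact h
  have hd : IsDLift F 𝒟 (mapMat (φ : U.A →+* Eps 𝒪) U.r) :=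
    isDLift_mapMat F h𝒟 U.test test_eps φ U.dlift
  have hd' : IsDLift F 𝒟 (mapMat (φ' : U.A →+* Eps 𝒪) U.r) :=
    isDLift_mapMat F h𝒟 U.test test_eps φ' U.dlift
  obtain ⟨P, hP, hc⟩ := (ofMat_isEquiv_iff hd.cont hd'.cont).mp h1
  exact U.hom_ext F φ φ'
    (tg_normalized_unique (test_eps (𝒪 := 𝒪)).isLocalHom F hd.lift hd.norm hd'.lift hd'.norm P hP hc)

end C

end Fermat.Agent.S53

end
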