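/-
S53 team, block TC4 (core): an object of maximal cardinality is universal.
Abstract version, all inputs are explicit hypotheses.
-/
import Fermat.Agent.S53.Defs

set_option autoImplicit false

noncomputable section

namespace Fermat.Agent.S53

open IsLocalRing GaloisRep

section UniversalCore

variable {𝒪 : Type} [CommRing 𝒪] [IsLocalRing 𝒪]
variable {ρbar : ResidualGaloisRep (ResidueField 𝒪)} (F : Frame 𝒪 ρbar)
  {𝒟 : ∀ ⦃A : Type⦄ [CommRing A] [IsLocalRing A] [Algebra 𝒪 A], GaloisRepAdic A → Prop}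

/-- There is an object of maximal cardinality. -/
theorem universalCore_exists_max (n : ℕ) (hne : Nonempty (Obj F 𝒟 n))
    (hbound : ∃ b : ℕ, ∀ U : Obj F 𝒟 n, Nat.card U.A ≤ b) :
    ∃ U : Obj F 𝒟 n, ∀ V : Obj F 𝒟 n, Nat.card V.A ≤ Nat.card U.A := by
  classical
  obtain ⟨b, hb⟩ := hbound
  obtain ⟨U₀⟩ := hne
  let P : ℕ → Prop := fun m => ∃ U : Obj F 𝒟 n, Nat.card U.A = m
  have hP : P (Nat.findGreatest P b) := Nat.findGreatest_spec (P := P) (hb U₀) ⟨U₀, rfl⟩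
  obtain ⟨U, hU⟩ := hP
  refine ⟨U, fun V => ?_⟩
  rw [hU]
  exact Nat.le_findGreatest (hb V) ⟨V, rfl⟩

theorem universalCore_mapMat_comp {A B C : Type} [CommRing A] [IsLocalRing A] [CommRing B]
    [IsLocalRing B] [CommRing C] (φ : A →+* B) (ψ : B →+* C) (r : GQ →* M2 A) :
    mapMat ψ (mapMat φ r) = mapMat (ψ.comp φ) r := by
  ext σ i j
  simp

/-- An object of maximal cardinality is universal. -/
theorem exists_universal_core (n : ℕ) (hne : Nonempty (Obj F 𝒟 n))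
    (hjoin : ∀ U V : Obj F 𝒟 n, ∃ (W : Obj F 𝒟 n) (p : W.A →ₐ[𝒪] U.A) (q : W.A →ₐ[𝒪] V.A),
      mapMat (p : W.A →+* U.A) W.r = U.r ∧ mapMat (q : W.A →+* V.A) W.r = V.r)
    (hfinite : ∀ U : Obj F 𝒟 n, Finite U.A)
    (hbound : ∃ b : ℕ, ∀ U : Obj F 𝒟 n, Nat.card U.A ≤ b)
    (hsurj : ∀ (U V : Obj F 𝒟 n) (φ : U.A →ₐ[𝒪] V.A),
      mapMat (φ : U.A →+* V.A) U.r = V.r → Function.Surjective φ) :
    ∃ U : Obj F 𝒟 n, ∀ V : Obj F 𝒟 n, ∃ φ : U.A →ₐ[𝒪] V.A,
      mapMat (φ : U.A →+* V.A) U.r = V.r := by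
  obtain ⟨U, hU⟩ := universalCore_exists_max F n hne hbound
  refine ⟨U, fun V => ?_⟩
  obtain ⟨W, p, q, hp, hq⟩ := hjoin U V
  have hps : Function.Surjective p := hsurj W U p hp
  have := hfinite W
  have := hfinite U
  have hpb : Function.Bijective p := hps.bijective_of_nat_card_le (hU W)
  let e : W.A ≃ₐ[𝒪] U.A := AlgEquiv.ofBijective p hpb
  refine ⟨q.comp (e.symm : U.A →ₐ[𝒪] W.A), ?_⟩
  rw [← hq, ← hp]
  ext σ i j
  simp only [mapMat_apply, Matrix.map_apply]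
  change q (e.symm (p (W.r σ i j))) = q (W.r σ i j)
  congr 1
  exact e.symm_apply_apply _

end UniversalCore

end Fermat.Agent.S53

end
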