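/-
S53 team, block TC4 : the universal object at level `n + 1` (an object of maximal cardinality).
-/
import Fermat.Agent.S53.UniversalCore
import Fermat.Agent.S53.Objects
import Fermat.Agent.S53.Join
import Fermat.Agent.S53.TangentAlg
import Fermat.Agent.S53.TangentGal
import Fermat.Agent.S53.CardBound

set_option autoImplicit false

noncomputable section

namespace Fermat.Agent.S53

open IsLocalRing GaloisRep

variable {𝒪 : Type} [CommRing 𝒪] [IsLocalRing 𝒪] [Finite (ResidueField 𝒪)]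
variable {ρbar : ResidualGaloisRep (ResidueField 𝒪)} (F : Frame 𝒪 ρbar)
  {𝒟 : ∀ ⦃A : Type⦄ [CommRing A] [IsLocalRing A] [Algebra 𝒪 A], GaloisRepAdic A → Prop}

/-- TC4 -/
theorem exists_universal [IsNoetherianRing 𝒪] (h𝒟 : IsDeformationCondition 𝒪 𝒟)
    (hbar : 𝒟 (GaloisRepAdic.ofResidualGaloisRep ρbar)) (hfin : TangentFinite 𝒪 ρbar 𝒟) (n : ℕ) :
    ∃ U : Obj F 𝒟 (n + 1), ∀ V : Obj F 𝒟 (n + 1), ∃ φ : U.A →ₐ[𝒪] V.A,
      mapMat (φ : U.A →+* V.A) U.r = V.r := by
  obtain ⟨c, hc⟩ := exists_card_hom_eps_le F h𝒟 hfin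
  obtain ⟨b, hb⟩ := exists_card_bound (𝒪 := 𝒪) c (n + 1)
  exact exists_universal_core F (n + 1) (nonempty_obj F h𝒟 hbar n)
    (fun U V => exists_join F h𝒟 (n + 1) U V)
    (fun U => finite_of_test U.test)
    ⟨b, fun U => hb U.A U.test U.pow_eq
      (exists_generators_of_card_hom_le U.test c (hc (n + 1) U))⟩
    (fun U V φ h => Obj.hom_surjective F U V φ h)

end Fermat.Agent.S53
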