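/-
S53 team, block E1 : the tower of universal objects.
-/
import Fermat.Agent.S53.TowerCore
import Fermat.Agent.S53.Universal

set_option autoImplicit false

noncomputable section

namespace Fermat.Agent.S53

open IsLocalRing GaloisRep

variable {𝒪 : Type} [CommRing 𝒪] [IsLocalRing 𝒪] [IsNoetherianRing 𝒪] [Finite (ResidueField 𝒪)]
variable {ρbar : ResidualGaloisRep (ResidueField 𝒪)} (F : Frame 𝒪 ρbar)
  {𝒟 : ∀ ⦃A : Type⦄ [CommRing A] [IsLocalRing A] [Algebra 𝒪 A], GaloisRepAdic A → Prop}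

/-- E1 -/
theorem exists_tower (h𝒟 : IsDeformationCondition 𝒪 𝒟)
    (hbar : 𝒟 (GaloisRepAdic.ofResidualGaloisRep ρbar)) (hfin : TangentFinite 𝒪 ρbar 𝒟) :
    ∃ (U : ∀ n, Obj F 𝒟 (n + 1)) (τ : ∀ n, (U (n + 1)).A →ₐ[𝒪] (U n).A),
      (∀ n (V : Obj F 𝒟 (n + 1)), ∃ φ : (U n).A →ₐ[𝒪] V.A,
        mapMat (φ : (U n).A →+* V.A) (U n).r = V.r) ∧
      (∀ n, mapMat (τ n : (U (n + 1)).A →+* (U n).A) (U (n + 1)).r = (U n).r) ∧
      (∀ n, Function.Surjective (τ n)) ∧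
      (∀ n, RingHom.ker (τ n : (U (n + 1)).A →+* (U n).A) =
        maximalIdeal (U (n + 1)).A ^ (n + 1)) :=
  exists_tower_core F h𝒟 (exists_universal F h𝒟 hbar hfin)

end Fermat.Agent.S53

end
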