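/-
S53 team: final assembly, block E3: universal property of `(R, r)` on Artinian test algebras.
-/
import Fermat.Agent.S53.UnivData
import Fermat.Agent.S53.Assembly1
import Fermat.Agent.S53.Objects

set_option autoImplicit false
set_option linter.unusedSectionVars false
set_option linter.unusedVariables false

noncomputable section

namespace Fermat.Agent.S53

open IsLocalRing GaloisRep

variable {𝒪 : Type} [CommRing 𝒪] [IsLocalRing 𝒪] [IsNoetherianRing 𝒪] [Finite (ResidueField 𝒪)]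
variable {ρbar : ResidualGaloisRep (ResidueField 𝒪)} (F : Frame 𝒪 ρbar)
  {𝒟 : ∀ ⦃A : Type⦄ [CommRing A] [IsLocalRing A] [Algebra 𝒪 A], GaloisRepAdic A → Prop}

section
variable (U : ∀ n, Obj F 𝒟 (n + 1))
  {R : Type} [CommRing R] [IsLocalRing R] [IsNoetherianRing R]
  [IsAdicComplete (maximalIdeal R) R] [Algebra 𝒪 R] [IsLocalHom (algebraMap 𝒪 R)]
  (π : ∀ n, R →ₐ[𝒪] (U n).A)

/-- E3 (file Fermat/Agent/S53/ArtUniv.lean) -/
theorem exists_factor_level (hπ : ∀ n, Function.Surjective (π n))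
    (hker : ∀ n, RingHom.ker (π n : R →+* (U n).A) = maximalIdeal R ^ (n + 1))
    {B : Type} [CommRing B] [IsLocalRing B] [Algebra 𝒪 B] (hB : IsArtinianTestAlgebra 𝒪 B)
    (N : ℕ) (hN : maximalIdeal B ^ (N + 1) = ⊥) (f : R →ₐ[𝒪] B) :
    ∃ g : (U N).A →ₐ[𝒪] B, g.comp (π N) = f := by
  refine asm_exists_factor (π N) (hπ N) f fun x hx => ?_
  have hx' : x ∈ maximalIdeal R ^ (N + 1) := by
    rw [← hker N]
    exact hx
  have h1 : (f : R →+* B) x ∈ maximalIdeal B ^ (N + 1) :=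
    asm_map_pow_le (f : R →+* B)
      (fun y hy => asm_map_mem_maximalIdeal hB.isLocalHom (exists_const_of_test hB) f hy)
      (N + 1) hx'
  rw [hN] at h1
  exact h1

/-- auxiliary: `mapMat` of a composite of algebra homs -/
theorem artUniv_mapMat_comp {A B C : Type} [CommRing A] [IsLocalRing A] [Algebra 𝒪 A] [CommRing B]
    [IsLocalRing B] [Algebra 𝒪 B] [CommRing C] [Algebra 𝒪 C] (φ : A →ₐ[𝒪] B) (ψ : B →ₐ[𝒪] C)
    (r : GQ →* M2 A) :
    mapMat ((ψ.comp φ : A →ₐ[𝒪] C) : A →+* C) r = mapMat (ψ : B →+* C) (mapMat (φ : A →+* B) r) := by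
  ext σ i j
  rfl

/-- E3 -/
theorem isDLift_mapMat_univ (h𝒟 : IsDeformationCondition 𝒪 𝒟) (hπ : ∀ n, Function.Surjective (π n))
    (hker : ∀ n, RingHom.ker (π n : R →+* (U n).A) = maximalIdeal R ^ (n + 1))
    (r : GQ →* M2 R) (hr : ∀ n, mapMat (π n : R →+* (U n).A) r = (U n).r)
    {B : Type} [CommRing B] [IsLocalRing B] [Algebra 𝒪 B] (hB : IsArtinianTestAlgebra 𝒪 B)
    (f : R →ₐ[𝒪] B) : IsDLift F 𝒟 (mapMat (f : R →+* B) r) := by
  obtain ⟨n, hn⟩ := exists_pow_eq_bot_of_test hB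
  have hn' : maximalIdeal B ^ (n + 1) = ⊥ := by
    rw [pow_succ, hn, Ideal.bot_mul]
  obtain ⟨g, hg⟩ := exists_factor_level F U π hπ hker hB n hn' f
  rw [← hg, artUniv_mapMat_comp, hr n]
  exact isDLift_mapMat F h𝒟 (U n).test hB g (U n).dlift

/-- E3 -/
theorem existsUnique_hom_of_isDLift (h𝒟 : IsDeformationCondition 𝒪 𝒟)
    (hU : ∀ n (V : Obj F 𝒟 (n + 1)), ∃ φ : (U n).A →ₐ[𝒪] V.A,
        mapMat (φ : (U n).A →+* V.A) (U n).r = V.r)
    (hπ : ∀ n, Function.Surjective (π n))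
    (hker : ∀ n, RingHom.ker (π n : R →+* (U n).A) = maximalIdeal R ^ (n + 1))
    (r : GQ →* M2 R) (hr : ∀ n, mapMat (π n : R →+* (U n).A) r = (U n).r)
    {B : Type} [CommRing B] [IsLocalRing B] [Algebra 𝒪 B] (hB : IsArtinianTestAlgebra 𝒪 B)
    (s : GQ →* M2 B) (hs : IsDLift F 𝒟 s) : ∃! f : R →ₐ[𝒪] B, mapMat (f : R →+* B) r = s := by
  obtain ⟨n, hn⟩ := exists_pow_eq_bot_of_test hB
  have hn' : maximalIdeal B ^ (n + 1) = ⊥ := by
    rw [pow_succ, hn, Ideal.bot_mul]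
  obtain ⟨V, ι, -, hι⟩ := exists_obj_of_isDLift F h𝒟 hB (n + 1) hn' hs
  obtain ⟨φ, hφ⟩ := hU n V
  refine ⟨(ι.comp φ).comp (π n), ?_, ?_⟩
  · show mapMat (((ι.comp φ).comp (π n) : R →ₐ[𝒪] B) : R →+* B) r = s
    rw [artUniv_mapMat_comp, hr n, artUniv_mapMat_comp, hφ, hι]
  · intro f hf
    obtain ⟨g, hg⟩ := exists_factor_level F U π hπ hker hB n hn' f
    rw [← hg]
    congr 1
    apply (U n).hom_ext
    rw [artUniv_mapMat_comp, hφ, hι, ← hf, ← hg, artUniv_mapMat_comp, hr n]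

end

end Fermat.Agent.S53

end
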