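import Mathlib

set_option autoImplicit false

open IsLocalRing

namespace Fermat.Agent.S53

section Chevalley

variable {P : Type} [CommRing P] [IsLocalRing P] [IsNoetherianRing P]

/-- Quotients by powers of the maximal ideal are finite when the residue field is. -/
theorem finite_quotient_maximalIdeal_pow [Finite (ResidueField P)] (n : ℕ) :
    Finite (P ⧸ maximalIdeal P ^ n) := by
  have : Finite (P ⧸ maximalIdeal P) := inferInstanceAs (Finite (ResidueField P))
  exact Ideal.finite_quotient_pow (IsNoetherian.noetherian _) n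

/-- Ideals of a noetherian local ring are closed for the adic topology. -/
theorem mem_of_forall_mem_sup_pow (J : Ideal P) (x : P)
    (h : ∀ k : ℕ, x ∈ J ⊔ maximalIdeal P ^ k) : x ∈ J := by
  have h1 : (⨅ i : ℕ, maximalIdeal P ^ i • (⊤ : Submodule P (P ⧸ J))) = ⊥ :=
    Ideal.iInf_pow_smul_eq_bot_of_isLocalRing (maximalIdeal P) (Ideal.IsPrime.ne_top inferInstance)
  have h2 : (Ideal.Quotient.mk J x : P ⧸ J) ∈
      (⨅ i : ℕ, maximalIdeal P ^ i • (⊤ : Submodule P (P ⧸ J))) := by
    rw [Submodule.mem_iInf]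
    intro k
    obtain ⟨a, ha, b, hb, rfl⟩ := Submodule.mem_sup.mp (h k)
    rw [map_add, Ideal.Quotient.eq_zero_iff_mem.mpr ha, zero_add]
    have : (Ideal.Quotient.mk J b : P ⧸ J) = b • (1 : P ⧸ J) := by
      rw [Algebra.smul_def, mul_one]; rfl
    rw [this]
    exact Submodule.smul_mem_smul hb trivial
  rw [h1, Submodule.mem_bot] at h2
  exact Ideal.Quotient.eq_zero_iff_mem.mp h2

/-- In a down-directed family of ideals, for each `k` some member is minimal modulo `m ^ k`. -/
theorem exists_minimal_sup_pow [Finite (ResidueField P)] (𝒥 : Set (Ideal P)) (hne : 𝒥.Nonempty)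
    (hdir : ∀ I ∈ 𝒥, ∀ I' ∈ 𝒥, ∃ K ∈ 𝒥, K ≤ I ⊓ I') (k : ℕ) :
    ∃ J ∈ 𝒥, ∀ J' ∈ 𝒥, J ⊔ maximalIdeal P ^ k ≤ J' ⊔ maximalIdeal P ^ k := by
  have hfin := finite_quotient_maximalIdeal_pow (P := P) k
  have hart : IsArtinian P (P ⧸ maximalIdeal P ^ k) := isArtinian_of_finite
  let q := Submodule.mkQ (maximalIdeal P ^ k)
  obtain ⟨M, ⟨J, hJ, rfl⟩, hmin⟩ := IsArtinian.set_has_minimal
    ((fun J : Ideal P => Submodule.map q J) '' 𝒥) (hne.image _)
  refine ⟨J, hJ, fun J' hJ' => ?_⟩
  obtain ⟨K, hK, hKle⟩ := hdir J hJ J' hJ'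
  have h1 : Submodule.map q K ≤ Submodule.map q J := Submodule.map_mono (hKle.trans inf_le_left)
  have h2 : ¬ Submodule.map q K < Submodule.map q J := hmin _ ⟨K, hK, rfl⟩
  have h3 : Submodule.map q K = Submodule.map q J := by
    rcases h1.lt_or_eq with h | h
    · exact absurd h h2
    · exact h
  have h4 : Submodule.map q J ≤ Submodule.map q J' :=
    h3 ▸ Submodule.map_mono (hKle.trans inf_le_right)
  have h5 := Submodule.comap_mono (f := q) h4
  rw [Submodule.comap_map_mkQ, Submodule.comap_map_mkQ] at h5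
  rw [sup_comm J, sup_comm J']
  exact h5

/-- **Chevalley's lemma** (compactness): in a complete noetherian local ring with finite residue
field, every open ideal containing the intersection of a down-directed family of ideals contains
a member of the family. -/
theorem exists_le_sInf_sup_pow [IsAdicComplete (maximalIdeal P) P] [Finite (ResidueField P)]
    (𝒥 : Set (Ideal P)) (hne : 𝒥.Nonempty)
    (hdir : ∀ I ∈ 𝒥, ∀ I' ∈ 𝒥, ∃ K ∈ 𝒥, K ≤ I ⊓ I') (n : ℕ) :
    ∃ K ∈ 𝒥, K ≤ sInf 𝒥 ⊔ maximalIdeal P ^ n := by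
  set m := maximalIdeal P with hm
  choose Jk hJk hJkmin using exists_minimal_sup_pow 𝒥 hne hdir
  let I : ℕ → Ideal P := fun k => Jk k ⊔ m ^ k
  have hIle : ∀ k, ∀ J ∈ 𝒥, I k ≤ J ⊔ m ^ k := fun k J hJ => hJkmin k J hJ
  have hpow : ∀ k, m ^ k ≤ I k := fun k => le_sup_right
  -- `I` is decreasing
  have hIsucc : ∀ k, I (k + 1) ≤ I k := by
    intro k
    refine (hIle (k + 1) (Jk k) (hJk k)).trans ?_
    exact sup_le_sup_left (Ideal.pow_le_pow_right (Nat.le_succ k)) _
  have hIanti : ∀ {a b : ℕ}, a ≤ b → I b ≤ I a := by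
    intro a b hab
    induction hab with
    | refl => exact le_rfl
    | step _ ih => exact (hIsucc _).trans ih
  -- approximation step
  have hstep : ∀ k, ∀ x ∈ I k, ∃ x' ∈ I (k + 1), x - x' ∈ m ^ k := by
    intro k x hx
    have h1 : I k ≤ Jk (k + 1) ⊔ m ^ k := hIle k _ (hJk (k + 1))
    obtain ⟨a, ha, b, hb, rfl⟩ := Submodule.mem_sup.mp (h1 hx)
    exact ⟨a, (le_sup_left : Jk (k + 1) ≤ I (k + 1)) ha, by simpa using hb⟩
  choose! nxt hnxt hnxt' using hstep
  refine ⟨Jk n, hJk n, fun x hx => ?_⟩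
  have hx' : x ∈ I n := (le_sup_left : Jk n ≤ I n) hx
  -- the approximating sequence
  let g : ℕ → P := fun j => Nat.rec x (fun j y => nxt (n + j) y) j
  have hg0 : g 0 = x := rfl
  have hgs : ∀ j, g (j + 1) = nxt (n + j) (g j) := fun j => rfl
  have hgmem : ∀ j, g j ∈ I (n + j) := by
    intro j
    induction j with
    | zero => exact hx'
    | succ j ih => rw [hgs]; exact hnxt (n + j) (g j) ih
  have hgdiff : ∀ j, g j - g (j + 1) ∈ m ^ (n + j) := by
    intro j
    rw [hgs]
    exact hnxt' (n + j) (g j) (hgmem j)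
  have hgdiff' : ∀ {a b : ℕ}, a ≤ b → g a - g b ∈ m ^ (n + a) := by
    intro a b hab
    induction hab with
    | refl => simp
    | @step c hac ih =>
      have h1 : g c - g (c + 1) ∈ m ^ (n + a) :=
        Ideal.pow_le_pow_right (Nat.add_le_add_left hac n) (hgdiff c)
      have : g a - g (c + 1) = (g a - g c) + (g c - g (c + 1)) := by ring
      rw [this]
      exact Ideal.add_mem _ ih h1
  -- the limit
  obtain ⟨L, hL⟩ := IsPrecomplete.prec (I := m) (M := P) inferInstance (f := g) (by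
    intro a b hab
    rw [SModEq.sub_mem, smul_eq_mul, Ideal.mul_top]
    exact Ideal.pow_le_pow_right (by omega) (hgdiff' hab))
  have hL' : ∀ j, g j - L ∈ m ^ (n + j) := by
    intro j
    have h1 : g j - g (n + j) ∈ m ^ (n + j) := hgdiff' (by omega)
    have h2 : g (n + j) - L ∈ m ^ (n + j) := by
      have := hL (n + j)
      rwa [SModEq.sub_mem, smul_eq_mul, Ideal.mul_top] at this
    have : g j - L = (g j - g (n + j)) + (g (n + j) - L) := by ring
    rw [this]
    exact Ideal.add_mem _ h1 h2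
  have hLmem : ∀ j, L ∈ I (n + j) := by
    intro j
    have : L = g j - (g j - L) := by ring
    rw [this]
    exact Ideal.sub_mem _ (hgmem j) (hpow _ (hL' j))
  have hLinf : L ∈ sInf 𝒥 := by
    rw [Submodule.mem_sInf]
    intro J hJ
    apply mem_of_forall_mem_sup_pow
    intro k
    exact hIle k J hJ (hIanti (Nat.le_add_left k n) (hLmem k))
  have : x = L + (x - L) := by ring
  rw [this]
  exact Ideal.add_mem _ (Ideal.mem_sup_left hLinf) (Ideal.mem_sup_right (hL' 0))

end Chevalley

end Fermat.Agent.S53
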