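import Mathlib
import Fermat.Prelude.Thm_IsLocalRing_isAdicComplete_of_module_finite
import Fermat.Agent.S53.Defs
import Fermat.Agent.S53.Chevalley

set_option autoImplicit false

noncomputable section

namespace Fermat.Agent.S53

open IsLocalRing GaloisRep

section D

variable {𝒪 : Type} [CommRing 𝒪] [IsLocalRing 𝒪] [IsNoetherianRing 𝒪]

variable [Finite (ResidueField 𝒪)]

omit [IsNoetherianRing 𝒪] in
theorem limitQuot_finite_residueField {P : Type} [CommRing P] [IsLocalRing P]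
    [Algebra 𝒪 P] [IsLocalHom (algebraMap 𝒪 P)]
    (hres : Function.Surjective (residue P ∘ algebraMap 𝒪 P)) : Finite (ResidueField P) := by
  refine Finite.of_surjective (IsLocalRing.ResidueField.map (algebraMap 𝒪 P)) ?_
  intro y
  obtain ⟨c, rfl⟩ := hres y
  exact ⟨residue 𝒪 c, rfl⟩

/-- TD3 (file Fermat/Agent/S53/LimitQuot.lean) -/
theorem exists_limit_of_surj {P : Type} [CommRing P] [IsLocalRing P] [IsNoetherianRing P]
    [IsAdicComplete (maximalIdeal P) P] [Algebra 𝒪 P] [IsLocalHom (algebraMap 𝒪 P)]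
    (hres : Function.Surjective (residue P ∘ algebraMap 𝒪 P))
    (A : ℕ → Type) [∀ n, CommRing (A n)] [∀ n, IsLocalRing (A n)]
    [∀ n, Algebra 𝒪 (A n)] (htest : ∀ n, IsArtinianTestAlgebra 𝒪 (A n))
    (hpow : ∀ n, maximalIdeal (A n) ^ (n + 1) = ⊥)
    (τ : ∀ n, A (n + 1) →ₐ[𝒪] A n) (hτ : ∀ n, Function.Surjective (τ n))
    (hker : ∀ n, RingHom.ker (τ n : A (n + 1) →+* A n) = maximalIdeal (A (n + 1)) ^ (n + 1))
    (π : ∀ n, P →ₐ[𝒪] A n) (hπ : ∀ n, Function.Surjective (π n))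
    (hc : ∀ n, (τ n).comp (π (n + 1)) = π n) :
    ∃ (R : Type) (_ : CommRing R) (_ : IsLocalRing R) (_ : IsNoetherianRing R)
      (_ : IsAdicComplete (maximalIdeal R) R) (_ : Algebra 𝒪 R) (_ : IsLocalHom (algebraMap 𝒪 R))
      (π' : ∀ n, R →ₐ[𝒪] A n),
      Function.Surjective (residue R ∘ algebraMap 𝒪 R) ∧ (∀ n, Function.Surjective (π' n)) ∧
      (∀ n, RingHom.ker (π' n : R →+* A n) = maximalIdeal R ^ (n + 1)) ∧
      (∀ n, (τ n).comp (π' (n + 1)) = π' n) := by
  have hfinP : Finite (ResidueField P) := limitQuot_finite_residueField hres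
  set m := maximalIdeal P with hm
  let Kn : ℕ → Ideal P := fun n => RingHom.ker (π n : P →+* A n)
  have hmemK : ∀ n a, a ∈ Kn n ↔ π n a = 0 := fun n a => Iff.rfl
  have hmap : ∀ n, m.map (π n : P →+* A n) = maximalIdeal (A n) := fun n =>
    IsLocalRing.map_maximalIdeal_of_surjective (π n : P →+* A n) (hπ n)
  have hc' : ∀ n a, τ n (π (n + 1) a) = π n a := fun n a => by
    rw [← hc n]; rfl
  -- (1)
  have h1 : ∀ n, m ^ (n + 1) ≤ Kn n := by
    intro n
    have : (m ^ (n + 1)).map (π n : P →+* A n) = ⊥ := by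
      rw [Ideal.map_pow, hmap, hpow]
    exact (Ideal.map_eq_bot_iff_le_ker _).mp this
  -- (3)
  have h3 : ∀ n, Kn (n + 1) ≤ Kn n := by
    intro n a ha
    rw [hmemK] at ha ⊢
    rw [← hc', ha, map_zero]
  have h3' : ∀ {i j : ℕ}, i ≤ j → Kn j ≤ Kn i := by
    intro i j hij
    induction hij with
    | refl => exact le_rfl
    | step _ ih => exact (h3 _).trans ih
  -- (2)
  have h2 : ∀ n, Kn n ≤ Kn (n + 1) ⊔ m ^ (n + 1) := by
    intro n a ha
    rw [hmemK, ← hc'] at ha
    have ha' : π (n + 1) a ∈ RingHom.ker (τ n : A (n + 1) →+* A n) := ha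
    rw [hker, ← hmap, ← Ideal.map_pow] at ha'
    obtain ⟨b, hb, hab⟩ := (Ideal.mem_map_iff_of_surjective _ (hπ (n + 1))).mp ha'
    have : a = (a - b) + b := by ring
    rw [this]
    refine Ideal.add_mem _ (Ideal.mem_sup_left ?_) (Ideal.mem_sup_right hb)
    rw [hmemK, map_sub, sub_eq_zero]
    exact hab.symm
  have h2' : ∀ n {j : ℕ}, n ≤ j → Kn n ≤ Kn j ⊔ m ^ (n + 1) := by
    intro n j hnj
    induction hnj with
    | refl => exact le_sup_left
    | @step k hnk ih =>
      refine ih.trans (sup_le ?_ le_sup_right)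
      refine (h2 k).trans (sup_le le_sup_left ?_)
      exact le_sup_of_le_right (Ideal.pow_le_pow_right (Nat.add_le_add_right hnk 1))
  let K : Ideal P := sInf (Set.range Kn)
  have hKle : ∀ n, K ≤ Kn n := fun n => sInf_le ⟨n, rfl⟩
  -- the key equality
  have hkey : ∀ n, Kn n = K ⊔ m ^ (n + 1) := by
    intro n
    apply le_antisymm
    · obtain ⟨_, ⟨j, rfl⟩, hj⟩ := exists_le_sInf_sup_pow (Set.range Kn) ⟨_, ⟨0, rfl⟩⟩ (by
        rintro _ ⟨i, rfl⟩ _ ⟨j, rfl⟩
        exact ⟨_, ⟨max i j, rfl⟩, le_inf (h3' (le_max_left i j)) (h3' (le_max_right i j))⟩) (n + 1)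
      refine (h2' n (le_max_left n j)).trans (sup_le ?_ le_sup_right)
      exact (h3' (le_max_right n j)).trans hj
    · exact sup_le (hKle n) (h1 n)
  have hKtop : K ≠ ⊤ := by
    intro h
    have : (1 : P) ∈ Kn 0 := hKle 0 (h ▸ Submodule.mem_top)
    rw [hmemK, map_one] at this
    exact one_ne_zero this
  have hnontriv : Nontrivial (P ⧸ K) := Ideal.Quotient.nontrivial_iff.mpr hKtop
  have hloc : IsLocalRing (P ⧸ K) :=
    IsLocalRing.of_surjective' (Ideal.Quotient.mk K) Ideal.Quotient.mk_surjective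
  have hlocmk : IsLocalHom (Ideal.Quotient.mk K) :=
    IsLocalHom.of_surjective _ Ideal.Quotient.mk_surjective
  have hlocmk' : IsLocalHom (algebraMap P (P ⧸ K)) := hlocmk
  have hcomp : IsAdicComplete (maximalIdeal (P ⧸ K)) (P ⧸ K) :=
    IsLocalRing.isAdicComplete_of_module_finite (𝒪 := P) (T := P ⧸ K)
  have hlocO : IsLocalHom (algebraMap 𝒪 (P ⧸ K)) := by
    have : algebraMap 𝒪 (P ⧸ K) = (Ideal.Quotient.mk K).comp (algebraMap 𝒪 P) := rfl
    rw [this]
    exact RingHom.isLocalHom_comp _ _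
  have hmR : maximalIdeal (P ⧸ K) = m.map (Ideal.Quotient.mk K) :=
    (IsLocalRing.map_maximalIdeal_of_surjective _ Ideal.Quotient.mk_surjective).symm
  let π' : ∀ n, (P ⧸ K) →ₐ[𝒪] A n := fun n =>
    Ideal.Quotient.liftₐ K (π n) (fun a ha => hKle n ha)
  have hπ' : ∀ n a, π' n (Ideal.Quotient.mk K a) = π n a := fun n a => rfl
  refine ⟨P ⧸ K, inferInstance, hloc, inferInstance, hcomp, inferInstance, hlocO, π', ?_, ?_, ?_, ?_⟩
  · intro y
    obtain ⟨x, rfl⟩ := IsLocalRing.residue_surjective y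
    obtain ⟨p, rfl⟩ := Ideal.Quotient.mk_surjective x
    obtain ⟨c, hcp⟩ := hres (residue P p)
    refine ⟨c, ?_⟩
    have h4 : algebraMap 𝒪 P c - p ∈ m := by
      rw [hm, ← IsLocalRing.residue_eq_zero_iff, map_sub, sub_eq_zero]
      exact hcp
    have h5 : Ideal.Quotient.mk K (algebraMap 𝒪 P c - p) ∈ maximalIdeal (P ⧸ K) := by
      rw [hmR]
      exact Ideal.mem_map_of_mem _ h4
    rw [← IsLocalRing.residue_eq_zero_iff, map_sub, map_sub, sub_eq_zero] at h5
    exact h5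
  · intro n y
    obtain ⟨p, rfl⟩ := hπ n y
    exact ⟨Ideal.Quotient.mk K p, rfl⟩
  · intro n
    rw [hmR, ← Ideal.map_pow]
    ext x
    obtain ⟨p, rfl⟩ := Ideal.Quotient.mk_surjective x
    rw [RingHom.mem_ker]
    change π n p = 0 ↔ _
    rw [← hmemK, hkey, Ideal.mem_map_iff_of_surjective _ Ideal.Quotient.mk_surjective]
    constructor
    · intro hp
      obtain ⟨a, ha, b, hb, rfl⟩ := Submodule.mem_sup.mp hp
      refine ⟨b, hb, ?_⟩
      rw [map_add, Ideal.Quotient.eq_zero_iff_mem.mpr ha, zero_add]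
    · rintro ⟨b, hb, hbp⟩
      have h6 : p - b ∈ K := by
        rw [← Ideal.Quotient.eq_zero_iff_mem, map_sub, hbp, sub_self]
      have : p = (p - b) + b := by ring
      rw [this]
      exact Ideal.add_mem _ (Ideal.mem_sup_left h6) (Ideal.mem_sup_right hb)
  · intro n
    apply Ideal.Quotient.algHom_ext
    ext p
    exact hc' n p

end D

end Fermat.Agent.S53
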