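import Mathlib

/-!
# `MvPowerSeries σ O` (`σ` finite, `O` complete noetherian local) is complete for its maximal ideal

Main results (namespace `Fermat.Agent.S53`):
* `ps_mem_span_range_X_pow_iff` : membership in `(X)^n` by vanishing of the coefficients of degree `< n`
* `psBigIdeal 𝔪 = (𝔪, X)`, `psBigIdeal_pow_eq_psFilt` : `f ∈ (𝔪, X)^n ↔ ∀ d, coeff d f ∈ 𝔪 ^ (n - degree d)`
* `maximalIdeal_mvPowerSeries_eq`
* `isAdicComplete_mvPowerSeries'`, `isAdicComplete_mvPowerSeries` (block TD0 of the S53 interface)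
-/

set_option autoImplicit false
set_option linter.unusedSectionVars false

namespace Fermat.Agent.S53

open IsLocalRing Finsupp

variable {σ R : Type*} [CommRing R] [Finite σ]


theorem ps_mem_span_range_X_pow_iff (n : ℕ) (f : MvPowerSeries σ R) :
    f ∈ (Ideal.span (Set.range MvPowerSeries.X) : Ideal (MvPowerSeries σ R)) ^ n ↔
      ∀ d : σ →₀ ℕ, degree d < n → MvPowerSeries.coeff d f = 0 := by
  have key : Ideal.map (MvPowerSeries.toAdicCompletionAlgEquiv σ R).toRingEquiv
      (Ideal.span (Set.range MvPowerSeries.X)) =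
    (MvPolynomial.idealOfVars σ R).map (algebraMap ..) := by
    simp_rw [Ideal.map_span, ← Set.range_comp]
    congr 2; ext1
    simp [AdicCompletion.algebraMap_apply, ← MvPolynomial.coe_X, MvPowerSeries.toAdicCompletion_coe]
  have h1 : f ∈ (Ideal.span (Set.range MvPowerSeries.X) : Ideal (MvPowerSeries σ R)) ^ n ↔
      (MvPowerSeries.toAdicCompletionAlgEquiv σ R) f ∈
        ((MvPolynomial.idealOfVars σ R) ^ n).map
          (algebraMap (MvPolynomial σ R) (AdicCompletion (MvPolynomial.idealOfVars σ R) (MvPolynomial σ R))) := by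
    rw [Ideal.map_pow, ← key, ← Ideal.map_pow]
    constructor
    · intro h
      exact Ideal.mem_map_of_mem _ h
    · intro h
      rw [Ideal.mem_map_of_equiv] at h
      obtain ⟨x, hx, hxe⟩ := h
      have : x = f := (MvPowerSeries.toAdicCompletionAlgEquiv σ R).injective hxe
      rwa [← this]
  rw [h1]
  have h2 := AdicCompletion.pow_smul_top_eq_ker_eval (M := MvPolynomial σ R) (n := n)
    (MvPolynomial.idealOfVars_fg σ R)
  have h3 : ∀ x : AdicCompletion (MvPolynomial.idealOfVars σ R) (MvPolynomial σ R),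
      x ∈ ((MvPolynomial.idealOfVars σ R) ^ n).map
          (algebraMap (MvPolynomial σ R) (AdicCompletion (MvPolynomial.idealOfVars σ R) (MvPolynomial σ R)))
      ↔ x ∈ (AdicCompletion.eval (MvPolynomial.idealOfVars σ R) (MvPolynomial σ R) n).ker := by
    intro x
    rw [← h2, Ideal.smul_top_eq_map]
    rfl
  rw [h3, LinearMap.mem_ker, AdicCompletion.eval_apply, MvPowerSeries.toAdicCompletionAlgEquiv_apply,
    MvPowerSeries.toAdicCompletion_apply_eq_mk_truncTotal]
  rw [Ideal.Quotient.eq_zero_iff_mem, smul_eq_mul, Ideal.mul_top, MvPolynomial.mem_pow_idealOfVars_iff']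
  refine forall_congr' fun d => ?_
  refine imp_congr_right fun hd => ?_
  rw [MvPowerSeries.coeff_truncTotal _ hd]

/-- The filtration of `MvPowerSeries σ R` attached to an ideal `𝔪` of `R`. -/
def psFilt (𝔪 : Ideal R) (n : ℕ) : Ideal (MvPowerSeries σ R) where
  carrier := {f | ∀ d : σ →₀ ℕ, MvPowerSeries.coeff d f ∈ 𝔪 ^ (n - degree d)}
  add_mem' := by
    intro f g hf hg d
    rw [map_add]
    exact Ideal.add_mem _ (hf d) (hg d)
  zero_mem' := by
    intro d
    simp
  smul_mem' := by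
    classical
    intro g f hf d
    rw [smul_eq_mul, MvPowerSeries.coeff_mul]
    refine Ideal.sum_mem _ fun x hx => ?_
    rw [Finset.HasAntidiagonal.mem_antidiagonal] at hx
    refine Ideal.mul_mem_left _ _ (Ideal.pow_le_pow_right ?_ (hf x.2))
    have : degree d = degree x.1 + degree x.2 := by rw [← hx, map_add]
    omega

theorem mem_psFilt {𝔪 : Ideal R} {n : ℕ} {f : MvPowerSeries σ R} :
    f ∈ psFilt 𝔪 n ↔ ∀ d : σ →₀ ℕ, MvPowerSeries.coeff d f ∈ 𝔪 ^ (n - degree d) := Iff.rfl

theorem psFilt_mul_le (𝔪 : Ideal R) (i j : ℕ) :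
    (psFilt 𝔪 i : Ideal (MvPowerSeries σ R)) * psFilt 𝔪 j ≤ psFilt 𝔪 (i + j) := by
  classical
  rw [Ideal.mul_le]
  intro f hf g hg d
  rw [MvPowerSeries.coeff_mul]
  refine Ideal.sum_mem _ fun x hx => ?_
  rw [Finset.HasAntidiagonal.mem_antidiagonal] at hx
  have hdeg : degree d = degree x.1 + degree x.2 := by rw [← hx, map_add]
  have h := Ideal.mul_mem_mul (hf x.1) (hg x.2)
  rw [← pow_add] at h
  exact Ideal.pow_le_pow_right (by omega) h

theorem psFilt_zero (𝔪 : Ideal R) : (psFilt 𝔪 0 : Ideal (MvPowerSeries σ R)) = ⊤ := by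
  rw [Ideal.eq_top_iff_one]
  intro d
  simp

/-- The ideal `(𝔪, X)`. -/
noncomputable def psBigIdeal (𝔪 : Ideal R) : Ideal (MvPowerSeries σ R) :=
  𝔪.map (MvPowerSeries.C (σ := σ) (R := R)) ⊔ Ideal.span (Set.range MvPowerSeries.X)

theorem psBigIdeal_le_psFilt_one (𝔪 : Ideal R) : (psBigIdeal 𝔪 : Ideal (MvPowerSeries σ R)) ≤ psFilt 𝔪 1 := by
  classical
  rw [psBigIdeal, sup_le_iff]
  constructor
  · rw [Ideal.map_le_iff_le_comap]
    intro a ha d
    rw [MvPowerSeries.coeff_C]
    split_ifs with h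
    · subst h; simpa using ha
    · simp
  · rw [Ideal.span_le]
    rintro _ ⟨i, rfl⟩ d
    rw [MvPowerSeries.coeff_X]
    split_ifs with h
    · subst h; simp
    · simp

theorem psBigIdeal_pow_le_psFilt (𝔪 : Ideal R) (n : ℕ) :
    (psBigIdeal 𝔪 : Ideal (MvPowerSeries σ R)) ^ n ≤ psFilt 𝔪 n := by
  induction n with
  | zero => rw [psFilt_zero]; exact le_top
  | succ n ih =>
    rw [pow_succ]
    exact (Ideal.mul_mono ih (psBigIdeal_le_psFilt_one 𝔪)).trans (psFilt_mul_le 𝔪 n 1)

theorem ps_monomial_mem_bigIdeal_pow (𝔪 : Ideal R) (j : ℕ) (d : σ →₀ ℕ) {a : R} (ha : a ∈ 𝔪 ^ j) :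
    MvPowerSeries.monomial d a ∈ (psBigIdeal 𝔪 : Ideal (MvPowerSeries σ R)) ^ (j + degree d) := by
  classical
  have h1 : MvPowerSeries.monomial d a = MvPowerSeries.C a * MvPowerSeries.monomial d (1 : R) := by
    ext e
    rw [MvPowerSeries.coeff_C_mul, MvPowerSeries.coeff_monomial, MvPowerSeries.coeff_monomial]
    split_ifs <;> simp
  rw [h1, pow_add]
  refine Ideal.mul_mem_mul ?_ ?_
  · have : MvPowerSeries.C a ∈ (𝔪.map (MvPowerSeries.C (σ := σ) (R := R))) ^ j := by
      rw [← Ideal.map_pow]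
      exact Ideal.mem_map_of_mem _ ha
    exact Ideal.pow_right_mono le_sup_left j this
  · have : MvPowerSeries.monomial d (1 : R) ∈
        (Ideal.span (Set.range MvPowerSeries.X) : Ideal (MvPowerSeries σ R)) ^ (degree d) := by
      rw [ps_mem_span_range_X_pow_iff]
      intro e he
      rw [MvPowerSeries.coeff_monomial, if_neg]
      rintro rfl
      exact lt_irrefl _ he
    exact Ideal.pow_right_mono le_sup_right _ this

theorem psFilt_le_bigIdeal_pow (𝔪 : Ideal R) (n : ℕ) :
    (psFilt 𝔪 n : Ideal (MvPowerSeries σ R)) ≤ psBigIdeal 𝔪 ^ n := by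
  classical
  intro f hf
  have h1 : f - ((MvPowerSeries.truncTotal n f : MvPolynomial σ R) : MvPowerSeries σ R) ∈
      (psBigIdeal 𝔪 : Ideal (MvPowerSeries σ R)) ^ n := by
    refine Ideal.pow_right_mono le_sup_right n ?_
    rw [ps_mem_span_range_X_pow_iff]
    intro d hd
    rw [map_sub, MvPolynomial.coeff_coe, MvPowerSeries.coeff_truncTotal _ hd, sub_self]
  have h2 : ((MvPowerSeries.truncTotal n f : MvPolynomial σ R) : MvPowerSeries σ R) ∈
      (psBigIdeal 𝔪 : Ideal (MvPowerSeries σ R)) ^ n := by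
    have hcoe : ∀ p : MvPolynomial σ R, (∀ d, p.coeff d ∈ 𝔪 ^ (n - degree d)) →
        (p : MvPowerSeries σ R) ∈ (psBigIdeal 𝔪 : Ideal (MvPowerSeries σ R)) ^ n := by
      intro p hp
      rw [p.as_sum]
      have : ((∑ v ∈ p.support, MvPolynomial.monomial v (p.coeff v) : MvPolynomial σ R) :
          MvPowerSeries σ R) = ∑ v ∈ p.support, MvPowerSeries.monomial v (p.coeff v) := by
        rw [← MvPolynomial.coeToMvPowerSeries.ringHom_apply, map_sum]
        simp
      rw [this]
      refine Ideal.sum_mem _ fun d _ => ?_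
      exact Ideal.pow_le_pow_right (by omega) (ps_monomial_mem_bigIdeal_pow 𝔪 (n - degree d) d (hp d))
    refine hcoe _ fun d => ?_
    by_cases hd : degree d < n
    · rw [MvPowerSeries.coeff_truncTotal _ hd]
      exact hf d
    · have : n - degree d = 0 := by omega
      rw [this, pow_zero, Ideal.one_eq_top]
      trivial
  have := Ideal.add_mem _ h1 h2
  rwa [sub_add_cancel] at this

theorem psBigIdeal_pow_eq_psFilt (𝔪 : Ideal R) (n : ℕ) :
    (psBigIdeal 𝔪 : Ideal (MvPowerSeries σ R)) ^ n = psFilt 𝔪 n :=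
  le_antisymm (psBigIdeal_pow_le_psFilt 𝔪 n) (psFilt_le_bigIdeal_pow 𝔪 n)

theorem ps_isPrecomplete_bigIdeal (𝔪 : Ideal R) [IsPrecomplete 𝔪 R] :
    IsPrecomplete (psBigIdeal 𝔪 : Ideal (MvPowerSeries σ R)) (MvPowerSeries σ R) := by
  refine ⟨fun f hf => ?_⟩
  have hf' : ∀ {m n : ℕ}, m ≤ n → f m - f n ∈ (psFilt 𝔪 m : Ideal (MvPowerSeries σ R)) := by
    intro m n hmn
    have := hf hmn
    rwa [SModEq.sub_mem, smul_eq_mul, Ideal.mul_top, psBigIdeal_pow_eq_psFilt] at this
  have hL : ∀ d : σ →₀ ℕ, ∃ L : R, ∀ j : ℕ,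
      MvPowerSeries.coeff d (f (j + degree d)) ≡ L [SMOD (𝔪 ^ j • ⊤ : Submodule R R)] := by
    intro d
    refine IsPrecomplete.prec ‹_› (f := fun j => MvPowerSeries.coeff d (f (j + degree d))) ?_
    intro i j hij
    rw [SModEq.sub_mem, smul_eq_mul, Ideal.mul_top, ← map_sub]
    have := hf' (Nat.add_le_add_right hij (degree d)) d
    rwa [Nat.add_sub_cancel] at this
  choose L hL using hL
  let Lf : MvPowerSeries σ R := fun d => L d
  have hLf : ∀ d, MvPowerSeries.coeff d Lf = L d := fun d => rfl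
  refine ⟨Lf, fun n => ?_⟩
  rw [SModEq.sub_mem, smul_eq_mul, Ideal.mul_top, psBigIdeal_pow_eq_psFilt]
  intro d
  by_cases hd : degree d ≤ n
  · have := hL d (n - degree d)
    rw [SModEq.sub_mem, smul_eq_mul, Ideal.mul_top, Nat.sub_add_cancel hd] at this
    rw [map_sub, hLf]
    exact this
  · have : n - degree d = 0 := by omega
    rw [this, pow_zero, Ideal.one_eq_top]
    trivial

theorem maximalIdeal_mvPowerSeries_eq [IsLocalRing R] :
    maximalIdeal (MvPowerSeries σ R) = psBigIdeal (maximalIdeal R) := by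
  rw [← pow_one (psBigIdeal (maximalIdeal R)), psBigIdeal_pow_eq_psFilt]
  ext f
  rw [mem_maximalIdeal, mem_nonunits_iff, MvPowerSeries.isUnit_iff_constantCoeff, mem_psFilt]
  constructor
  · intro h d
    by_cases hd : d = 0
    · subst hd
      simpa using h
    · have : 1 - degree d = 0 := by
        have : degree d ≠ 0 := by
          rwa [Ne, Finsupp.degree_eq_zero_iff]
        omega
      rw [this, pow_zero, Ideal.one_eq_top]
      trivial
  · intro h
    have := h 0
    simpa using this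

theorem isAdicComplete_mvPowerSeries' [IsLocalRing R] [IsNoetherianRing R]
    [IsAdicComplete (maximalIdeal R) R] :
    IsAdicComplete (maximalIdeal (MvPowerSeries σ R)) (MvPowerSeries σ R) := by
  have h1 : IsPrecomplete (maximalIdeal (MvPowerSeries σ R)) (MvPowerSeries σ R) := by
    rw [maximalIdeal_mvPowerSeries_eq]
    exact ps_isPrecomplete_bigIdeal _
  exact { toIsHausdorff := inferInstance, toIsPrecomplete := h1 }

section TD0

variable {𝒪 : Type} [CommRing 𝒪] [IsLocalRing 𝒪] [IsNoetherianRing 𝒪]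

/-- TD0 -/
theorem isAdicComplete_mvPowerSeries [IsAdicComplete (maximalIdeal 𝒪) 𝒪] (d : ℕ) :
    IsAdicComplete (maximalIdeal (MvPowerSeries (Fin d) 𝒪)) (MvPowerSeries (Fin d) 𝒪) :=
  isAdicComplete_mvPowerSeries'

/-- TD0 -/
theorem isLocalHom_algebraMap_mvPowerSeries (d : ℕ) :
    IsLocalHom (algebraMap 𝒪 (MvPowerSeries (Fin d) 𝒪)) := by
  refine ⟨fun a ha => ?_⟩
  rw [MvPowerSeries.isUnit_iff_constantCoeff, MvPowerSeries.algebraMap_apply] at ha
  simpa using ha

/-- TD0 -/
theorem residue_surjective_mvPowerSeries (d : ℕ) :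
    Function.Surjective (residue (MvPowerSeries (Fin d) 𝒪) ∘ algebraMap 𝒪 (MvPowerSeries (Fin d) 𝒪)) := by
  intro x
  obtain ⟨f, rfl⟩ := residue_surjective x
  refine ⟨MvPowerSeries.constantCoeff f, ?_⟩
  rw [Function.comp_apply, ← sub_eq_zero, ← map_sub, residue_eq_zero_iff, mem_maximalIdeal,
    mem_nonunits_iff, MvPowerSeries.isUnit_iff_constantCoeff, MvPowerSeries.algebraMap_apply]
  simp

end TD0

end Fermat.Agent.S53
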