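/-
S53 team, block TD1: evaluation of multivariate power series at nilpotent elements.
-/
import Mathlib

set_option autoImplicit false

noncomputable section

namespace Fermat.Agent.S53

namespace PSEval

variable {𝒪 : Type} [CommRing 𝒪] {A : Type} [CommRing A] [Algebra 𝒪 A]

/-- `aeval y` maps the `n`-th power of the ideal of variables into `(span (range y)) ^ n`. -/
theorem aeval_mem_pow (d : ℕ) (y : Fin d → A) (n : ℕ) (a : MvPolynomial (Fin d) 𝒪)
    (ha : a ∈ MvPolynomial.idealOfVars (Fin d) 𝒪 ^ n) :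
    MvPolynomial.aeval y a ∈ Ideal.span (Set.range y) ^ n := by
  have h1 : MvPolynomial.aeval y a ∈
      Ideal.map (MvPolynomial.aeval y : MvPolynomial (Fin d) 𝒪 →ₐ[𝒪] A)
        (MvPolynomial.idealOfVars (Fin d) 𝒪 ^ n) := Ideal.mem_map_of_mem _ ha
  rw [Ideal.map_pow, MvPolynomial.idealOfVars, Ideal.map_span, ← Set.range_comp] at h1
  have h2 : ((MvPolynomial.aeval y : MvPolynomial (Fin d) 𝒪 →ₐ[𝒪] A) ∘ MvPolynomial.X) = y := by
    funext i
    simp
  rwa [h2] at h1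

/-- An algebra hom out of the power series ring restricted to polynomials is `aeval`. -/
theorem apply_coe (d : ℕ) (φ : MvPowerSeries (Fin d) 𝒪 →ₐ[𝒪] A) (p : MvPolynomial (Fin d) 𝒪) :
    φ (p : MvPowerSeries (Fin d) 𝒪) = MvPolynomial.aeval (fun i => φ (MvPowerSeries.X i)) p := by
  have h : φ.comp (MvPolynomial.coeToMvPowerSeries.algHom (σ := Fin d) (R := 𝒪) 𝒪) =
      MvPolynomial.aeval (fun i => φ (MvPowerSeries.X i)) := by
    apply MvPolynomial.algHom_ext
    intro i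
    simp
  have h2 := DFunLike.congr_fun h p
  simpa using h2

theorem algebraMap_eq_coe (d : ℕ) (p : MvPolynomial (Fin d) 𝒪) :
    algebraMap (MvPolynomial (Fin d) 𝒪) (MvPowerSeries (Fin d) 𝒪) p =
      (p : MvPowerSeries (Fin d) 𝒪) := by
  rw [MvPowerSeries.algebraMap_apply']
  simp

/-- A power series differs from its truncation by an element of `I ^ n • ⊤`. -/
theorem sub_truncTotal_mem (d : ℕ) (n : ℕ) (f : MvPowerSeries (Fin d) 𝒪) :
    f - ((MvPowerSeries.truncTotal n f : MvPolynomial (Fin d) 𝒪) : MvPowerSeries (Fin d) 𝒪) ∈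
      (MvPolynomial.idealOfVars (Fin d) 𝒪 ^ n) •
        (⊤ : Submodule (MvPolynomial (Fin d) 𝒪) (MvPowerSeries (Fin d) 𝒪)) := by
  set g := f - ((MvPowerSeries.truncTotal n f : MvPolynomial (Fin d) 𝒪) :
    MvPowerSeries (Fin d) 𝒪) with hg
  let e := MvPowerSeries.toAdicCompletionAlgEquiv (Fin d) 𝒪
  have h1 : e g ∈ LinearMap.ker (AdicCompletion.eval (MvPolynomial.idealOfVars (Fin d) 𝒪)
      (MvPolynomial (Fin d) 𝒪) n) := by
    rw [LinearMap.mem_ker, AdicCompletion.eval_apply]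
    have h0 : MvPowerSeries.truncTotal n g = 0 := by
      ext x
      rw [hg, map_sub, MvPolynomial.coeff_sub, MvPolynomial.coeff_zero, sub_eq_zero]
      by_cases hx : x.degree < n
      · rw [MvPowerSeries.coeff_truncTotal _ hx, MvPowerSeries.coeff_truncTotal _ hx,
          MvPolynomial.coeff_coe, MvPowerSeries.coeff_truncTotal _ hx]
      · rw [MvPowerSeries.coeff_truncTotal_eq_zero _ (not_lt.mp hx),
          MvPowerSeries.coeff_truncTotal_eq_zero _ (not_lt.mp hx)]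
    have h3 : (e g).val n = Ideal.Quotient.mk _ (MvPowerSeries.truncTotal n g) :=
      MvPowerSeries.toAdicCompletion_apply_eq_mk_truncTotal
    rw [h3, h0, map_zero]
  rw [← AdicCompletion.pow_smul_top_eq_ker_eval (MvPolynomial.idealOfVars_fg (Fin d) 𝒪)] at h1
  have h2 : e.symm (e g) ∈ Submodule.map e.symm.toLinearMap
      ((MvPolynomial.idealOfVars (Fin d) 𝒪 ^ n) • (⊤ : Submodule (MvPolynomial (Fin d) 𝒪)
        (AdicCompletion (MvPolynomial.idealOfVars (Fin d) 𝒪) (MvPolynomial (Fin d) 𝒪)))) :=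
    Submodule.mem_map_of_mem h1
  rw [Submodule.map_smul'', AlgEquiv.symm_apply_apply] at h2
  exact Submodule.smul_mono le_rfl le_top h2

end PSEval

open PSEval

/-- TD1 : evaluation of power series at nilpotent elements. -/
theorem exists_eval {𝒪 : Type} [CommRing 𝒪] {A : Type} [CommRing A] [Algebra 𝒪 A] (d : ℕ)
    (y : Fin d → A) (n : ℕ) (hy : Ideal.span (Set.range y) ^ n = ⊥) :
    ∃ φ : MvPowerSeries (Fin d) 𝒪 →ₐ[𝒪] A, ∀ i, φ (MvPowerSeries.X i) = y i := by
  have hker : ∀ a ∈ MvPolynomial.idealOfVars (Fin d) 𝒪 ^ n,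
      (MvPolynomial.aeval y : MvPolynomial (Fin d) 𝒪 →ₐ[𝒪] A) a = 0 := by
    intro a ha
    have := aeval_mem_pow d y n a ha
    rwa [hy, Ideal.mem_bot] at this
  let ψ : (MvPolynomial (Fin d) 𝒪 ⧸ MvPolynomial.idealOfVars (Fin d) 𝒪 ^ n) →ₐ[𝒪] A :=
    Ideal.Quotient.liftₐ _ (MvPolynomial.aeval y) hker
  refine ⟨ψ.comp ((MvPowerSeries.truncTotalAlgHom (Fin d) 𝒪 n).restrictScalars 𝒪), fun i => ?_⟩
  have h1 : (MvPowerSeries.X i : MvPowerSeries (Fin d) 𝒪) =
      algebraMap (MvPolynomial (Fin d) 𝒪) (MvPowerSeries (Fin d) 𝒪) (MvPolynomial.X i) := by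
    rw [algebraMap_eq_coe, MvPolynomial.coe_X]
  simp only [AlgHom.comp_apply, AlgHom.restrictScalars_apply]
  rw [h1, AlgHom.commutes]
  simp [ψ]

/-- TD1 -/
theorem eval_ext {𝒪 : Type} [CommRing 𝒪] {A : Type} [CommRing A] [Algebra 𝒪 A] (d : ℕ)
    (φ ψ : MvPowerSeries (Fin d) 𝒪 →ₐ[𝒪] A) (n : ℕ)
    (hφ : Ideal.span (Set.range fun i => φ (MvPowerSeries.X i)) ^ n = ⊥)
    (h : ∀ i, φ (MvPowerSeries.X i) = ψ (MvPowerSeries.X i)) : φ = ψ := by
  have hfun : (fun i => φ (MvPowerSeries.X i)) = (fun i => ψ (MvPowerSeries.X i)) := funext h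
  have hkill : ∀ (χ : MvPowerSeries (Fin d) 𝒪 →ₐ[𝒪] A),
      (fun i => χ (MvPowerSeries.X i)) = (fun i => φ (MvPowerSeries.X i)) →
      ∀ g ∈ (MvPolynomial.idealOfVars (Fin d) 𝒪 ^ n) •
        (⊤ : Submodule (MvPolynomial (Fin d) 𝒪) (MvPowerSeries (Fin d) 𝒪)), χ g = 0 := by
    intro χ hχ g hg
    refine Submodule.smul_induction_on hg ?_ ?_
    · intro a ha m _
      have h1 : a • m = (a : MvPowerSeries (Fin d) 𝒪) * m := by
        rw [Algebra.smul_def, algebraMap_eq_coe]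
      rw [h1, map_mul, apply_coe, hχ]
      have h2 := aeval_mem_pow d (fun i => φ (MvPowerSeries.X i)) n a ha
      rw [hφ, Ideal.mem_bot] at h2
      rw [h2, zero_mul]
    · intro x y hx hy
      rw [map_add, hx, hy, add_zero]
  ext f
  have hf := sub_truncTotal_mem d n f
  have h1 := hkill φ rfl _ hf
  have h2 := hkill ψ hfun.symm _ hf
  rw [map_sub, sub_eq_zero] at h1 h2
  rw [h1, h2, apply_coe, apply_coe, hfun]

end Fermat.Agent.S53
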