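/-
S53 team, block TD2: compatible surjections from a power series ring onto a tower of Artinian
test algebras.
-/
import Mathlib
import Fermat.Agent.S53.Defs
import Fermat.Agent.S53.TestAlg
import Fermat.Agent.S53.TangentAlg
import Fermat.Agent.S53.PSEval

set_option autoImplicit false
set_option linter.unusedSectionVars false

noncomputable section

namespace Fermat.Agent.S53

open IsLocalRing GaloisRep

variable {𝒪 : Type} [CommRing 𝒪] [IsLocalRing 𝒪] [IsNoetherianRing 𝒪]
variable [Finite (ResidueField 𝒪)]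

namespace TowerGens

/-- compatible lifts of a family of elements of `A 1` to all `A (n + 1)`. -/
def lifts (A : ℕ → Type) [∀ n, CommRing (A n)] [∀ n, Algebra 𝒪 (A n)]
    (τ : ∀ n, A (n + 1) →ₐ[𝒪] A n) (hτ : ∀ n, Function.Surjective (τ n))
    {d : ℕ} (y1 : Fin d → A 1) : ∀ n, Fin d → A (n + 1)
  | 0 => y1
  | (n + 1) => fun i => Function.surjInv (hτ (n + 1)) (lifts A τ hτ y1 n i)

theorem τ_lifts (A : ℕ → Type) [∀ n, CommRing (A n)] [∀ n, Algebra 𝒪 (A n)]
    (τ : ∀ n, A (n + 1) →ₐ[𝒪] A n) (hτ : ∀ n, Function.Surjective (τ n))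
    {d : ℕ} (y1 : Fin d → A 1) (n : ℕ) (i : Fin d) :
    τ (n + 1) (lifts A τ hτ y1 (n + 1) i) = lifts A τ hτ y1 n i :=
  Function.surjInv_eq (hτ (n + 1)) _

end TowerGens

open TowerGens

/-- TD2 -/
theorem exists_compatible_surj (A : ℕ → Type) [∀ n, CommRing (A n)] [∀ n, IsLocalRing (A n)]
    [∀ n, Algebra 𝒪 (A n)] (htest : ∀ n, IsArtinianTestAlgebra 𝒪 (A n))
    (hpow : ∀ n, maximalIdeal (A n) ^ (n + 1) = ⊥)
    (τ : ∀ n, A (n + 1) →ₐ[𝒪] A n) (hτ : ∀ n, Function.Surjective (τ n))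
    (hker : ∀ n, RingHom.ker (τ n : A (n + 1) →+* A n) = maximalIdeal (A (n + 1)) ^ (n + 1)) :
    ∃ (d : ℕ) (π : ∀ n, MvPowerSeries (Fin d) 𝒪 →ₐ[𝒪] A n), (∀ n, Function.Surjective (π n)) ∧
      (∀ n, (τ n).comp (π (n + 1)) = π n) := by
  have hfin : Finite (A 1) := finite_of_test (htest 1)
  have hfin' : Finite (maximalIdeal (A 1)) := inferInstance
  obtain ⟨d, ⟨e⟩⟩ := Finite.exists_equiv_fin (maximalIdeal (A 1))
  let y1 : Fin d → A 1 := fun i => (e.symm i : A 1)
  let z := lifts A τ hτ y1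
  have hτz : ∀ n i, τ (n + 1) (z (n + 1) i) = z n i := τ_lifts A τ hτ y1
  -- all `z n i` lie in the maximal ideal
  have hzm : ∀ n i, z n i ∈ maximalIdeal (A (n + 1)) := by
    intro n
    induction n with
    | zero => exact fun i => (e.symm i).2
    | succ n ih =>
      intro i
      rw [IsLocalRing.mem_maximalIdeal]
      intro hu
      have h1 : IsUnit (τ (n + 1) (z (n + 1) i)) := hu.map (τ (n + 1))
      rw [hτz] at h1
      exact (IsLocalRing.mem_maximalIdeal _).mp (ih i) h1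
  -- `τ` maps the maximal ideal into the maximal ideal
  have hτm : ∀ n, ∀ a ∈ maximalIdeal (A (n + 1)), τ n a ∈ maximalIdeal (A n) := by
    intro n a ha
    have hloc := isLocalHom_of_test (htest (n + 1)) (τ n)
    rw [IsLocalRing.mem_maximalIdeal] at ha ⊢
    intro hu
    exact ha (hloc.map_nonunit a hu)
  -- the maximal ideal is the image of the maximal ideal
  have hmap : ∀ n, maximalIdeal (A n) ≤
      (maximalIdeal (A (n + 1))).map (τ n : A (n + 1) →+* A n) := by
    intro n x hx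
    obtain ⟨x', rfl⟩ := hτ n x
    refine Ideal.mem_map_of_mem (τ n : A (n + 1) →+* A n) ?_
    rw [IsLocalRing.mem_maximalIdeal] at hx ⊢
    intro hu
    exact hx (hu.map (τ n))
  -- the `z n i` cover `𝔪 / 𝔪 ^ 2`
  have hcover : ∀ n, ∀ a ∈ maximalIdeal (A (n + 1)),
      ∃ i, a - z n i ∈ maximalIdeal (A (n + 1)) ^ 2 := by
    intro n
    induction n with
    | zero =>
      intro a ha
      refine ⟨e ⟨a, ha⟩, ?_⟩
      have : z 0 (e ⟨a, ha⟩) = a := by
        change ((e.symm (e ⟨a, ha⟩) : maximalIdeal (A 1)) : A 1) = a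
        rw [Equiv.symm_apply_apply]
      rw [this, sub_self]
      exact Ideal.zero_mem _
    | succ n ih =>
      intro a ha
      obtain ⟨i, hi⟩ := ih (τ (n + 1) a) (hτm (n + 1) a ha)
      refine ⟨i, ?_⟩
      have h1 : τ (n + 1) a - z n i ∈
          (maximalIdeal (A (n + 1 + 1)) ^ 2).map (τ (n + 1) : A (n + 1 + 1) →+* A (n + 1)) := by
        rw [Ideal.map_pow]
        exact Ideal.pow_right_mono (hmap (n + 1)) 2 hi
      obtain ⟨b, hb, hb'⟩ := (Ideal.mem_map_iff_of_surjective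
        (τ (n + 1) : A (n + 1 + 1) →+* A (n + 1)) (hτ (n + 1))).mp h1
      have h2 : a - z (n + 1) i - b ∈ RingHom.ker (τ (n + 1) : A (n + 1 + 1) →+* A (n + 1)) := by
        rw [RingHom.mem_ker, map_sub, map_sub, hb']
        change τ (n + 1) a - τ (n + 1) (z (n + 1) i) - _ = 0
        rw [hτz, sub_self]
      rw [hker] at h2
      have h3 : a - z (n + 1) i - b ∈ maximalIdeal (A (n + 1 + 1)) ^ 2 :=
        Ideal.pow_le_pow_right (by omega) h2
      have h4 := Ideal.add_mem _ h3 hb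
      simpa using h4
  have hadj : ∀ n, Algebra.adjoin 𝒪 (Set.range (z n)) = ⊤ := by
    intro n
    refine tangentAlg_eq_top (htest (n + 1)) _ fun a ha => ?_
    obtain ⟨i, hi⟩ := hcover n a ha
    exact ⟨z n i, Algebra.subset_adjoin ⟨i, rfl⟩, hi⟩
  have hnil : ∀ n, Ideal.span (Set.range (z n)) ^ (n + 1 + 1) = ⊥ := by
    intro n
    rw [eq_bot_iff, ← hpow (n + 1)]
    refine Ideal.pow_right_mono (Ideal.span_le.mpr ?_) _
    rintro _ ⟨i, rfl⟩
    exact hzm n i
  choose φ hφ using fun n => exists_eval (𝒪 := 𝒪) d (z n) (n + 1 + 1) (hnil n)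
  have hφsurj : ∀ n, Function.Surjective (φ n) := by
    intro n
    have h1 : (φ n).range = ⊤ := by
      rw [eq_top_iff, ← hadj n]
      refine Algebra.adjoin_le ?_
      rintro _ ⟨i, rfl⟩
      exact ⟨MvPowerSeries.X i, hφ n i⟩
    intro x
    have : x ∈ (φ n).range := h1 ▸ Algebra.mem_top
    exact this
  let π : ∀ n, MvPowerSeries (Fin d) 𝒪 →ₐ[𝒪] A n := fun n =>
    match n with
    | 0 => (τ 0).comp (φ 0)
    | (n + 1) => φ n
  refine ⟨d, π, ?_, ?_⟩
  · intro n
    cases n with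
    | zero => exact (hτ 0).comp (hφsurj 0)
    | succ n => exact hφsurj n
  · intro n
    cases n with
    | zero => rfl
    | succ n =>
      change (τ (n + 1)).comp (φ (n + 1)) = φ n
      symm
      refine eval_ext d _ _ (n + 1 + 1) ?_ ?_
      · have : (fun i => φ n (MvPowerSeries.X i)) = z n := funext (hφ n)
        rw [this]
        exact hnil n
      · intro i
        rw [hφ n i, AlgHom.comp_apply, hφ (n + 1) i, hτz]

end Fermat.Agent.S53
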