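/-
S53 team, block TD4 : the limit of a tower of Artinian test algebras (TD0 + TD2 + TD3).
-/
import Fermat.Agent.S53.PSComplete
import Fermat.Agent.S53.TowerGens
import Fermat.Agent.S53.LimitQuot

set_option autoImplicit false
set_option linter.unusedSectionVars false
set_option linter.unusedVariables false

noncomputable section

namespace Fermat.Agent.S53

open IsLocalRing GaloisRep

variable {𝒪 : Type} [CommRing 𝒪] [IsLocalRing 𝒪] [IsNoetherianRing 𝒪]
variable [Finite (ResidueField 𝒪)]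

/-- TD4 (file Fermat/Agent/S53/Limit.lean) : TD0 + TD2 + TD3 -/
theorem exists_limit [IsAdicComplete (maximalIdeal 𝒪) 𝒪]
    (A : ℕ → Type) [∀ n, CommRing (A n)] [∀ n, IsLocalRing (A n)]
    [∀ n, Algebra 𝒪 (A n)] (htest : ∀ n, IsArtinianTestAlgebra 𝒪 (A n))
    (hpow : ∀ n, maximalIdeal (A n) ^ (n + 1) = ⊥)
    (τ : ∀ n, A (n + 1) →ₐ[𝒪] A n) (hτ : ∀ n, Function.Surjective (τ n))
    (hker : ∀ n, RingHom.ker (τ n : A (n + 1) →+* A n) = maximalIdeal (A (n + 1)) ^ (n + 1)) :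
    ∃ (R : Type) (_ : CommRing R) (_ : IsLocalRing R) (_ : IsNoetherianRing R)
      (_ : IsAdicComplete (maximalIdeal R) R) (_ : Algebra 𝒪 R) (_ : IsLocalHom (algebraMap 𝒪 R))
      (π : ∀ n, R →ₐ[𝒪] A n),
      Function.Surjective (residue R ∘ algebraMap 𝒪 R) ∧ (∀ n, Function.Surjective (π n)) ∧
      (∀ n, RingHom.ker (π n : R →+* A n) = maximalIdeal R ^ (n + 1)) ∧
      (∀ n, (τ n).comp (π (n + 1)) = π n) := by
  obtain ⟨d, π, hπ, hc⟩ := exists_compatible_surj A htest hpow τ hτ hker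
  have := isAdicComplete_mvPowerSeries (𝒪 := 𝒪) d
  have := isLocalHom_algebraMap_mvPowerSeries (𝒪 := 𝒪) d
  exact exists_limit_of_surj (residue_surjective_mvPowerSeries (𝒪 := 𝒪) d) A htest hpow τ hτ hker
    π hπ hc

end Fermat.Agent.S53

end
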