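import Mathlib

set_option autoImplicit false

open IsLocalRing

namespace Fermat.Agent.S53

/-- TD5 : compatible families lift uniquely -/
theorem existsUnique_of_compatible {R : Type} [CommRing R] [IsLocalRing R]
    [IsAdicComplete (maximalIdeal R) R] (A : ℕ → Type) [∀ n, CommRing (A n)]
    (τ : ∀ n, A (n + 1) →+* A n) (π : ∀ n, R →+* A n) (hπ : ∀ n, Function.Surjective (π n))
    (hker : ∀ n, RingHom.ker (π n) = maximalIdeal R ^ (n + 1))
    (hc : ∀ n, (τ n).comp (π (n + 1)) = π n)
    (a : ∀ n, A n) (ha : ∀ n, τ n (a (n + 1)) = a n) : ∃! x : R, ∀ n, π n x = a n := by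
  choose c hcn using fun n => hπ n (a n)
  have hπc : ∀ n, π n (c (n + 1)) = a n := by
    intro n
    rw [← hc n, RingHom.comp_apply, hcn, ha]
  have hstep : ∀ n, c n - c (n + 1) ∈ maximalIdeal R ^ (n + 1) := by
    intro n
    rw [← hker n, RingHom.mem_ker, map_sub, hcn, hπc, sub_self]
  have hcauchy : ∀ {i j : ℕ}, i ≤ j → c i - c j ∈ maximalIdeal R ^ (i + 1) := by
    intro i j hij
    induction hij with
    | refl => simp
    | @step k hik ih =>
      have h1 : c k - c (k + 1) ∈ maximalIdeal R ^ (i + 1) :=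
        Ideal.pow_le_pow_right (Nat.add_le_add_right hik 1) (hstep k)
      have : c i - c (k + 1) = (c i - c k) + (c k - c (k + 1)) := by ring
      rw [this]
      exact Ideal.add_mem _ ih h1
  obtain ⟨x, hx⟩ := IsPrecomplete.prec (I := maximalIdeal R) (M := R) inferInstance (f := c) (by
    intro i j hij
    rw [SModEq.sub_mem, smul_eq_mul, Ideal.mul_top]
    exact Ideal.pow_le_pow_right (Nat.le_succ i) (hcauchy hij))
  refine ⟨x, fun n => ?_, fun y hy => ?_⟩
  · have h1 : c (n + 1) - x ∈ maximalIdeal R ^ (n + 1) := by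
      have := hx (n + 1)
      rwa [SModEq.sub_mem, smul_eq_mul, Ideal.mul_top] at this
    rw [← hker n, RingHom.mem_ker, map_sub, hπc, sub_eq_zero] at h1
    exact h1.symm
  · have hxn : ∀ n, π n x = a n := by
      intro n
      have h1 : c (n + 1) - x ∈ maximalIdeal R ^ (n + 1) := by
        have := hx (n + 1)
        rwa [SModEq.sub_mem, smul_eq_mul, Ideal.mul_top] at this
      rw [← hker n, RingHom.mem_ker, map_sub, hπc, sub_eq_zero] at h1
      exact h1.symm
    rw [← sub_eq_zero]
    apply IsHausdorff.haus (I := maximalIdeal R) (M := R) inferInstance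
    intro n
    rw [SModEq.zero, smul_eq_mul, Ideal.mul_top]
    have h2 : y - x ∈ maximalIdeal R ^ (n + 1) := by
      rw [← hker n, RingHom.mem_ker, map_sub, hy, hxn, sub_self]
    exact Ideal.pow_le_pow_right (Nat.le_succ n) h2

end Fermat.Agent.S53
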