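/-
S53 team, package E2: the universal matrix representation over the limit ring `R`.
-/
import Fermat.Agent.S53.Defs
import Fermat.Agent.S53.LimitLift

set_option autoImplicit false
set_option linter.unusedSectionVars false
set_option linter.unusedVariables false

noncomputable section

namespace Fermat.Agent.S53

open IsLocalRing GaloisRep

theorem univRep_ev_mapMat {𝒪 : Type} [CommRing 𝒪] [IsLocalRing 𝒪]
    {A B : Type} [CommRing A] [IsLocalRing A] [Algebra 𝒪 A] [CommRing B] [IsLocalRing B]
    [Algebra 𝒪 B] (φ : A →ₐ[𝒪] B) (c : GQ →₀ 𝒪) (r : GQ →* M2 A) :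
    ev c (mapMat (φ : A →+* B) r) = (ev c r).map φ := by
  have h : (ev c r).map φ = φ.mapMatrix (ev c r) := rfl
  rw [h]
  unfold ev
  rw [Finsupp.sum, Finsupp.sum, map_sum]
  refine Finset.sum_congr rfl fun g _ => ?_
  rw [map_smul]
  rfl

variable {𝒪 : Type} [CommRing 𝒪] [IsLocalRing 𝒪] [IsNoetherianRing 𝒪] [Finite (ResidueField 𝒪)]
variable {ρbar : ResidualGaloisRep (ResidueField 𝒪)} (F : Frame 𝒪 ρbar)
  {𝒟 : ∀ ⦃A : Type⦄ [CommRing A] [IsLocalRing A] [Algebra 𝒪 A], GaloisRepAdic A → Prop}

section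
variable (U : ∀ n, Obj F 𝒟 (n + 1)) (τ : ∀ n, (U (n + 1)).A →ₐ[𝒪] (U n).A)
  {R : Type} [CommRing R] [IsLocalRing R] [IsNoetherianRing R]
  [IsAdicComplete (maximalIdeal R) R] [Algebra 𝒪 R] [IsLocalHom (algebraMap 𝒪 R)]
  (π : ∀ n, R →ₐ[𝒪] (U n).A)

/-- E2 (file Fermat/Agent/S53/UnivRep.lean) -/
theorem exists_univ_rep (hτr : ∀ n, mapMat (τ n : (U (n + 1)).A →+* (U n).A) (U (n + 1)).r = (U n).r)
    (hπ : ∀ n, Function.Surjective (π n))
    (hker : ∀ n, RingHom.ker (π n : R →+* (U n).A) = maximalIdeal R ^ (n + 1))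
    (hc : ∀ n, (τ n).comp (π (n + 1)) = π n) :
    ∃ r : GQ →* M2 R, (∀ n, mapMat (π n : R →+* (U n).A) r = (U n).r) ∧ MatCont r ∧
      IsLift F r ∧ IsNormalized F r := by
  -- joint injectivity of the `π n`
  have hinj : ∀ x y : R, (∀ n, π n x = π n y) → x = y := by
    intro x y h
    rw [← sub_eq_zero]
    apply IsHausdorff.haus (I := maximalIdeal R) (M := R) inferInstance
    intro n
    rw [SModEq.zero, smul_eq_mul, Ideal.mul_top]
    have h2 : x - y ∈ maximalIdeal R ^ (n + 1) := by
      rw [← hker n, RingHom.mem_ker]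
      show π n (x - y) = 0
      rw [map_sub, h n, sub_self]
    exact Ideal.pow_le_pow_right (Nat.le_succ n) h2
  have hinjM : ∀ M N : M2 R, (∀ n, (π n : R →+* (U n).A).mapMatrix M =
      (π n : R →+* (U n).A).mapMatrix N) → M = N := by
    intro M N h
    ext i j
    exact hinj _ _ fun n => congrFun (congrFun (h n) i) j
  have hc' : ∀ n, (τ n : (U (n + 1)).A →+* (U n).A).comp (π (n + 1) : R →+* (U (n + 1)).A) =
      (π n : R →+* (U n).A) := by
    intro n
    ext x
    exact congrArg (fun f => f x) (hc n)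
  have hex : ∀ (σ : GQ) (i j : Fin 2), ∃! x : R, ∀ n, (π n : R →+* (U n).A) x = (U n).r σ i j := by
    intro σ i j
    refine existsUnique_of_compatible (fun n => (U n).A)
      (fun n => (τ n : (U (n + 1)).A →+* (U n).A)) (fun n => (π n : R →+* (U n).A))
      hπ hker hc' (fun n => (U n).r σ i j) fun n => ?_
    have := congrArg (fun f => f σ i j) (hτr n)
    exact this
  choose e he _ using hex
  let E : GQ → M2 R := fun σ => Matrix.of (e σ)
  have hE : ∀ n σ, (π n : R →+* (U n).A).mapMatrix (E σ) = (U n).r σ := by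
    intro n σ
    ext i j
    exact he σ i j n
  let r : GQ →* M2 R :=
    { toFun := E
      map_one' := by
        apply hinjM
        intro n
        rw [hE, map_one, map_one]
      map_mul' := by
        intro σ τ'
        apply hinjM
        intro n
        rw [hE, map_mul, map_mul, hE, hE] }
  have hr : ∀ n σ, (π n : R →+* (U n).A).mapMatrix (r σ) = (U n).r σ := hE
  have hmap : ∀ n, mapMat (π n : R →+* (U n).A) r = (U n).r := by
    intro n
    ext σ i j
    exact congrFun (congrFun (hr n σ) i) j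
  refine ⟨r, hmap, ?_, ?_, ?_⟩
  · -- continuity
    intro n
    obtain ⟨L, hL, h⟩ := (U n).dlift.cont (n + 1)
    refine ⟨L, hL, fun σ hσ i j => ?_⟩
    have h1 := h σ hσ i j
    rw [(U n).pow_eq, Ideal.mem_bot] at h1
    have h2 : (r σ - 1) i j ∈ maximalIdeal R ^ (n + 1) := by
      rw [← hker n, RingHom.mem_ker]
      have h3 : (π n : R →+* (U n).A).mapMatrix (r σ - 1) = (U n).r σ - 1 := by
        rw [map_sub, map_one, hr]
      have h4 := congrFun (congrFun h3 i) j
      exact h4.trans h1
    exact Ideal.pow_le_pow_right (Nat.le_succ n) h2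
  · -- lift
    intro σ i j
    have h1 := (U 0).dlift.lift σ i j
    have hbot : maximalIdeal (U 0).A = ⊥ := by
      have := (U 0).pow_eq
      simpa using this
    rw [hbot, Ideal.mem_bot] at h1
    have h2 : r σ i j - algebraMap 𝒪 R (F.rt σ i j) ∈ maximalIdeal R ^ (0 + 1) := by
      rw [← hker 0, RingHom.mem_ker]
      show π 0 (r σ i j - algebraMap 𝒪 R (F.rt σ i j)) = 0
      rw [map_sub, AlgHom.commutes]
      have h3 : π 0 (r σ i j) = (U 0).r σ i j := congrFun (congrFun (hr 0 σ) i) j
      rw [h3]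
      exact h1
    simpa using h2
  · -- normalized
    have hev : ∀ (c : GQ →₀ 𝒪) (n : ℕ) (i j : Fin 2), π n (ev c r i j) = ev c (U n).r i j := by
      intro c n i j
      have := univRep_ev_mapMat (π n) c r
      rw [hmap n] at this
      exact (congrFun (congrFun this i) j).symm
    refine ⟨?_, ?_, ?_⟩
    · apply hinj
      intro n
      rw [hev, map_zero]
      exact (U n).dlift.norm.1
    · apply hinj
      intro n
      rw [hev, map_zero]
      exact (U n).dlift.norm.2.1
    · apply hinj
      intro n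
      rw [hev, map_one]
      exact (U n).dlift.norm.2.2

end

end Fermat.Agent.S53

end
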