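/-
S53 team, block E4 (core) : `UnivData` from a tower of universal objects
(limit + E2 + E3), with the tower (E1) as a hypothesis.
-/
import Fermat.Agent.S53.UnivData
import Fermat.Agent.S53.Limit
import Fermat.Agent.S53.UnivRep
import Fermat.Agent.S53.ArtUniv

set_option autoImplicit false
set_option linter.unusedSectionVars false
set_option linter.unusedVariables false

noncomputable section

namespace Fermat.Agent.S53

open IsLocalRing GaloisRep

variable {𝒪 : Type} [CommRing 𝒪] [IsLocalRing 𝒪] [IsNoetherianRing 𝒪] [Finite (ResidueField 𝒪)]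
variable {ρbar : ResidualGaloisRep (ResidueField 𝒪)} (F : Frame 𝒪 ρbar)
  {𝒟 : ∀ ⦃A : Type⦄ [CommRing A] [IsLocalRing A] [Algebra 𝒪 A], GaloisRepAdic A → Prop}

/-- E4, with the tower of universal objects as a hypothesis. -/
theorem nonempty_univData_core [IsAdicComplete (maximalIdeal 𝒪) 𝒪]
    (h𝒟 : IsDeformationCondition 𝒪 𝒟)
    (htower : ∃ (U : ∀ n, Obj F 𝒟 (n + 1)) (τ : ∀ n, (U (n + 1)).A →ₐ[𝒪] (U n).A),
      (∀ n (V : Obj F 𝒟 (n + 1)), ∃ φ : (U n).A →ₐ[𝒪] V.A,
        mapMat (φ : (U n).A →+* V.A) (U n).r = V.r) ∧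
      (∀ n, mapMat (τ n : (U (n + 1)).A →+* (U n).A) (U (n + 1)).r = (U n).r) ∧
      (∀ n, Function.Surjective (τ n)) ∧
      (∀ n, RingHom.ker (τ n : (U (n + 1)).A →+* (U n).A) =
        maximalIdeal (U (n + 1)).A ^ (n + 1))) :
    Nonempty (UnivData F 𝒟) := by
  obtain ⟨U, τ, hU, hτr, hτ, hkerτ⟩ := htower
  obtain ⟨R, _, _, _, _, _, _, π, hres, hπ, hker, hc⟩ :=
    exists_limit (𝒪 := 𝒪) (fun n => (U n).A) (fun n => (U n).test) (fun n => (U n).pow_eq)
      τ hτ hkerτ
  obtain ⟨r, hr, hcont, hlift, hnorm⟩ := exists_univ_rep F U τ π hτr hπ hker hc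
  exact ⟨{ R := R
           residue_surjective := hres
           r := r
           cont := hcont
           lift := hlift
           norm := hnorm
           dlift_map := fun B _ _ _ hB f => isDLift_mapMat_univ F U π h𝒟 hπ hker r hr hB f
           univ := fun B _ _ _ hB s hs =>
             existsUnique_hom_of_isDLift F U π h𝒟 hU hπ hker r hr hB s hs }⟩

end Fermat.Agent.S53

end
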