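/-
S53 team, E4 : existence of the universal data.
-/
import Fermat.Agent.S53.UnivDataCore
import Fermat.Agent.S53.Tower

set_option autoImplicit false

noncomputable section

namespace Fermat.Agent.S53

open IsLocalRing GaloisRep

variable {𝒪 : Type} [CommRing 𝒪] [IsLocalRing 𝒪] [IsNoetherianRing 𝒪] [Finite (ResidueField 𝒪)]
variable {ρbar : ResidualGaloisRep (ResidueField 𝒪)} (F : Frame 𝒪 ρbar)
  {𝒟 : ∀ ⦃A : Type⦄ [CommRing A] [IsLocalRing A] [Algebra 𝒪 A], GaloisRepAdic A → Prop}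

/-- E4 -/
theorem nonempty_univData [IsAdicComplete (maximalIdeal 𝒪) 𝒪] (h𝒟 : IsDeformationCondition 𝒪 𝒟)
    (hbar : 𝒟 (GaloisRepAdic.ofResidualGaloisRep ρbar)) (hfin : TangentFinite 𝒪 ρbar 𝒟) :
    Nonempty (UnivData F 𝒟) :=
  nonempty_univData_core F h𝒟 (exists_tower F h𝒟 hbar hfin)

end Fermat.Agent.S53
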