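/-
S53 team, part [GLUE]: the predicate on `𝒪`-algebra homomorphisms out of the big polynomial ring
which encodes "normalized lift of type `𝒟`", and the verification of its formal properties.
-/
import Mathlib
import Fermat.Agent.S53.Defs

set_option autoImplicit false
set_option linter.unusedSectionVars false
set_option linter.unusedSimpArgs false
set_option linter.unusedVariables false

noncomputable section

namespace Fermat.Agent.S53.Gl

open IsLocalRing GaloisRep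

section Basic

variable {𝒪 : Type} [CommRing 𝒪] [IsLocalRing 𝒪]

/-- Any `𝒪`-algebra homomorphism from a local `𝒪`-algebra to a local `𝒪`-algebra whose residue
field is a quotient of `𝒪` (with local structure map) is local. -/
theorem isLocalHom_of_residue_surjective {A B : Type} [CommRing A] [IsLocalRing A] [Algebra 𝒪 A]
    [CommRing B] [IsLocalRing B] [Algebra 𝒪 B] (hloc : IsLocalHom (algebraMap 𝒪 B))
    (hsurj : Function.Surjective (IsLocalRing.residue B ∘ algebraMap 𝒪 B)) (φ : A →ₐ[𝒪] B) :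
    IsLocalHom (φ : A →+* B) := by
  refine ⟨fun x hx => ?_⟩
  by_contra hxu
  have hxm : x ∈ maximalIdeal A := (mem_maximalIdeal x).mpr hxu
  obtain ⟨a, ha⟩ := hsurj (residue B (φ x))
  have ha' : residue B (algebraMap 𝒪 B a) = residue B (φ x) := ha
  have hdiff : φ x - algebraMap 𝒪 B a ∈ maximalIdeal B := by
    rw [← residue_eq_zero_iff, map_sub, ha', sub_self]
  have hx' : IsUnit (φ x) := hx
  have hau : IsUnit (algebraMap 𝒪 B a) := by
    by_contra hna
    have h1 : algebraMap 𝒪 B a ∈ maximalIdeal B := (mem_maximalIdeal _).mpr hna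
    have h2 : φ x ∈ maximalIdeal B := by
      have := Ideal.add_mem _ hdiff h1
      simpa using this
    exact (mem_maximalIdeal _).mp h2 hx'
  have hau' : IsUnit a := hloc.map_nonunit a hau
  have hu : IsUnit (x - algebraMap 𝒪 A a) := by
    by_contra hnu
    have h1 : x - algebraMap 𝒪 A a ∈ maximalIdeal A := (mem_maximalIdeal _).mpr hnu
    have h2 : algebraMap 𝒪 A a ∈ maximalIdeal A := by
      have := Ideal.sub_mem _ hxm h1
      simpa using this
    exact (mem_maximalIdeal _).mp h2 (hau'.map (algebraMap 𝒪 A))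
  have hu' : IsUnit (φ (x - algebraMap 𝒪 A a)) := hu.map φ
  rw [map_sub, AlgHom.commutes] at hu'
  exact (mem_maximalIdeal _).mp hdiff hu'

theorem isLocalHom_of_test {A B : Type} [CommRing A] [IsLocalRing A] [Algebra 𝒪 A]
    [CommRing B] [IsLocalRing B] [Algebra 𝒪 B] (hB : IsArtinianTestAlgebra 𝒪 B) (φ : A →ₐ[𝒪] B) :
    IsLocalHom (φ : A →+* B) :=
  isLocalHom_of_residue_surjective hB.isLocalHom hB.residue_surjective φ

theorem exists_pow_maximalIdeal_eq_bot {A : Type} [CommRing A] [IsLocalRing A] [Algebra 𝒪 A]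
    (hA : IsArtinianTestAlgebra 𝒪 A) : ∃ n : ℕ, maximalIdeal A ^ n = ⊥ := by
  have := hA.isArtinian
  obtain ⟨n, hn⟩ := (isArtinianRing_iff_isNilpotent_maximalIdeal A).mp hA.isArtinian
  exact ⟨n, hn⟩

end Basic

section MatLemmas

variable {A : Type} [CommRing A] [IsLocalRing A]

/-- A matrix valued homomorphism which is trivial on a finite level subgroup is continuous. -/
theorem matCont_of_finiteLevel (r : GQ →* M2 A)
    (h : ∃ L : IntermediateField ℚ (AlgebraicClosure ℚ), FiniteDimensional ℚ L ∧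
      ∀ σ : GQ, (∀ x ∈ L, σ x = x) → r σ = 1) : MatCont r := by
  obtain ⟨L, hL, h1⟩ := h
  intro n
  refine ⟨L, hL, fun σ hσ i j => ?_⟩
  rw [h1 σ hσ, sub_self]
  exact Ideal.zero_mem _

/-- Over a ring with nilpotent maximal ideal, continuity means finite level. -/
theorem matCont_finiteLevel {r : GQ →* M2 A} (hr : MatCont r) {n : ℕ}
    (hn : maximalIdeal A ^ n = ⊥) :
    ∃ L : IntermediateField ℚ (AlgebraicClosure ℚ), FiniteDimensional ℚ L ∧
      ∀ σ : GQ, (∀ x ∈ L, σ x = x) → r σ = 1 := by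
  obtain ⟨L, hL, h1⟩ := hr n
  refine ⟨L, hL, fun σ hσ => ?_⟩
  have : r σ - 1 = 0 := by
    ext i j
    have := h1 σ hσ i j
    rw [hn] at this
    simpa using this
  exact sub_eq_zero.mp this

theorem matCont_mapMat {B : Type} [CommRing B] [IsLocalRing B] {r : GQ →* M2 A} (hr : MatCont r)
    (φ : A →+* B) (hφ : IsLocalHom φ) : MatCont (mapMat φ r) := by
  intro n
  obtain ⟨L, hL, h1⟩ := hr n
  refine ⟨L, hL, fun σ hσ i j => ?_⟩
  have hmap : (maximalIdeal A ^ n).map φ ≤ maximalIdeal B ^ n := by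
    rw [Ideal.map_pow]
    exact Ideal.pow_right_mono (Ideal.map_le_iff_le_comap.mpr fun a ha =>
      Ideal.mem_comap.mpr (haveI := hφ; map_nonunit φ a ha)) n
  have h2 : (mapMat φ r σ - 1) i j = φ ((r σ - 1) i j) := by
    simp only [mapMat_apply, Matrix.sub_apply, Matrix.map_apply, map_sub, Matrix.one_apply]
    split_ifs <;> simp
  rw [h2]
  exact hmap (Ideal.mem_map_of_mem φ (h1 σ hσ i j))

/-- Descend a matrix valued homomorphism along an injective ring homomorphism. -/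
def descendMat {A C : Type} [CommRing A] [CommRing C] (ι : A →+* C) (hι : Function.Injective ι)
    (f : GQ → M2 A) (s : GQ →* M2 C) (h : ∀ σ, (f σ).map ι = s σ) : GQ →* M2 A where
  toFun := f
  map_one' := by
    apply (Matrix.map_injective hι)
    show (f 1).map ι = (1 : M2 A).map ι
    rw [h, map_one]
    simp
  map_mul' σ τ := by
    apply (Matrix.map_injective hι)
    show (f (σ * τ)).map ι = (f σ * f τ).map ι
    rw [h, map_mul, Matrix.map_mul, h, h]

@[simp] theorem descendMat_apply {A C : Type} [CommRing A] [CommRing C] (ι : A →+* C)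
    (hι : Function.Injective ι) (f : GQ → M2 A) (s : GQ →* M2 C) (h : ∀ σ, (f σ).map ι = s σ)
    (σ : GQ) : descendMat ι hι f s h σ = f σ := rfl

end MatLemmas


section EvLemmas

variable {𝒪 : Type} [CommRing 𝒪] [IsLocalRing 𝒪] {ρbar : ResidualGaloisRep (ResidueField 𝒪)}
variable {A : Type} [CommRing A] [IsLocalRing A] [Algebra 𝒪 A]
variable {B : Type} [CommRing B] [IsLocalRing B] [Algebra 𝒪 B]

theorem ev_apply (c : GQ →₀ 𝒪) (r : GQ →* M2 A) (i j : Fin 2) :
    ev c r i j = c.sum fun g a => a • r g i j := by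
  unfold ev
  rw [Finsupp.sum, Finsupp.sum, Matrix.sum_apply]
  rfl

theorem ev_mapMat (c : GQ →₀ 𝒪) (r : GQ →* M2 A) (φ : A →ₐ[𝒪] B) (i j : Fin 2) :
    ev c (mapMat (φ : A →+* B) r) i j = φ (ev c r i j) := by
  rw [ev_apply, ev_apply, Finsupp.sum, Finsupp.sum, map_sum]
  refine Finset.sum_congr rfl fun g _ => ?_
  rw [map_smul]
  rfl

theorem isLift_mapMat {F : Frame 𝒪 ρbar} {r : GQ →* M2 A} (h : IsLift F r) (φ : A →ₐ[𝒪] B)
    (hφ : IsLocalHom (φ : A →+* B)) : IsLift F (mapMat (φ : A →+* B) r) := by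
  intro σ i j
  have h1 : mapMat (φ : A →+* B) r σ i j - algebraMap 𝒪 B (F.rt σ i j)
      = (φ : A →+* B) (r σ i j - algebraMap 𝒪 A (F.rt σ i j)) := by
    simp
  rw [h1]
  exact map_nonunit (φ : A →+* B) _ (h σ i j)

theorem isLift_of_mapMat {F : Frame 𝒪 ρbar} {r : GQ →* M2 A} (φ : A →ₐ[𝒪] B)
    (h : IsLift F (mapMat (φ : A →+* B) r)) : IsLift F r := by
  intro σ i j
  have h1 : mapMat (φ : A →+* B) r σ i j - algebraMap 𝒪 B (F.rt σ i j)
      = (φ : A →+* B) (r σ i j - algebraMap 𝒪 A (F.rt σ i j)) := by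
    simp
  have h2 := h σ i j
  rw [h1] at h2
  rw [mem_maximalIdeal] at h2 ⊢
  exact fun hu => h2 (hu.map _)

theorem isNormalized_mapMat {F : Frame 𝒪 ρbar} {r : GQ →* M2 A} (h : IsNormalized F r)
    (φ : A →ₐ[𝒪] B) : IsNormalized F (mapMat (φ : A →+* B) r) := by
  obtain ⟨h1, h2, h3⟩ := h
  refine ⟨?_, ?_, ?_⟩
  · rw [ev_mapMat, h1, map_zero]
  · rw [ev_mapMat, h2, map_zero]
  · rw [ev_mapMat, h3, map_one]

end EvLemmas

/-- The interface with the dictionary between `GaloisRepAdic` and matrices which is used in this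
file: base change of `ofMat` is `ofMat` of the push-forward. -/
def DictBaseChange : Prop :=
  ∀ (A B : Type) [CommRing A] [IsLocalRing A] [CommRing B] [IsLocalRing B] (φ : A →+* B)
    (hφ : IsLocalHom φ) (r : GQ →* M2 A) (hr : MatCont r) (hr' : MatCont (mapMat φ r)),
    ((ofMat r hr).baseChangeAlong φ hφ).IsEquiv (ofMat (mapMat φ r) hr')

section FF

variable {𝒪 : Type} [CommRing 𝒪] [IsLocalRing 𝒪] {ρbar : ResidualGaloisRep (ResidueField 𝒪)}

/-- The big polynomial ring on the symbols `X (σ, i, j)`. -/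
abbrev Pol (𝒪 : Type) [CommRing 𝒪] : Type := MvPolynomial (GQ × Fin 2 × Fin 2) 𝒪

/-- The predicate "the images of the `X (σ, i, j)` form a normalized lift of type `𝒟`". -/
def FF (F : Frame 𝒪 ρbar)
    (𝒟 : ∀ ⦃A : Type⦄ [CommRing A] [IsLocalRing A] [Algebra 𝒪 A], GaloisRepAdic A → Prop)
    (A : Type) [CommRing A] [IsLocalRing A] [Algebra 𝒪 A] (u : Pol 𝒪 →ₐ[𝒪] A) : Prop :=
  ∃ r : GQ →* M2 A, (∀ σ i j, r σ i j = u (MvPolynomial.X (σ, i, j))) ∧ IsDLift F 𝒟 r

/-- The classifying homomorphism of a matrix valued map. -/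
def classify {A : Type} [CommRing A] [Algebra 𝒪 A] (r : GQ → M2 A) : Pol 𝒪 →ₐ[𝒪] A :=
  MvPolynomial.aeval fun t : GQ × Fin 2 × Fin 2 => r t.1 t.2.1 t.2.2

@[simp] theorem classify_X {A : Type} [CommRing A] [Algebra 𝒪 A] (r : GQ → M2 A) (σ : GQ)
    (i j : Fin 2) : classify (𝒪 := 𝒪) r (MvPolynomial.X (σ, i, j)) = r σ i j := by
  simp [classify]

theorem FF_classify {F : Frame 𝒪 ρbar}
    {𝒟 : ∀ ⦃A : Type⦄ [CommRing A] [IsLocalRing A] [Algebra 𝒪 A], GaloisRepAdic A → Prop}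
    {A : Type} [CommRing A] [IsLocalRing A] [Algebra 𝒪 A] {r : GQ →* M2 A} (h : IsDLift F 𝒟 r) :
    FF F 𝒟 A (classify r) :=
  ⟨r, fun σ i j => (classify_X _ σ i j).symm, h⟩

theorem eq_classify {A : Type} [CommRing A] [Algebra 𝒪 A] {r : GQ → M2 A} {u : Pol 𝒪 →ₐ[𝒪] A}
    (h : ∀ σ i j, r σ i j = u (MvPolynomial.X (σ, i, j))) : u = classify r := by
  apply MvPolynomial.algHom_ext
  rintro ⟨σ, i, j⟩
  rw [classify_X, h]

variable {F : Frame 𝒪 ρbar}
  {𝒟 : ∀ ⦃A : Type⦄ [CommRing A] [IsLocalRing A] [Algebra 𝒪 A], GaloisRepAdic A → Prop}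

theorem isDLift_mapMat (hD3 : DictBaseChange) (h𝒟 : IsDeformationCondition 𝒪 𝒟)
    {A B : Type} [CommRing A] [IsLocalRing A] [Algebra 𝒪 A] [CommRing B] [IsLocalRing B]
    [Algebra 𝒪 B] (hA : IsArtinianTestAlgebra 𝒪 A) (hB : IsArtinianTestAlgebra 𝒪 B)
    (φ : A →ₐ[𝒪] B) {r : GQ →* M2 A} (h : IsDLift F 𝒟 r) :
    IsDLift F 𝒟 (mapMat (φ : A →+* B) r) := by
  have hφ : IsLocalHom (φ : A →+* B) := isLocalHom_of_test hB φ
  refine ⟨matCont_mapMat h.cont _ hφ, isLift_mapMat h.lift φ hφ, isNormalized_mapMat h.norm φ, ?_⟩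
  exact h𝒟.of_isEquiv hB (hD3 A B _ hφ r h.cont _) (h𝒟.baseChangeAlong hA hB φ hφ h.type)

theorem FF_comp (hD3 : DictBaseChange) (h𝒟 : IsDeformationCondition 𝒪 𝒟)
    (A B : Type) [CommRing A] [IsLocalRing A] [Algebra 𝒪 A] [CommRing B] [IsLocalRing B]
    [Algebra 𝒪 B] (hA : IsArtinianTestAlgebra 𝒪 A) (hB : IsArtinianTestAlgebra 𝒪 B)
    (φ : A →ₐ[𝒪] B) (u : Pol 𝒪 →ₐ[𝒪] A) (h : FF F 𝒟 A u) : FF F 𝒟 B (φ.comp u) := by
  obtain ⟨r, hru, hd⟩ := h
  refine ⟨mapMat (φ : A →+* B) r, fun σ i j => ?_, isDLift_mapMat hD3 h𝒟 hA hB φ hd⟩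
  simp [hru]


theorem ofMat_congr {A : Type} [CommRing A] [IsLocalRing A] {r r' : GQ →* M2 A} (h : r = r')
    (hr : MatCont r) (hr' : MatCont r') : ofMat r hr = ofMat r' hr' := by
  subst h; rfl

theorem FF_inj (hD3 : DictBaseChange) (h𝒟 : IsDeformationCondition 𝒪 𝒟)
    (A B : Type) [CommRing A] [IsLocalRing A] [Algebra 𝒪 A] [CommRing B] [IsLocalRing B]
    [Algebra 𝒪 B] (hA : IsArtinianTestAlgebra 𝒪 A) (hB : IsArtinianTestAlgebra 𝒪 B)
    (φ : A →ₐ[𝒪] B) (hinj : Function.Injective φ) (u : Pol 𝒪 →ₐ[𝒪] A)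
    (h : FF F 𝒟 B (φ.comp u)) : FF F 𝒟 A u := by
  obtain ⟨s, hsu, hd⟩ := h
  have hφ : IsLocalHom (φ : A →+* B) := isLocalHom_of_test hB φ
  have hinj' : Function.Injective (φ : A →+* B) := hinj
  let f : GQ → M2 A := fun σ => Matrix.of fun i j => u (MvPolynomial.X (σ, i, j))
  have hf : ∀ σ, (f σ).map (φ : A →+* B) = s σ := by
    intro σ
    ext i j
    simp [f, hsu]
  let r : GQ →* M2 A := descendMat (φ : A →+* B) hinj' f s hf
  have hrs : mapMat (φ : A →+* B) r = s := by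
    ext σ i j
    simp [r, f, hsu]
  have hcont : MatCont r := by
    obtain ⟨n, hn⟩ := exists_pow_maximalIdeal_eq_bot hB
    obtain ⟨L, hL, h1⟩ := matCont_finiteLevel hd.cont hn
    refine matCont_of_finiteLevel r ⟨L, hL, fun σ hσ => ?_⟩
    apply Matrix.map_injective hinj'
    show (r σ).map (φ : A →+* B) = (1 : M2 A).map (φ : A →+* B)
    rw [show (r σ).map (φ : A →+* B) = s σ from hf σ, h1 σ hσ]
    simp
  refine ⟨r, fun σ i j => rfl, hcont, ?_, ?_, ?_⟩
  · exact isLift_of_mapMat φ (hrs ▸ hd.lift)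
  · obtain ⟨h1, h2, h3⟩ := hd.norm
    rw [← hrs] at h1 h2 h3
    rw [ev_mapMat] at h1 h2 h3
    refine ⟨hinj (by rw [h1, map_zero]), hinj (by rw [h2, map_zero]), hinj (by rw [h3, map_one])⟩
  · have hc' : MatCont (mapMat (φ : A →+* B) r) := matCont_mapMat hcont _ hφ
    have h1 : 𝒟 (ofMat (mapMat (φ : A →+* B) r) hc') := by
      rw [ofMat_congr hrs hc' hd.cont]; exact hd.type
    obtain ⟨e⟩ := hD3 A B _ hφ r hcont hc'
    exact h𝒟.of_baseChangeAlong_injective hA hB φ hφ hinj (h𝒟.of_isEquiv hB ⟨e.symm⟩ h1)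

theorem FF_fib (hD3 : DictBaseChange) (h𝒟 : IsDeformationCondition 𝒪 𝒟)
    (A B C P : Type) [CommRing A] [IsLocalRing A] [Algebra 𝒪 A] [CommRing B] [IsLocalRing B]
    [Algebra 𝒪 B] [CommRing C] [IsLocalRing C] [Algebra 𝒪 C] [CommRing P] [IsLocalRing P]
    [Algebra 𝒪 P]
    (hA : IsArtinianTestAlgebra 𝒪 A) (hB : IsArtinianTestAlgebra 𝒪 B)
    (hC : IsArtinianTestAlgebra 𝒪 C) (hP : IsArtinianTestAlgebra 𝒪 P)
    (f : A →ₐ[𝒪] C) (g : B →ₐ[𝒪] C) (pA : P →ₐ[𝒪] A) (pB : P →ₐ[𝒪] B)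
    (hcomm : f.comp pA = g.comp pB) (hinj : Function.Injective (fun x => (pA x, pB x)))
    (hsurj : ∀ a b, f a = g b → ∃ x, pA x = a ∧ pB x = b)
    (u : Pol 𝒪 →ₐ[𝒪] P) (h1 : FF F 𝒟 A (pA.comp u)) (h2 : FF F 𝒟 B (pB.comp u)) :
    FF F 𝒟 P u := by
  obtain ⟨s, hsu, hs⟩ := h1
  obtain ⟨t, htu, ht⟩ := h2
  have hpA : IsLocalHom (pA : P →+* A) := isLocalHom_of_test hA pA
  have hpB : IsLocalHom (pB : P →+* B) := isLocalHom_of_test hB pB
  let ι : P →+* A × B := (pA : P →+* A).prod (pB : P →+* B)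
  have hι : Function.Injective ι := hinj
  let f₀ : GQ → M2 P := fun σ => Matrix.of fun i j => u (MvPolynomial.X (σ, i, j))
  have hf : ∀ σ, (f₀ σ).map ι = prodMat s t σ := by
    intro σ
    ext i j <;> simp [f₀, ι, hsu, htu]
  let r : GQ →* M2 P := descendMat ι hι f₀ (prodMat s t) hf
  have hrs : mapMat (pA : P →+* A) r = s := by
    ext σ i j
    simp [r, f₀, hsu]
  have hrt : mapMat (pB : P →+* B) r = t := by
    ext σ i j
    simp [r, f₀, htu]
  have hcont : MatCont r := by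
    obtain ⟨n, hn⟩ := exists_pow_maximalIdeal_eq_bot hA
    obtain ⟨L, hL, h1⟩ := matCont_finiteLevel hs.cont hn
    obtain ⟨n', hn'⟩ := exists_pow_maximalIdeal_eq_bot hB
    obtain ⟨L', hL', h1'⟩ := matCont_finiteLevel ht.cont hn'
    refine matCont_of_finiteLevel r ⟨L ⊔ L', IntermediateField.finiteDimensional_sup L L',
      fun σ hσ => ?_⟩
    have e1 : s σ = 1 := h1 σ fun x hx => hσ x ((le_sup_left : L ≤ L ⊔ L') hx)
    have e2 : t σ = 1 := h1' σ fun x hx => hσ x ((le_sup_right : L' ≤ L ⊔ L') hx)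
    apply Matrix.map_injective hι
    show (r σ).map ι = (1 : M2 P).map ι
    rw [show (r σ).map ι = prodMat s t σ from hf σ]
    ext i j <;> simp [e1, e2, Matrix.one_apply] <;> split_ifs <;> simp
  refine ⟨r, fun σ i j => rfl, hcont, ?_, ?_, ?_⟩
  · exact isLift_of_mapMat pA (hrs ▸ hs.lift)
  · obtain ⟨a1, a2, a3⟩ := hs.norm
    obtain ⟨b1, b2, b3⟩ := ht.norm
    rw [← hrs] at a1 a2 a3
    rw [← hrt] at b1 b2 b3
    rw [ev_mapMat] at a1 a2 a3 b1 b2 b3
    refine ⟨hinj ?_, hinj ?_, hinj ?_⟩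
    · simp [a1, b1]
    · simp [a2, b2]
    · simp [a3, b3]
  · have hcA : MatCont (mapMat (pA : P →+* A) r) := matCont_mapMat hcont _ hpA
    have hcB : MatCont (mapMat (pB : P →+* B) r) := matCont_mapMat hcont _ hpB
    have hA1 : 𝒟 (ofMat (mapMat (pA : P →+* A) r) hcA) := by
      rw [ofMat_congr hrs hcA hs.cont]; exact hs.type
    have hB1 : 𝒟 (ofMat (mapMat (pB : P →+* B) r) hcB) := by
      rw [ofMat_congr hrt hcB ht.cont]; exact ht.type
    obtain ⟨eA⟩ := hD3 P A _ hpA r hcont hcA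
    obtain ⟨eB⟩ := hD3 P B _ hpB r hcont hcB
    exact h𝒟.of_fibreProduct hA hB hC hP f g pA pB hpA hpB hcomm hinj hsurj
      (h𝒟.of_isEquiv hA ⟨eA.symm⟩ hA1) (h𝒟.of_isEquiv hB ⟨eB.symm⟩ hB1)

end FF


section Residue

variable {𝒪 : Type} [CommRing 𝒪] [IsLocalRing 𝒪] {ρbar : ResidualGaloisRep (ResidueField 𝒪)}

/-- The matrices of `ρbar` in the basis of the frame. -/
def rbar (F : Frame 𝒪 ρbar) : GQ →* M2 (ResidueField 𝒪) :=
  (LinearMap.toMatrixAlgEquiv F.e).toAlgHom.toRingHom.toMonoidHom.comp ρbar.ρ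

theorem rbar_apply (F : Frame 𝒪 ρbar) (σ : GQ) :
    rbar F σ = LinearMap.toMatrix F.e F.e (ρbar.ρ σ) := rfl

theorem test_residueField : IsArtinianTestAlgebra 𝒪 (ResidueField 𝒪) where
  isLocalHom := inferInstanceAs (IsLocalHom (residue 𝒪))
  residue_surjective :=
    (IsLocalRing.residue_surjective (R := ResidueField 𝒪)).comp
      (IsLocalRing.residue_surjective (R := 𝒪))
  isArtinian := inferInstance

theorem matCont_rbar (F : Frame 𝒪 ρbar) : MatCont (rbar F) := by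
  obtain ⟨L, hL, h1⟩ := ρbar.factorsThroughFiniteLevel
  refine matCont_of_finiteLevel _ ⟨L, hL, fun σ hσ => ?_⟩
  show (LinearMap.toMatrixAlgEquiv F.e) (ρbar.ρ σ) = 1
  rw [h1 σ hσ, map_one]

theorem isLift_rbar (F : Frame 𝒪 ρbar) : IsLift F (rbar F) := by
  intro σ i j
  rw [rbar_apply, ← F.rt_spec σ i j]
  simp [IsLocalRing.ResidueField.algebraMap_eq]

/-- For a lift, the evaluation at an element of the group algebra is congruent to the
evaluation of the set-theoretic lift. -/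
theorem ev_sub_mem {A : Type} [CommRing A] [IsLocalRing A] [Algebra 𝒪 A] {F : Frame 𝒪 ρbar}
    {r : GQ →* M2 A} (h : IsLift F r) (c : GQ →₀ 𝒪) (i j : Fin 2) :
    ev c r i j - algebraMap 𝒪 A ((c.sum fun g a => a • F.rt g) i j) ∈ maximalIdeal A := by
  have h1 : (c.sum fun g a => a • F.rt g) i j = c.sum fun g a => a • F.rt g i j := by
    rw [Finsupp.sum, Finsupp.sum, Matrix.sum_apply]
    rfl
  rw [ev_apply, h1, Finsupp.sum, Finsupp.sum, map_sum, ← Finset.sum_sub_distrib]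
  refine Ideal.sum_mem _ fun g _ => ?_
  have h2 : c g • r g i j - algebraMap 𝒪 A (c g • F.rt g i j)
      = algebraMap 𝒪 A (c g) * (r g i j - algebraMap 𝒪 A (F.rt g i j)) := by
    rw [Algebra.smul_def, smul_eq_mul, map_mul]; ring
  rw [h2]
  exact Ideal.mul_mem_left _ _ (h g i j)

theorem isNormalized_rbar (F : Frame 𝒪 ρbar) : IsNormalized F (rbar F) := by
  have key : ∀ (c : GQ →₀ 𝒪) (i j : Fin 2) (z : 𝒪),
      (c.sum fun g a => a • F.rt g) i j - z ∈ maximalIdeal 𝒪 →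
      ev c (rbar F) i j = residue 𝒪 z := by
    intro c i j z hz
    have h1 := ev_sub_mem (isLift_rbar F) c i j
    have h2 : ev c (rbar F) i j - algebraMap 𝒪 (ResidueField 𝒪) ((c.sum fun g a => a • F.rt g) i j)
        = 0 := by
      have hbot : maximalIdeal (ResidueField 𝒪) = ⊥ :=
        (Ideal.eq_bot_or_top _).resolve_right (Ideal.IsMaximal.ne_top inferInstance)
      rw [hbot] at h1
      exact h1
    rw [sub_eq_zero] at h2
    rw [h2, IsLocalRing.ResidueField.algebraMap_eq, ← sub_eq_zero, ← map_sub,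
      residue_eq_zero_iff]
    exact hz
  refine ⟨?_, ?_, ?_⟩
  · rw [key F.x 0 1 0 (by simpa using F.hx 0 1), map_zero]
  · rw [key F.x 1 0 0 (by simpa using F.hx 1 0), map_zero]
  · rw [key F.y 1 0 1 F.hy, map_one]

/-- `ρbar`, seen as an adic representation over the residue field, is equivalent to the matrix
representation `rbar`. -/
theorem ofResidual_isEquiv_ofMat (F : Frame 𝒪 ρbar) :
    (GaloisRepAdic.ofResidualGaloisRep ρbar).IsEquiv (ofMat (rbar F) (matCont_rbar F)) := by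
  refine ⟨⟨F.e.equivFun, fun σ v => ?_⟩⟩
  show F.e.equivFun (ρbar.ρ σ v) = (rbar F σ).mulVec (F.e.equivFun v)
  rw [rbar_apply]
  exact (LinearMap.toMatrix_mulVec_repr F.e F.e (ρbar.ρ σ) v).symm

variable {𝒟 : ∀ ⦃A : Type⦄ [CommRing A] [IsLocalRing A] [Algebra 𝒪 A], GaloisRepAdic A → Prop}

theorem isDLift_rbar (F : Frame 𝒪 ρbar) (h𝒟 : IsDeformationCondition 𝒪 𝒟)
    (hbar : 𝒟 (GaloisRepAdic.ofResidualGaloisRep ρbar)) : IsDLift F 𝒟 (rbar F) :=
  ⟨matCont_rbar F, isLift_rbar F, isNormalized_rbar F,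
    h𝒟.of_isEquiv test_residueField (ofResidual_isEquiv_ofMat F) hbar⟩

/-- The base point of the functor. -/
def u₀ (F : Frame 𝒪 ρbar) : Pol 𝒪 →ₐ[𝒪] ResidueField 𝒪 := classify (rbar F)

theorem FF_u₀ (F : Frame 𝒪 ρbar) (h𝒟 : IsDeformationCondition 𝒪 𝒟)
    (hbar : 𝒟 (GaloisRepAdic.ofResidualGaloisRep ρbar)) :
    FF F 𝒟 (ResidueField 𝒪) (u₀ F) :=
  FF_classify (isDLift_rbar F h𝒟 hbar)

theorem eq_u₀ (F : Frame 𝒪 ρbar) (u : Pol 𝒪 →ₐ[𝒪] ResidueField 𝒪)
    (h : FF F 𝒟 (ResidueField 𝒪) u) : u = u₀ F := by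
  obtain ⟨r, hru, hd⟩ := h
  apply MvPolynomial.algHom_ext
  rintro ⟨σ, i, j⟩
  rw [u₀, classify_X, ← hru]
  have hbot : maximalIdeal (ResidueField 𝒪) = ⊥ :=
    (Ideal.eq_bot_or_top _).resolve_right (Ideal.IsMaximal.ne_top inferInstance)
  have h1 := hd.lift σ i j
  have h2 := isLift_rbar F σ i j
  rw [hbot, Ideal.mem_bot, sub_eq_zero] at h1 h2
  rw [h1, h2]

end Residue


section EpsFacts

variable {𝒪 : Type} [CommRing 𝒪] [IsLocalRing 𝒪] {ρbar : ResidualGaloisRep (ResidueField 𝒪)}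

/-- The element `ε` of `k[ε]`. -/
def epsElt (𝒪 : Type) [CommRing 𝒪] [IsLocalRing 𝒪] : Eps 𝒪 :=
  (DualNumber.eps : DualNumber (ResidueField 𝒪))

theorem epsElt_ne_zero : epsElt 𝒪 ≠ 0 := by
  intro h
  have h1 : TrivSqZeroExt.snd (DualNumber.eps : DualNumber (ResidueField 𝒪)) = 0 := by
    have : (DualNumber.eps : DualNumber (ResidueField 𝒪)) = 0 := h
    rw [this]; rfl
  simp at h1

theorem epsElt_mul_self : epsElt 𝒪 * epsElt 𝒪 = 0 :=
  DualNumber.eps_mul_eps (R := ResidueField 𝒪)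

theorem algebraMap_eps_eq_zero (c : 𝒪) (hc : c ∈ maximalIdeal 𝒪) :
    algebraMap 𝒪 (Eps 𝒪) c = 0 := by
  show (algebraMap (ResidueField 𝒪) (DualNumber (ResidueField 𝒪)))
    (algebraMap 𝒪 (ResidueField 𝒪) c) = 0
  rw [IsLocalRing.ResidueField.algebraMap_eq, (residue_eq_zero_iff c).mpr hc, map_zero]

theorem isArtinianRing_dualNumber (k : Type) [Field k] : IsArtinianRing (DualNumber k) := by
  have : Module.Finite k (DualNumber k) := by
    let e : (k × k) →ₗ[k] DualNumber k :=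
      { toFun := fun p => TrivSqZeroExt.inl p.1 + TrivSqZeroExt.inr p.2
        map_add' := by intro a b; ext <;> simp
        map_smul' := by intro c a; ext <;> simp }
    refine Module.Finite.of_surjective e fun z => ⟨(z.fst, z.snd), ?_⟩
    ext <;> simp [e]
  exact IsArtinianRing.of_finite k (DualNumber k)

theorem test_eps : IsArtinianTestAlgebra 𝒪 (Eps 𝒪) where
  isLocalHom := by
    refine ⟨fun a ha => ?_⟩
    by_contra hna
    have h0 := algebraMap_eps_eq_zero a ((mem_maximalIdeal a).mpr hna)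
    rw [h0] at ha
    exact not_isUnit_zero ha
  residue_surjective := by
    intro z
    obtain ⟨w, rfl⟩ := IsLocalRing.residue_surjective z
    obtain ⟨a, ha⟩ := IsLocalRing.residue_surjective
      (TrivSqZeroExt.fst (show DualNumber (ResidueField 𝒪) from w))
    refine ⟨a, ?_⟩
    show residue (Eps 𝒪) (algebraMap 𝒪 (Eps 𝒪) a) = residue (Eps 𝒪) w
    rw [← sub_eq_zero, ← map_sub, residue_eq_zero_iff, mem_maximalIdeal, mem_nonunits_iff]
    intro hu
    have hu' : IsUnit (show DualNumber (ResidueField 𝒪) from algebraMap 𝒪 (Eps 𝒪) a - w) := hu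
    rw [TrivSqZeroExt.isUnit_iff_isUnit_fst] at hu'
    have h1 : TrivSqZeroExt.fst (show DualNumber (ResidueField 𝒪) from algebraMap 𝒪 (Eps 𝒪) a - w)
        = 0 := by
      show TrivSqZeroExt.fst ((algebraMap (ResidueField 𝒪) (DualNumber (ResidueField 𝒪)))
        (algebraMap 𝒪 (ResidueField 𝒪) a) - (show DualNumber (ResidueField 𝒪) from w)) = 0
      rw [TrivSqZeroExt.fst_sub, IsLocalRing.ResidueField.algebraMap_eq, ha]
      simp [TrivSqZeroExt.algebraMap_eq_inl]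
    rw [h1] at hu'
    exact not_isUnit_zero hu'
  isArtinian := isArtinianRing_dualNumber (ResidueField 𝒪)


end EpsFacts

/-- Interface: an equivalence between two matrix representations is given by conjugation. -/
def DictConj : Prop :=
  ∀ (A : Type) [CommRing A] [IsLocalRing A] (r r' : GQ →* M2 A) (hr : MatCont r)
    (hr' : MatCont r'), (ofMat r hr).IsEquiv (ofMat r' hr') →
    ∃ P : M2 A, IsUnit P ∧ ∀ σ, P * r σ = r' σ * P

/-- Interface: uniqueness of the normal form. -/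
def NFUnique {𝒪 : Type} [CommRing 𝒪] [IsLocalRing 𝒪] {ρbar : ResidualGaloisRep (ResidueField 𝒪)}
    (F : Frame 𝒪 ρbar) : Prop :=
  ∀ (A : Type) [CommRing A] [IsLocalRing A] [Algebra 𝒪 A] (r r' : GQ →* M2 A),
    IsLocalHom (algebraMap 𝒪 A) →
    IsLift F r → IsLift F r' → IsNormalized F r → IsNormalized F r' →
    ∀ P : M2 A, IsUnit P → (∀ σ, P * r σ = r' σ * P) → r = r'

/-- Interface: the residual representation of a lift is `ρbar`. -/
def DictResidual {𝒪 : Type} [CommRing 𝒪] [IsLocalRing 𝒪]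
    {ρbar : ResidualGaloisRep (ResidueField 𝒪)} (F : Frame 𝒪 ρbar) : Prop :=
  ∀ (A : Type) [CommRing A] [IsLocalRing A] [Algebra 𝒪 A]
    (ψ : ResidueField 𝒪 →+* ResidueField A)
    (_ : ∀ c : 𝒪, ψ (residue 𝒪 c) = residue A (algebraMap 𝒪 A c))
    (r : GQ →* M2 A) (hr : MatCont r), IsLift F r →
    (ofMat r hr).residual.IsEquiv (ρbar.baseChangeAlong ψ)

section Tangent

variable {𝒪 : Type} [CommRing 𝒪] [IsLocalRing 𝒪] {ρbar : ResidualGaloisRep (ResidueField 𝒪)}
  {F : Frame 𝒪 ρbar}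
  {𝒟 : ∀ ⦃A : Type⦄ [CommRing A] [IsLocalRing A] [Algebra 𝒪 A], GaloisRepAdic A → Prop}

/-- Two normalized lifts which are equivalent as representations are equal. -/
theorem eq_of_isEquiv (hD4 : DictConj) (hB2 : NFUnique F) {A : Type} [CommRing A] [IsLocalRing A]
    [Algebra 𝒪 A] (hloc : IsLocalHom (algebraMap 𝒪 A))
    {r r' : GQ →* M2 A} (hr : MatCont r) (hr' : MatCont r') (hl : IsLift F r)
    (hl' : IsLift F r') (hn : IsNormalized F r) (hn' : IsNormalized F r')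
    (e : (ofMat r hr).IsEquiv (ofMat r' hr')) : r = r' := by
  obtain ⟨P, hP, hc⟩ := hD4 A r r' hr hr' e
  exact hB2 A r r' hloc hl hl' hn hn' P hP hc

theorem finite_FF_eps (hD4 : DictConj) (hB2 : NFUnique F) (hD5 : DictResidual F)
    (hfin : TangentFinite 𝒪 ρbar 𝒟) :
    {u : Pol 𝒪 →ₐ[𝒪] Eps 𝒪 | FF F 𝒟 (Eps 𝒪) u}.Finite := by
  have := finite_tan hfin
  let Θ : {u : Pol 𝒪 →ₐ[𝒪] Eps 𝒪 | FF F 𝒟 (Eps 𝒪) u} → Quotient (tanSetoid ρbar 𝒟) := fun u =>
    Quotient.mk _ ⟨ofMat u.2.choose u.2.choose_spec.2.cont, u.2.choose_spec.2.type,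
      hD5 (Eps 𝒪) (epsψ 𝒪) epsψ_spec _ _ u.2.choose_spec.2.lift⟩
  have hΘ : Function.Injective Θ := by
    intro u u' h
    have h1 : (ofMat u.2.choose u.2.choose_spec.2.cont).IsEquiv
        (ofMat u'.2.choose u'.2.choose_spec.2.cont) := Quotient.exact h
    have h2 : u.2.choose = u'.2.choose :=
      eq_of_isEquiv hD4 hB2 test_eps.isLocalHom _ _ u.2.choose_spec.2.lift u'.2.choose_spec.2.lift
        u.2.choose_spec.2.norm u'.2.choose_spec.2.norm h1
    apply Subtype.ext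
    rw [eq_classify u.2.choose_spec.1, eq_classify u'.2.choose_spec.1, h2]
  exact Set.finite_coe_iff.mp (Finite.of_injective Θ hΘ)

end Tangent

end Fermat.Agent.S53.Gl

end
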