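/-
S53 team, part [Z]: from a pro-representing pair `(R, Ψ)` for the predicate `FF` to the
universal deformation ring.
-/
import Mathlib
import Fermat.Agent.S53.Defs
import Fermat.Agent.S53.Glue

set_option autoImplicit false
set_option linter.unusedSectionVars false
set_option linter.unusedSimpArgs false
set_option linter.unusedVariables false

noncomputable section

namespace Fermat.Agent.S53.Gl

open IsLocalRing GaloisRep

section Quot

variable (A : Type) [CommRing A] [IsLocalRing A]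

theorem maximalIdeal_pow_succ_ne_top (n : ℕ) : maximalIdeal A ^ (n + 1) ≠ ⊤ := by
  intro h
  have h1 : maximalIdeal A ^ (n + 1) ≤ maximalIdeal A := Ideal.pow_le_self (Nat.succ_ne_zero n)
  rw [h] at h1
  exact (Ideal.IsMaximal.ne_top inferInstance) (top_le_iff.mp h1)

instance nontrivial_quot_pow (n : ℕ) : Nontrivial (A ⧸ maximalIdeal A ^ (n + 1)) :=
  Ideal.Quotient.nontrivial_iff.mpr (maximalIdeal_pow_succ_ne_top A n)

instance isLocalRing_quot_pow (n : ℕ) : IsLocalRing (A ⧸ maximalIdeal A ^ (n + 1)) :=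
  IsLocalRing.of_surjective' (Ideal.Quotient.mk _) Ideal.Quotient.mk_surjective

instance isLocalHom_mk_pow (n : ℕ) : IsLocalHom (Ideal.Quotient.mk (maximalIdeal A ^ (n + 1))) :=
  IsLocalHom.of_surjective _ Ideal.Quotient.mk_surjective

theorem maximalIdeal_quot_pow (n : ℕ) :
    maximalIdeal (A ⧸ maximalIdeal A ^ (n + 1)) ^ (n + 1) = ⊥ := by
  rw [← IsLocalRing.map_maximalIdeal_of_surjective (Ideal.Quotient.mk (maximalIdeal A ^ (n + 1)))
    Ideal.Quotient.mk_surjective, ← Ideal.map_pow, Ideal.map_quotient_self]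

variable {A}
variable {𝒪 : Type} [CommRing 𝒪] [IsLocalRing 𝒪]

theorem test_quot_pow [IsNoetherianRing A] [Algebra 𝒪 A] (hloc : IsLocalHom (algebraMap 𝒪 A))
    (hsurj : Function.Surjective (IsLocalRing.residue A ∘ algebraMap 𝒪 A)) (n : ℕ) :
    IsArtinianTestAlgebra 𝒪 (A ⧸ maximalIdeal A ^ (n + 1)) where
  isLocalHom := by
    have : algebraMap 𝒪 (A ⧸ maximalIdeal A ^ (n + 1)) =
      (Ideal.Quotient.mk (maximalIdeal A ^ (n + 1))).comp (algebraMap 𝒪 A) := rfl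
    rw [this]
    exact RingHom.isLocalHom_comp _ _
  residue_surjective := by
    intro z
    obtain ⟨w, rfl⟩ := IsLocalRing.residue_surjective z
    obtain ⟨a, rfl⟩ := Ideal.Quotient.mk_surjective w
    obtain ⟨c, hc⟩ := hsurj (residue A a)
    refine ⟨c, ?_⟩
    have hc' : residue A (algebraMap 𝒪 A c) = residue A a := hc
    have h1 : algebraMap 𝒪 A c - a ∈ maximalIdeal A := by
      rw [← residue_eq_zero_iff, map_sub, hc', sub_self]
    show residue _ (Ideal.Quotient.mk (maximalIdeal A ^ (n + 1)) (algebraMap 𝒪 A c)) = _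
    rw [← sub_eq_zero, ← map_sub, ← map_sub, residue_eq_zero_iff]
    exact map_nonunit (Ideal.Quotient.mk (maximalIdeal A ^ (n + 1))) _ h1
  isArtinian :=
    (isArtinianRing_iff_isNilpotent_maximalIdeal _).mpr ⟨n + 1, maximalIdeal_quot_pow A n⟩

theorem eq_of_forall_mk_eq [IsHausdorff (maximalIdeal A) A] {x y : A}
    (h : ∀ n : ℕ, Ideal.Quotient.mk (maximalIdeal A ^ (n + 1)) x =
      Ideal.Quotient.mk (maximalIdeal A ^ (n + 1)) y) : x = y := by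
  rw [← sub_eq_zero]
  apply IsHausdorff.haus (I := maximalIdeal A) inferInstance
  intro n
  rw [SModEq.zero, smul_eq_mul, Ideal.mul_top]
  have h1 : x - y ∈ maximalIdeal A ^ (n + 1) := Ideal.Quotient.eq.mp (h n)
  exact Ideal.pow_le_pow_right (Nat.le_succ n) h1

end Quot


/-- Interface: existence of the normal form over complete Noetherian local `𝒪`-algebras. -/
def NFExists {𝒪 : Type} [CommRing 𝒪] [IsLocalRing 𝒪] {ρbar : ResidualGaloisRep (ResidueField 𝒪)}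
    (F : Frame 𝒪 ρbar) : Prop :=
  ∀ (A : Type) [CommRing A] [IsLocalRing A] [IsNoetherianRing A]
    [IsAdicComplete (maximalIdeal A) A] [Algebra 𝒪 A] [IsLocalHom (algebraMap 𝒪 A)]
    (ρA : GaloisRepAdic A),
    ρA.residual.IsEquiv (ρbar.baseChangeAlong (IsLocalRing.ResidueField.map (algebraMap 𝒪 A))) →
    ∃ (s : GQ →* M2 A) (hs : MatCont s), ρA.IsEquiv (ofMat s hs) ∧ IsLift F s ∧ IsNormalized F s

section Univ

variable {𝒪 : Type} [CommRing 𝒪] [IsLocalRing 𝒪] {ρbar : ResidualGaloisRep (ResidueField 𝒪)}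
  {F : Frame 𝒪 ρbar}
  {𝒟 : ∀ ⦃A : Type⦄ [CommRing A] [IsLocalRing A] [Algebra 𝒪 A], GaloisRepAdic A → Prop}
  {R : Type} [CommRing R] [IsLocalRing R] [IsNoetherianRing R]
  [IsAdicComplete (maximalIdeal R) R] [Algebra 𝒪 R] [IsLocalHom (algebraMap 𝒪 R)]

/-- The universal matrix representation. -/
theorem exists_univ_rep
    (hres : Function.Surjective (IsLocalRing.residue R ∘ algebraMap 𝒪 R))
    (Ψ : Pol 𝒪 →ₐ[𝒪] R)
    (h1 : ∀ (B : Type) [CommRing B] [IsLocalRing B] [Algebra 𝒪 B], IsArtinianTestAlgebra 𝒪 B →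
      ∀ q : R →ₐ[𝒪] B, FF F 𝒟 B (q.comp Ψ)) :
    ∃ r : GQ →* M2 R, (∀ σ i j, r σ i j = Ψ (MvPolynomial.X (σ, i, j))) ∧ MatCont r ∧
      IsLift F r ∧ IsNormalized F r := by
  have htest := fun n => test_quot_pow (𝒪 := 𝒪) (A := R) inferInstance hres n
  let q : ∀ n : ℕ, R →ₐ[𝒪] R ⧸ maximalIdeal R ^ (n + 1) := fun n => Ideal.Quotient.mkₐ 𝒪 _
  have hq : ∀ n, FF F 𝒟 _ ((q n).comp Ψ) := fun n => h1 _ (htest n) (q n)
  choose rn hrn hdn using hq
  let f : GQ → M2 R := fun σ => Matrix.of fun i j => Ψ (MvPolynomial.X (σ, i, j))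
  have hf : ∀ n σ i j, Ideal.Quotient.mk (maximalIdeal R ^ (n + 1)) (f σ i j) = rn n σ i j := by
    intro n σ i j
    rw [hrn]; rfl
  let r : GQ →* M2 R :=
    { toFun := f
      map_one' := by
        ext i j
        apply eq_of_forall_mk_eq
        intro n
        rw [hf, map_one, Matrix.one_apply, Matrix.one_apply]
        split_ifs <;> simp
      map_mul' := by
        intro σ τ
        ext i j
        apply eq_of_forall_mk_eq
        intro n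
        rw [hf, map_mul, Matrix.mul_apply, Matrix.mul_apply, map_sum]
        refine Finset.sum_congr rfl fun k _ => ?_
        rw [map_mul, hf, hf] }
  have hmap : ∀ n, mapMat ((q n : R →ₐ[𝒪] _) : R →+* _) r = rn n := by
    intro n
    ext σ i j
    exact hf n σ i j
  refine ⟨r, fun σ i j => rfl, ?_, ?_, ?_⟩
  · intro n
    rcases n with _ | m
    · exact ⟨⊥, inferInstance, fun σ _ i j => by simp⟩
    · obtain ⟨L, hL, hL1⟩ := matCont_finiteLevel (hdn m).cont (maximalIdeal_quot_pow R m)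
      refine ⟨L, hL, fun σ hσ i j => ?_⟩
      rw [← Ideal.Quotient.eq_zero_iff_mem, Matrix.sub_apply, map_sub]
      have h2 : Ideal.Quotient.mk (maximalIdeal R ^ (m + 1)) (r σ i j) = rn m σ i j := hf m σ i j
      rw [h2, hL1 σ hσ, Matrix.one_apply, Matrix.one_apply]
      split_ifs <;> simp
  · exact isLift_of_mapMat (q 0) ((hmap 0).symm ▸ (hdn 0).lift)
  · have key : ∀ (c : GQ →₀ 𝒪) (i j : Fin 2) (z : R),
        (∀ n, ev c (rn n) i j = Ideal.Quotient.mk _ z) → ev c r i j = z := by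
      intro c i j z hz
      apply eq_of_forall_mk_eq
      intro n
      rw [← hz n, ← hmap n, ev_mapMat]
      rfl
    refine ⟨key _ _ _ _ fun n => ?_, key _ _ _ _ fun n => ?_, key _ _ _ _ fun n => ?_⟩
    · rw [(hdn n).norm.1, map_zero]
    · rw [(hdn n).norm.2.1, map_zero]
    · rw [(hdn n).norm.2.2, map_one]


theorem type_univ (hD3 : DictBaseChange) (h𝒟 : IsDeformationCondition 𝒪 𝒟)
    (hres : Function.Surjective (IsLocalRing.residue R ∘ algebraMap 𝒪 R))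
    (Ψ : Pol 𝒪 →ₐ[𝒪] R)
    (h1 : ∀ (B : Type) [CommRing B] [IsLocalRing B] [Algebra 𝒪 B], IsArtinianTestAlgebra 𝒪 B →
      ∀ q : R →ₐ[𝒪] B, FF F 𝒟 B (q.comp Ψ))
    (r : GQ →* M2 R) (hr : ∀ σ i j, r σ i j = Ψ (MvPolynomial.X (σ, i, j))) (hc : MatCont r) :
    𝒟 (ofMat r hc) := by
  refine (h𝒟.iff_forall_surjective inferInstance hres (ofMat r hc)).mpr ?_
  intro B _ _ _ hB q hq _
  obtain ⟨s, hs, hd⟩ := h1 B hB q
  have hrs : mapMat (q : R →+* B) r = s := by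
    ext σ i j
    simp [hs, hr]
  have hc' : MatCont (mapMat (q : R →+* B) r) := matCont_mapMat hc _ hq
  have h2 : 𝒟 (ofMat (mapMat (q : R →+* B) r) hc') := by
    rw [ofMat_congr hrs hc' hd.cont]; exact hd.type
  obtain ⟨e⟩ := hD3 R B _ hq r hc hc'
  exact h𝒟.of_isEquiv hB ⟨e.symm⟩ h2

theorem universal_aux (hD3 : DictBaseChange) (hD4 : DictConj) (hB2 : NFUnique F)
    (hNF : NFExists F) (h𝒟 : IsDeformationCondition 𝒪 𝒟)
    (Ψ : Pol 𝒪 →ₐ[𝒪] R)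
    (h2 : ∀ (A : Type) [CommRing A] [IsLocalRing A] [Algebra 𝒪 A], IsArtinianTestAlgebra 𝒪 A →
      ∀ u : Pol 𝒪 →ₐ[𝒪] A, FF F 𝒟 A u → ∃ φ : R →ₐ[𝒪] A, φ.comp Ψ = u)
    (h3 : ∀ (A : Type) [CommRing A] [IsLocalRing A] [Algebra 𝒪 A], IsArtinianTestAlgebra 𝒪 A →
      ∀ φ φ' : R →ₐ[𝒪] A, φ.comp Ψ = φ'.comp Ψ → φ = φ')
    (r : GQ →* M2 R) (hr : ∀ σ i j, r σ i j = Ψ (MvPolynomial.X (σ, i, j))) (hc : MatCont r)
    (hl : IsLift F r) (hn : IsNormalized F r)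
    (A : Type) [CommRing A] [IsLocalRing A] [IsNoetherianRing A]
    [IsAdicComplete (maximalIdeal A) A] [Algebra 𝒪 A] [IsLocalHom (algebraMap 𝒪 A)]
    (hsA : Function.Surjective (IsLocalRing.residue A ∘ algebraMap 𝒪 A))
    (ρA : GaloisRepAdic A) (hDA : 𝒟 ρA)
    (hresA : ρA.residual.IsEquiv
      (ρbar.baseChangeAlong (IsLocalRing.ResidueField.map (algebraMap 𝒪 A)))) :
    ∃! φ : R →ₐ[𝒪] A, ∃ hφ : IsLocalHom (φ : R →+* A),
      ((ofMat r hc).baseChangeAlong (φ : R →+* A) hφ).IsEquiv ρA := by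
  obtain ⟨s, hs, ⟨e⟩, hls, hns⟩ := hNF A ρA hresA
  have htest := fun n => test_quot_pow (𝒪 := 𝒪) (A := A) inferInstance hsA n
  -- uniqueness of homomorphisms to the quotients `A ⧸ 𝔪 ^ m`
  have h3' : ∀ (m : ℕ) (φ φ' : R →ₐ[𝒪] A ⧸ maximalIdeal A ^ m),
      φ.comp Ψ = φ'.comp Ψ → φ = φ' := by
    intro m φ φ' h
    rcases m with _ | m
    · have : Subsingleton (A ⧸ maximalIdeal A ^ 0) := by
        rw [pow_zero]; exact Ideal.Quotient.subsingleton_iff.mpr Ideal.one_eq_top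
      ext x
      exact Subsingleton.elim _ _
    · exact h3 _ (htest m) φ φ' h
  -- the reductions of `s`
  let π : ∀ n : ℕ, A →ₐ[𝒪] A ⧸ maximalIdeal A ^ (n + 1) := fun n => Ideal.Quotient.mkₐ 𝒪 _
  have hπ : ∀ n, IsLocalHom (π n).toRingHom := fun n => isLocalHom_mk_pow A n
  have hd : ∀ n, IsDLift F 𝒟 (mapMat (π n).toRingHom s) := by
    intro n
    have hc' := matCont_mapMat hs _ (hπ n)
    refine ⟨hc', isLift_mapMat hls (π n) (hπ n), isNormalized_mapMat hns (π n), ?_⟩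
    have h4 : 𝒟 (ρA.baseChangeAlong (π n).toRingHom (hπ n)) :=
      (h𝒟.iff_forall_surjective inferInstance hsA ρA).mp hDA (htest n) (π n) (hπ n)
        Ideal.Quotient.mk_surjective
    obtain ⟨e'⟩ := hD3 A _ _ (hπ n) s hs hc'
    exact h𝒟.of_isEquiv (htest n) ⟨(e.baseChangeAlong _ (hπ n)).trans e'⟩ h4
  have hex : ∀ n, ∃ φ : R →ₐ[𝒪] A ⧸ maximalIdeal A ^ (n + 1),
      φ.comp Ψ = classify (mapMat (π n).toRingHom s) :=
    fun n => h2 _ (htest n) _ (FF_classify (hd n))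
  choose φn hφn using hex
  let f : ∀ n : ℕ, R →ₐ[𝒪] A ⧸ maximalIdeal A ^ n := fun n =>
    (Ideal.Quotient.factorₐ 𝒪 (Ideal.pow_le_pow_right (Nat.le_succ n))).comp (φn n)
  have hfΨ : ∀ n σ i j, f n (Ψ (MvPolynomial.X (σ, i, j))) =
      Ideal.Quotient.mk (maximalIdeal A ^ n) (s σ i j) := by
    intro n σ i j
    have h5 : φn n (Ψ (MvPolynomial.X (σ, i, j))) =
        Ideal.Quotient.mk (maximalIdeal A ^ (n + 1)) (s σ i j) := by
      have := congrArg (fun g => g (MvPolynomial.X (σ, i, j))) (hφn n)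
      simpa [π] using this
    show (Ideal.Quotient.factorₐ 𝒪 (Ideal.pow_le_pow_right (Nat.le_succ n)))
      (φn n (Ψ (MvPolynomial.X (σ, i, j)))) = _
    rw [h5]
    rfl
  have hf : ∀ {m n : ℕ} (hle : m ≤ n),
      (Ideal.Quotient.factorₐ 𝒪 (Ideal.pow_le_pow_right hle)).comp (f n) = f m := by
    intro m n hle
    apply h3'
    apply MvPolynomial.algHom_ext
    rintro ⟨σ, i, j⟩
    show (Ideal.Quotient.factorₐ 𝒪 (Ideal.pow_le_pow_right hle))
      (f n (Ψ (MvPolynomial.X (σ, i, j)))) = f m (Ψ (MvPolynomial.X (σ, i, j)))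
    rw [hfΨ, hfΨ]
    rfl
  let φ : R →ₐ[𝒪] A := IsAdicComplete.liftAlgHom (maximalIdeal A) f hf
  have hφs : mapMat (φ : R →+* A) r = s := by
    ext σ i j
    apply eq_of_forall_mk_eq
    intro n
    show Ideal.Quotient.mk _ (φ (r σ i j)) = _
    rw [hr, IsAdicComplete.mk_liftAlgHom, hfΨ]
  have hloc : ∀ φ' : R →ₐ[𝒪] A, IsLocalHom (φ' : R →+* A) := fun φ' =>
    isLocalHom_of_residue_surjective inferInstance hsA φ'
  refine ⟨φ, ⟨hloc φ, ?_⟩, ?_⟩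
  · have hc' := matCont_mapMat hc _ (hloc φ)
    obtain ⟨e'⟩ := hD3 R A _ (hloc φ) r hc hc'
    rw [ofMat_congr hφs hc' hs] at e'
    exact ⟨e'.trans e.symm⟩
  · rintro φ' ⟨hφ', ⟨e''⟩⟩
    have hc' := matCont_mapMat hc _ hφ'
    obtain ⟨e'⟩ := hD3 R A _ hφ' r hc hc'
    have h6 : mapMat (φ' : R →+* A) r = s :=
      eq_of_isEquiv hD4 hB2 inferInstance hc' hs (isLift_mapMat hl φ' hφ') hls (isNormalized_mapMat hn φ') hns
        ⟨(e'.symm.trans e'').trans e⟩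
    have h7 : φ'.comp Ψ = φ.comp Ψ := by
      apply MvPolynomial.algHom_ext
      rintro ⟨σ, i, j⟩
      show φ' (Ψ (MvPolynomial.X (σ, i, j))) = φ (Ψ (MvPolynomial.X (σ, i, j)))
      rw [← hr]
      have a1 : φ' (r σ i j) = mapMat (φ' : R →+* A) r σ i j := rfl
      have a2 : φ (r σ i j) = mapMat (φ : R →+* A) r σ i j := rfl
      rw [a1, a2, h6, hφs]
    apply IsAdicComplete.algHom_ext (maximalIdeal A)
    intro n
    apply h3'
    rw [AlgHom.comp_assoc, AlgHom.comp_assoc, h7]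

end Univ


section Final

variable (𝒪 : Type) [CommRing 𝒪] [IsDomain 𝒪] [IsDiscreteValuationRing 𝒪]
  [IsAdicComplete (IsLocalRing.maximalIdeal 𝒪) 𝒪]
  (ρbar : ResidualGaloisRep (IsLocalRing.ResidueField 𝒪))
  (𝒟 : ∀ ⦃A : Type⦄ [CommRing A] [IsLocalRing A] [Algebra 𝒪 A], GaloisRepAdic A → Prop)

/-- From a pro-representing pair to the universal deformation ring. -/
theorem nonempty_deformationRingData (habs : ρbar.IsAbsolutelyIrreducible)
    (h𝒟 : GaloisRep.IsDeformationCondition 𝒪 𝒟) (F : Frame 𝒪 ρbar)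
    (hD3 : DictBaseChange) (hD4 : DictConj) (hB2 : NFUnique F) (hD5 : DictResidual F)
    (hNF : NFExists F)
    (R : Type) [CommRing R] [IsLocalRing R] [IsNoetherianRing R]
    [IsAdicComplete (maximalIdeal R) R] [Algebra 𝒪 R] [IsLocalHom (algebraMap 𝒪 R)]
    (hres : Function.Surjective (IsLocalRing.residue R ∘ algebraMap 𝒪 R))
    (Ψ : Pol 𝒪 →ₐ[𝒪] R)
    (h1 : ∀ (B : Type) [CommRing B] [IsLocalRing B] [Algebra 𝒪 B], IsArtinianTestAlgebra 𝒪 B →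
      ∀ q : R →ₐ[𝒪] B, FF F 𝒟 B (q.comp Ψ))
    (h2 : ∀ (A : Type) [CommRing A] [IsLocalRing A] [Algebra 𝒪 A], IsArtinianTestAlgebra 𝒪 A →
      ∀ u : Pol 𝒪 →ₐ[𝒪] A, FF F 𝒟 A u → ∃ φ : R →ₐ[𝒪] A, φ.comp Ψ = u)
    (h3 : ∀ (A : Type) [CommRing A] [IsLocalRing A] [Algebra 𝒪 A], IsArtinianTestAlgebra 𝒪 A →
      ∀ φ φ' : R →ₐ[𝒪] A, φ.comp Ψ = φ'.comp Ψ → φ = φ') :
    Nonempty (GaloisRep.DeformationRingData 𝒪 ρbar 𝒟) := by
  obtain ⟨r, hr, hc, hl, hn⟩ := exists_univ_rep (F := F) (𝒟 := 𝒟) hres Ψ h1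
  exact ⟨{
    R := R
    residue_surjective := hres
    absIrr := habs
    ρ := ofMat r hc
    isOfType := type_univ hD3 h𝒟 hres Ψ h1 r hr hc
    residual_isEquiv := hD5 R _ (fun c => IsLocalRing.ResidueField.map_residue _ c) r hc hl
    universal := fun A _ _ _ _ _ _ hsA ρA hDA hresA =>
      universal_aux hD3 hD4 hB2 hNF h𝒟 Ψ h2 h3 r hr hc hl hn A hsA ρA hDA hresA }⟩

end Final

/-- The statement of the abstract pro-representability theorem (part X of the plan). -/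
def ProRepStatement : Prop :=
  ∀ (𝒪 : Type) [CommRing 𝒪] [IsLocalRing 𝒪] [IsNoetherianRing 𝒪]
    [IsAdicComplete (maximalIdeal 𝒪) 𝒪] [Finite (ResidueField 𝒪)]
    (Pol : Type) [CommRing Pol] [Algebra 𝒪 Pol]
    (F : ∀ (A : Type) [CommRing A] [IsLocalRing A] [Algebra 𝒪 A], (Pol →ₐ[𝒪] A) → Prop)
    (hcomp : ∀ (A B : Type) [CommRing A] [IsLocalRing A] [Algebra 𝒪 A] [CommRing B]
      [IsLocalRing B] [Algebra 𝒪 B],
      IsArtinianTestAlgebra 𝒪 A → IsArtinianTestAlgebra 𝒪 B →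
      ∀ (φ : A →ₐ[𝒪] B) (u : Pol →ₐ[𝒪] A), F A u → F B (φ.comp u))
    (hinj : ∀ (A B : Type) [CommRing A] [IsLocalRing A] [Algebra 𝒪 A] [CommRing B]
      [IsLocalRing B] [Algebra 𝒪 B],
      IsArtinianTestAlgebra 𝒪 A → IsArtinianTestAlgebra 𝒪 B →
      ∀ (φ : A →ₐ[𝒪] B), Function.Injective φ → ∀ (u : Pol →ₐ[𝒪] A), F B (φ.comp u) → F A u)
    (hfib : ∀ (A B C P : Type) [CommRing A] [IsLocalRing A] [Algebra 𝒪 A] [CommRing B]
      [IsLocalRing B] [Algebra 𝒪 B]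
      [CommRing C] [IsLocalRing C] [Algebra 𝒪 C] [CommRing P] [IsLocalRing P] [Algebra 𝒪 P],
      IsArtinianTestAlgebra 𝒪 A → IsArtinianTestAlgebra 𝒪 B → IsArtinianTestAlgebra 𝒪 C →
      IsArtinianTestAlgebra 𝒪 P →
      ∀ (f : A →ₐ[𝒪] C) (g : B →ₐ[𝒪] C) (pA : P →ₐ[𝒪] A) (pB : P →ₐ[𝒪] B),
      f.comp pA = g.comp pB → Function.Injective (fun x => (pA x, pB x)) →
      (∀ a b, f a = g b → ∃ x, pA x = a ∧ pB x = b) →
      ∀ (u : Pol →ₐ[𝒪] P), F A (pA.comp u) → F B (pB.comp u) → F P u)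
    (u₀ : Pol →ₐ[𝒪] ResidueField 𝒪) (h₀ : F (ResidueField 𝒪) u₀)
    (h₀' : ∀ u : Pol →ₐ[𝒪] ResidueField 𝒪, F (ResidueField 𝒪) u → u = u₀)
    (E : Type) [CommRing E] [IsLocalRing E] [Algebra 𝒪 E] (hE : IsArtinianTestAlgebra 𝒪 E)
    (ε : E) (hε0 : ε ≠ 0) (hε2 : ε * ε = 0) (hεm : ∀ c ∈ maximalIdeal 𝒪, algebraMap 𝒪 E c = 0)
    (hfinE : {u : Pol →ₐ[𝒪] E | F E u}.Finite),
    ∃ (R : Type) (_ : CommRing R) (_ : IsLocalRing R) (_ : IsNoetherianRing R)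
      (_ : IsAdicComplete (maximalIdeal R) R) (_ : Algebra 𝒪 R) (_ : IsLocalHom (algebraMap 𝒪 R)),
      Function.Surjective (IsLocalRing.residue R ∘ algebraMap 𝒪 R) ∧
      ∃ Ψ : Pol →ₐ[𝒪] R,
        (∀ (B : Type) [CommRing B] [IsLocalRing B] [Algebra 𝒪 B], IsArtinianTestAlgebra 𝒪 B →
          ∀ q : R →ₐ[𝒪] B, F B (q.comp Ψ)) ∧
        (∀ (A : Type) [CommRing A] [IsLocalRing A] [Algebra 𝒪 A], IsArtinianTestAlgebra 𝒪 A →
          ∀ u : Pol →ₐ[𝒪] A, F A u → ∃ φ : R →ₐ[𝒪] A, φ.comp Ψ = u) ∧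
        (∀ (A : Type) [CommRing A] [IsLocalRing A] [Algebra 𝒪 A], IsArtinianTestAlgebra 𝒪 A →
          ∀ φ φ' : R →ₐ[𝒪] A, φ.comp Ψ = φ'.comp Ψ → φ = φ')

/-- S53 from the five interface statements, a frame and the pro-representability theorem. -/
theorem main_of_interfaces (hX : ProRepStatement)
    (𝒪 : Type) [CommRing 𝒪] [IsDomain 𝒪] [IsDiscreteValuationRing 𝒪]
    [IsAdicComplete (IsLocalRing.maximalIdeal 𝒪) 𝒪] [Finite (IsLocalRing.ResidueField 𝒪)]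
    (ρbar : ResidualGaloisRep (IsLocalRing.ResidueField 𝒪))
    (𝒟 : ∀ ⦃A : Type⦄ [CommRing A] [IsLocalRing A] [Algebra 𝒪 A], GaloisRepAdic A → Prop)
    (habs : ρbar.IsAbsolutelyIrreducible)
    (h𝒟 : GaloisRep.IsDeformationCondition 𝒪 𝒟)
    (hbar : 𝒟 (GaloisRepAdic.ofResidualGaloisRep ρbar))
    (hfin : GaloisRep.TangentFinite 𝒪 ρbar 𝒟)
    (F : Frame 𝒪 ρbar)
    (hD3 : DictBaseChange) (hD4 : DictConj) (hB2 : NFUnique F) (hD5 : DictResidual F)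
    (hNF : NFExists F) :
    Nonempty (GaloisRep.DeformationRingData 𝒪 ρbar 𝒟) := by
  obtain ⟨R, _, _, _, _, _, _, hres, Ψ, h1, h2, h3⟩ :=
    hX 𝒪 (Pol 𝒪) (FF F 𝒟) (FF_comp hD3 h𝒟) (FF_inj hD3 h𝒟) (FF_fib hD3 h𝒟) (u₀ F)
      (FF_u₀ F h𝒟 hbar) (eq_u₀ F) (Eps 𝒪) test_eps (epsElt 𝒪) epsElt_ne_zero epsElt_mul_self
      algebraMap_eps_eq_zero (finite_FF_eps hD4 hB2 hD5 hfin)
  exact nonempty_deformationRingData 𝒪 ρbar 𝒟 habs h𝒟 F hD3 hD4 hB2 hD5 hNF R hres Ψ h1 h2 h3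

end Fermat.Agent.S53.Gl

end
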