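import Mathlib
import Fermat.Agent.S53.PSComplete

set_option autoImplicit false
set_option linter.style.haveILetI false
set_option linter.unusedSectionVars false

namespace Fermat.Agent.S53.X

variable {𝒪 : Type} [CommRing 𝒪] {B : Type} [CommRing B] [Algebra 𝒪 B] {e : ℕ}

/-- evaluation of power series at a nilpotent family -/
theorem exists_eval_poly (b : Fin e → B) (N : ℕ) (hN : Ideal.span (Set.range b) ^ N = ⊥) :
    ∃ θ : MvPowerSeries (Fin e) 𝒪 →ₐ[𝒪] B,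
      ∀ p : MvPolynomial (Fin e) 𝒪, θ (p : MvPowerSeries (Fin e) 𝒪) = MvPolynomial.aeval b p := by
  have hker : ∀ a ∈ MvPolynomial.idealOfVars (Fin e) 𝒪 ^ N,
      (MvPolynomial.aeval b : MvPolynomial (Fin e) 𝒪 →ₐ[𝒪] B) a = 0 := by
    intro a ha
    have h1 : (MvPolynomial.aeval b : MvPolynomial (Fin e) 𝒪 →ₐ[𝒪] B) a ∈
        Ideal.map (MvPolynomial.aeval b : MvPolynomial (Fin e) 𝒪 →ₐ[𝒪] B)
          (MvPolynomial.idealOfVars (Fin e) 𝒪 ^ N) := Ideal.mem_map_of_mem _ ha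
    rw [Ideal.map_pow, MvPolynomial.idealOfVars, Ideal.map_span, ← Set.range_comp] at h1
    have h2 : ((MvPolynomial.aeval b : MvPolynomial (Fin e) 𝒪 →ₐ[𝒪] B) ∘ MvPolynomial.X) = b := by
      ext i; simp
    rw [h2, hN] at h1
    simpa using h1
  refine ⟨(Ideal.Quotient.liftₐ _ (MvPolynomial.aeval b) hker).comp
    ((MvPowerSeries.truncTotalAlgHom (Fin e) 𝒪 N).restrictScalars 𝒪), fun p => ?_⟩
  have h1 : (MvPowerSeries.truncTotalAlgHom (Fin e) 𝒪 N) (p : MvPowerSeries (Fin e) 𝒪) =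
      Ideal.Quotient.mk _ p :=
    (MvPowerSeries.truncTotalAlgHom (Fin e) 𝒪 N).commutes p
  show (Ideal.Quotient.liftₐ _ (MvPolynomial.aeval b) hker)
    ((MvPowerSeries.truncTotalAlgHom (Fin e) 𝒪 N) (p : MvPowerSeries (Fin e) 𝒪)) = _
  rw [h1]
  rfl

theorem algHom_coe_eq_aeval (θ : MvPowerSeries (Fin e) 𝒪 →ₐ[𝒪] B) (p : MvPolynomial (Fin e) 𝒪) :
    θ (p : MvPowerSeries (Fin e) 𝒪) = MvPolynomial.aeval (fun i => θ (MvPowerSeries.X i)) p := by
  have : θ.comp (MvPolynomial.coeToMvPowerSeries.algHom (σ := Fin e) (R := 𝒪) 𝒪) =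
      MvPolynomial.aeval (fun i => θ (MvPowerSeries.X i)) := by
    apply MvPolynomial.algHom_ext
    intro i
    simp
  exact congrArg (fun f => f p) this

/-- uniqueness of evaluation -/
theorem eval_unique (θ θ' : MvPowerSeries (Fin e) 𝒪 →ₐ[𝒪] B) (N : ℕ)
    (hN : Ideal.span (Set.range fun i => θ (MvPowerSeries.X i)) ^ N = ⊥)
    (h : ∀ i, θ (MvPowerSeries.X i) = θ' (MvPowerSeries.X i)) : θ = θ' := by
  have hfun : (fun i => θ (MvPowerSeries.X i)) = fun i => θ' (MvPowerSeries.X i) := funext h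
  have hkill : ∀ (η : MvPowerSeries (Fin e) 𝒪 →ₐ[𝒪] B),
      Ideal.span (Set.range fun i => η (MvPowerSeries.X i)) ^ N = ⊥ →
      ∀ f ∈ (Ideal.span (Set.range MvPowerSeries.X) : Ideal (MvPowerSeries (Fin e) 𝒪)) ^ N,
        η f = 0 := by
    intro η hη f hf
    have h1 : η f ∈ Ideal.map η
        ((Ideal.span (Set.range MvPowerSeries.X) : Ideal (MvPowerSeries (Fin e) 𝒪)) ^ N) :=
      Ideal.mem_map_of_mem _ hf
    rw [Ideal.map_pow, Ideal.map_span, ← Set.range_comp] at h1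
    have h2 : (η ∘ MvPowerSeries.X) = fun i => η (MvPowerSeries.X i) := rfl
    rw [h2, hη] at h1
    simpa using h1
  ext f
  have hf : f - ((MvPowerSeries.truncTotal N f : MvPolynomial (Fin e) 𝒪) :
      MvPowerSeries (Fin e) 𝒪) ∈
      (Ideal.span (Set.range MvPowerSeries.X) : Ideal (MvPowerSeries (Fin e) 𝒪)) ^ N := by
    rw [ps_mem_span_range_X_pow_iff]
    intro d hd
    rw [map_sub, MvPolynomial.coeff_coe, MvPowerSeries.coeff_truncTotal _ hd, sub_self]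
  have e1 := hkill θ hN _ hf
  have e2 := hkill θ' (hfun ▸ hN) _ hf
  rw [map_sub, sub_eq_zero] at e1 e2
  rw [e1, e2, algHom_coe_eq_aeval, algHom_coe_eq_aeval, hfun]

end Fermat.Agent.S53.X
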