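import Mathlib
import Fermat.Agent.S53.XArt

set_option autoImplicit false
set_option linter.style.haveILetI false
set_option linter.unusedSectionVars false

namespace Fermat.Agent.S53.X

open IsLocalRing GaloisRep

variable {𝒪 : Type} [CommRing 𝒪] [IsLocalRing 𝒪]

/-- If `m_𝒪` and the `b i` generate the maximal ideal of a test algebra `B`, then the `b i`
generate `B` as an `𝒪`-algebra. -/
theorem aeval_surjective_of_span_eq
    {B : Type} [CommRing B] [IsLocalRing B] [Algebra 𝒪 B] (hB : IsArtinianTestAlgebra 𝒪 B)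
    {e : ℕ} (b : Fin e → B)
    (h : Ideal.map (algebraMap 𝒪 B) (maximalIdeal 𝒪) ⊔ Ideal.span (Set.range b) = maximalIdeal B) :
    Function.Surjective (MvPolynomial.aeval b : MvPolynomial (Fin e) 𝒪 →ₐ[𝒪] B) := by
  letI : Algebra (MvPolynomial (Fin e) 𝒪) B := (MvPolynomial.aeval b).toRingHom.toAlgebra
  have halg : ∀ q : MvPolynomial (Fin e) 𝒪, algebraMap (MvPolynomial (Fin e) 𝒪) B q =
      MvPolynomial.aeval b q := fun q => rfl
  set IQ : Ideal (MvPolynomial (Fin e) 𝒪) :=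
    Ideal.map MvPolynomial.C (maximalIdeal 𝒪) ⊔ Ideal.span (Set.range MvPolynomial.X) with hIQ
  have hmap : Ideal.map (algebraMap (MvPolynomial (Fin e) 𝒪) B) IQ = maximalIdeal B := by
    rw [hIQ, Ideal.map_sup, Ideal.map_map, Ideal.map_span, ← Set.range_comp, ← h]
    congr 1
    · congr 1
      ext c
      simp [halg]
    · congr 2
      ext i
      simp [halg]
  set N' : Submodule (MvPolynomial (Fin e) 𝒪) B :=
    LinearMap.range (Algebra.linearMap (MvPolynomial (Fin e) 𝒪) B) with hN'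
  have h0 : (⊤ : Submodule (MvPolynomial (Fin e) 𝒪) B) ≤ N' ⊔ IQ • ⊤ := by
    intro x _
    obtain ⟨c, hc⟩ := exists_sub_mem hB.residue_surjective x
    have e1 : x = algebraMap 𝒪 B c + (x - algebraMap 𝒪 B c) := by ring
    rw [e1]
    refine Submodule.add_mem_sup ⟨MvPolynomial.C c, ?_⟩ ?_
    · simp [halg]
    · rw [Ideal.smul_top_eq_map, hmap]
      exact hc
  have hn : ∀ n : ℕ, (⊤ : Submodule (MvPolynomial (Fin e) 𝒪) B) ≤ N' ⊔ IQ ^ n • ⊤ := by
    intro n
    induction n with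
    | zero => rw [pow_zero, Ideal.one_eq_top, Submodule.top_smul]; exact le_sup_right
    | succ n ih =>
      calc (⊤ : Submodule (MvPolynomial (Fin e) 𝒪) B) ≤ N' ⊔ IQ ^ n • ⊤ := ih
        _ ≤ N' ⊔ IQ ^ n • (N' ⊔ IQ • ⊤) := sup_le_sup_left (Submodule.smul_mono le_rfl h0) _
        _ = N' ⊔ (IQ ^ n • N' ⊔ IQ ^ (n + 1) • ⊤) := by
            rw [Submodule.smul_sup, ← Submodule.mul_smul, pow_succ]
        _ ≤ N' ⊔ IQ ^ (n + 1) • ⊤ :=
            sup_le le_sup_left (sup_le (Submodule.smul_le_right.trans le_sup_left) le_sup_right)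
  obtain ⟨n, hpow⟩ := art_pow_eq_bot hB
  have hfin := hn n
  rw [Ideal.smul_top_eq_map, Ideal.map_pow, hmap, hpow] at hfin
  intro x
  have hx : x ∈ N' ⊔ Submodule.restrictScalars (MvPolynomial (Fin e) 𝒪) (⊥ : Ideal B) :=
    hfin Submodule.mem_top
  rw [Submodule.restrictScalars_bot, sup_bot_eq] at hx
  obtain ⟨q, hq⟩ := hx
  exact ⟨q, hq⟩

end Fermat.Agent.S53.X
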