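import Mathlib
import Fermat.Agent.S53.XArt
import Fermat.Agent.S53.XTangent
import Fermat.Agent.S53.XSurj

set_option autoImplicit false
set_option linter.style.haveILetI false
set_option linter.unusedSectionVars false

namespace Fermat.Agent.S53.X

open IsLocalRing GaloisRep

variable {𝒪 : Type} [CommRing 𝒪] [IsLocalRing 𝒪]
  {Pol : Type} [CommRing Pol] [Algebra 𝒪 Pol]
  (F : ∀ (A : Type) [CommRing A] [IsLocalRing A] [Algebra 𝒪 A], (Pol →ₐ[𝒪] A) → Prop)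

/-- The closure hypotheses on the predicate `F`. -/
structure Hyp (u₀ : Pol →ₐ[𝒪] ResidueField 𝒪) : Prop where
  comp : ∀ (A B : Type) [CommRing A] [IsLocalRing A] [Algebra 𝒪 A]
      [CommRing B] [IsLocalRing B] [Algebra 𝒪 B],
      IsArtinianTestAlgebra 𝒪 A → IsArtinianTestAlgebra 𝒪 B →
      ∀ (φ : A →ₐ[𝒪] B) (u : Pol →ₐ[𝒪] A), F A u → F B (φ.comp u)
  inj : ∀ (A B : Type) [CommRing A] [IsLocalRing A] [Algebra 𝒪 A]
      [CommRing B] [IsLocalRing B] [Algebra 𝒪 B],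
      IsArtinianTestAlgebra 𝒪 A → IsArtinianTestAlgebra 𝒪 B →
      ∀ (φ : A →ₐ[𝒪] B), Function.Injective φ → ∀ (u : Pol →ₐ[𝒪] A), F B (φ.comp u) → F A u
  fib : ∀ (A B C P : Type) [CommRing A] [IsLocalRing A] [Algebra 𝒪 A]
      [CommRing B] [IsLocalRing B] [Algebra 𝒪 B] [CommRing C] [IsLocalRing C] [Algebra 𝒪 C]
      [CommRing P] [IsLocalRing P] [Algebra 𝒪 P],
      IsArtinianTestAlgebra 𝒪 A → IsArtinianTestAlgebra 𝒪 B → IsArtinianTestAlgebra 𝒪 C →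
      IsArtinianTestAlgebra 𝒪 P →
      ∀ (f : A →ₐ[𝒪] C) (g : B →ₐ[𝒪] C) (pA : P →ₐ[𝒪] A) (pB : P →ₐ[𝒪] B),
      f.comp pA = g.comp pB →
      Function.Injective (fun x => (pA x, pB x)) →
      (∀ a b, f a = g b → ∃ x, pA x = a ∧ pB x = b) →
      ∀ (u : Pol →ₐ[𝒪] P), F A (pA.comp u) → F B (pB.comp u) → F P u
  base : F (ResidueField 𝒪) u₀
  base_unique : ∀ u : Pol →ₐ[𝒪] ResidueField 𝒪, F (ResidueField 𝒪) u → u = u₀

/-- Good ideals of `Pol`. -/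
structure Good (I : Ideal Pol) : Prop where
  [isLocal : IsLocalRing (Pol ⧸ I)]
  art : IsArtinianTestAlgebra 𝒪 (Pol ⧸ I)
  hF : F (Pol ⧸ I) (Ideal.Quotient.mkₐ 𝒪 I)

variable {F} {u₀ : Pol →ₐ[𝒪] ResidueField 𝒪}

/-- the augmentation of any `F`-point is `u₀`. -/
theorem Hyp.aug_comp (H : Hyp F u₀) {A : Type} [CommRing A] [IsLocalRing A] [Algebra 𝒪 A]
    (hA : IsArtinianTestAlgebra 𝒪 A) (u : Pol →ₐ[𝒪] A) (hu : F A u) :
    haveI := hA.isLocalHom
    (aug A hA.residue_surjective).comp u = u₀ :=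
  haveI := hA.isLocalHom
  H.base_unique _ (H.comp A (ResidueField 𝒪) hA art_residueField _ u hu)

theorem Hyp.mem_maximalIdeal_iff (H : Hyp F u₀) {A : Type} [CommRing A] [IsLocalRing A]
    [Algebra 𝒪 A] (hA : IsArtinianTestAlgebra 𝒪 A) (u : Pol →ₐ[𝒪] A) (hu : F A u) (x : Pol) :
    u x ∈ maximalIdeal A ↔ u₀ x = 0 := by
  haveI := hA.isLocalHom
  rw [← aug_eq_zero_iff hA.residue_surjective, ← H.aug_comp hA u hu]
  rfl

theorem Good.le_ker (H : Hyp F u₀) {I : Ideal Pol} (h : Good F I) : I ≤ RingHom.ker u₀ := by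
  haveI := h.isLocal
  intro x hx
  rw [RingHom.mem_ker, ← H.mem_maximalIdeal_iff h.art _ h.hF x]
  have : (Ideal.Quotient.mkₐ 𝒪 I) x = 0 := Ideal.Quotient.eq_zero_iff_mem.mpr hx
  rw [this]
  exact Ideal.zero_mem _

theorem Good.mk_mem_maximalIdeal_iff (H : Hyp F u₀) {I : Ideal Pol} (h : Good F I) (x : Pol) :
    haveI := h.isLocal
    Ideal.Quotient.mk I x ∈ maximalIdeal (Pol ⧸ I) ↔ u₀ x = 0 :=
  haveI := h.isLocal
  H.mem_maximalIdeal_iff h.art _ h.hF x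

theorem Good.exists_pow_mem (H : Hyp F u₀) {I : Ideal Pol} (h : Good F I) {x : Pol}
    (hx : u₀ x = 0) : ∃ n : ℕ, x ^ n ∈ I := by
  haveI := h.isLocal
  obtain ⟨n, hn⟩ := art_isNilpotent h.art ((h.mk_mem_maximalIdeal_iff H x).mpr hx)
  refine ⟨n, ?_⟩
  rw [← Ideal.Quotient.eq_zero_iff_mem, map_pow]
  exact hn

/-- constructor for good ideals -/
theorem good_of {I : Ideal Pol} (hI : I ≤ RingHom.ker u₀) (hfin : Finite (Pol ⧸ I))
    (hnil : ∀ x, u₀ x = 0 → ∃ n : ℕ, x ^ n ∈ I)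
    (hF : ∀ [IsLocalRing (Pol ⧸ I)], IsArtinianTestAlgebra 𝒪 (Pol ⧸ I) →
      F (Pol ⧸ I) (Ideal.Quotient.mkₐ 𝒪 I)) : Good F I := by
  let v : Pol ⧸ I →ₐ[𝒪] ResidueField 𝒪 := Ideal.Quotient.liftₐ I u₀ (fun a ha => hI ha)
  have hv : ∀ b, v b = 0 → IsNilpotent b := by
    intro b hb
    obtain ⟨x, rfl⟩ := Ideal.Quotient.mk_surjective b
    have hx : u₀ x = 0 := hb
    obtain ⟨n, hn⟩ := hnil x hx
    exact ⟨n, by rw [← map_pow]; exact Ideal.Quotient.eq_zero_iff_mem.mpr hn⟩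
  haveI := isLocalRing_of_aug v hv
  have hart := art_of_aug v hv
  exact { art := hart, hF := hF hart }

variable [Finite (ResidueField 𝒪)]

/-- G1: kernels of `F`-points are good. -/
theorem good_ker (H : Hyp F u₀) {A : Type} [CommRing A] [IsLocalRing A] [Algebra 𝒪 A]
    (hA : IsArtinianTestAlgebra 𝒪 A) (u : Pol →ₐ[𝒪] A) (hu : F A u) :
    Good F (RingHom.ker u) := by
  haveI := art_finite hA
  have hinj := Ideal.kerLiftAlg_injective u
  refine good_of (u₀ := u₀) ?_ (Finite.of_injective _ hinj) ?_ ?_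
  · intro x hx
    rw [RingHom.mem_ker, ← H.mem_maximalIdeal_iff hA u hu x, (RingHom.mem_ker).mp hx]
    exact Ideal.zero_mem _
  · intro x hx
    obtain ⟨n, hn⟩ := art_isNilpotent hA ((H.mem_maximalIdeal_iff hA u hu x).mpr hx)
    exact ⟨n, by rw [RingHom.mem_ker, map_pow]; exact hn⟩
  · intro _ hart
    refine H.inj _ A hart hA (Ideal.kerLiftAlg u) hinj _ ?_
    have : (Ideal.kerLiftAlg u).comp (Ideal.Quotient.mkₐ 𝒪 (RingHom.ker u)) = u := by
      ext x; rfl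
    rw [this]; exact hu

/-- G2: good ideals are upward closed (inside `ker u₀`). -/
theorem Good.of_le (H : Hyp F u₀) {I I' : Ideal Pol} (h : Good F I) (hle : I ≤ I')
    (hI' : I' ≤ RingHom.ker u₀) : Good F I' := by
  haveI := h.isLocal
  haveI := art_finite h.art
  refine good_of hI' (Finite.of_surjective _ (Ideal.Quotient.factor_surjective hle)) ?_ ?_
  · intro x hx
    obtain ⟨n, hn⟩ := h.exists_pow_mem H hx
    exact ⟨n, hle hn⟩
  · intro _ hart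
    have := H.comp _ _ h.art hart (Ideal.Quotient.factorₐ 𝒪 hle) _ h.hF
    have e : (Ideal.Quotient.factorₐ 𝒪 hle).comp (Ideal.Quotient.mkₐ 𝒪 I) =
        Ideal.Quotient.mkₐ 𝒪 I' := by
      ext x; rfl
    rw [e] at this; exact this

/-- G3: good ideals are closed under `⊓`. -/
theorem Good.inf (H : Hyp F u₀) {I₁ I₂ : Ideal Pol} (h₁ : Good F I₁) (h₂ : Good F I₂) :
    Good F (I₁ ⊓ I₂) := by
  haveI := h₁.isLocal
  haveI := h₂.isLocal
  haveI := art_finite h₁.art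
  haveI := art_finite h₂.art
  have h₃ : Good F (I₁ ⊔ I₂) := h₁.of_le H le_sup_left (sup_le (h₁.le_ker H) (h₂.le_ker H))
  haveI := h₃.isLocal
  have hinj : Function.Injective (fun x : Pol ⧸ (I₁ ⊓ I₂) =>
      ((Ideal.Quotient.factorₐ 𝒪 (inf_le_left : I₁ ⊓ I₂ ≤ I₁)) x,
        (Ideal.Quotient.factorₐ 𝒪 (inf_le_right : I₁ ⊓ I₂ ≤ I₂)) x)) := by
    intro x y hxy
    obtain ⟨x, rfl⟩ := Ideal.Quotient.mk_surjective x
    obtain ⟨y, rfl⟩ := Ideal.Quotient.mk_surjective y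
    simp only [Prod.mk.injEq] at hxy
    have e1 : Ideal.Quotient.mk I₁ x = Ideal.Quotient.mk I₁ y := hxy.1
    have e2 : Ideal.Quotient.mk I₂ x = Ideal.Quotient.mk I₂ y := hxy.2
    rw [Ideal.Quotient.eq] at e1 e2 ⊢
    exact ⟨e1, e2⟩
  refine good_of (inf_le_left.trans (h₁.le_ker H)) (Finite.of_injective _ hinj) ?_ ?_
  · intro x hx
    obtain ⟨n₁, hn₁⟩ := h₁.exists_pow_mem H hx
    obtain ⟨n₂, hn₂⟩ := h₂.exists_pow_mem H hx
    refine ⟨n₁ + n₂, ?_, ?_⟩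
    · rw [pow_add]; exact I₁.mul_mem_right _ hn₁
    · rw [pow_add]; exact I₂.mul_mem_left _ hn₂
  · intro _ hart
    refine H.fib (Pol ⧸ I₁) (Pol ⧸ I₂) (Pol ⧸ (I₁ ⊔ I₂)) _ h₁.art h₂.art h₃.art hart
      (Ideal.Quotient.factorₐ 𝒪 le_sup_left) (Ideal.Quotient.factorₐ 𝒪 le_sup_right)
      (Ideal.Quotient.factorₐ 𝒪 inf_le_left) (Ideal.Quotient.factorₐ 𝒪 inf_le_right)
      ?_ hinj ?_ _ ?_ ?_
    · ext x
      obtain ⟨x, rfl⟩ := Ideal.Quotient.mk_surjective x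
      rfl
    · intro a b hab
      obtain ⟨a, rfl⟩ := Ideal.Quotient.mk_surjective a
      obtain ⟨b, rfl⟩ := Ideal.Quotient.mk_surjective b
      have e : Ideal.Quotient.mk (I₁ ⊔ I₂) a = Ideal.Quotient.mk (I₁ ⊔ I₂) b := hab
      rw [Ideal.Quotient.eq] at e
      obtain ⟨i₁, hi₁, i₂, hi₂, hsum⟩ := Submodule.mem_sup.mp e
      refine ⟨Ideal.Quotient.mk _ (a - i₁), ?_, ?_⟩
      · show Ideal.Quotient.mk I₁ (a - i₁) = Ideal.Quotient.mk I₁ a
        rw [Ideal.Quotient.eq]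
        simpa using I₁.neg_mem hi₁
      · show Ideal.Quotient.mk I₂ (a - i₁) = Ideal.Quotient.mk I₂ b
        rw [Ideal.Quotient.eq]
        have : a - i₁ - b = i₂ := by linear_combination -hsum
        rw [this]; exact hi₂
    · exact h₁.hF
    · exact h₂.hF

/-- The ideal `ker u₀` is good. -/
theorem good_ker_base (H : Hyp F u₀) : Good F (RingHom.ker u₀) :=
  good_ker H art_residueField u₀ H.base

end Fermat.Agent.S53.X
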