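import Mathlib
import Fermat.Agent.S53.XGood

set_option autoImplicit false
set_option linter.style.haveILetI false
set_option linter.unusedSectionVars false

namespace Fermat.Agent.S53.X

open IsLocalRing GaloisRep

variable {𝒪 : Type} [CommRing 𝒪] [IsLocalRing 𝒪] [Finite (ResidueField 𝒪)]
  {Pol : Type} [CommRing Pol] [Algebra 𝒪 Pol]
  {F : ∀ (A : Type) [CommRing A] [IsLocalRing A] [Algebra 𝒪 A], (Pol →ₐ[𝒪] A) → Prop}
  {u₀ : Pol →ₐ[𝒪] ResidueField 𝒪}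

/-- Finitely many elements of `Pol` generate all good quotients. -/
theorem exists_gens (H : Hyp F u₀)
    {E : Type} [CommRing E] [IsLocalRing E] [Algebra 𝒪 E] (hE : IsArtinianTestAlgebra 𝒪 E)
    (ε : E) (hε0 : ε ≠ 0) (hε2 : ε * ε = 0) (hεm : ∀ c ∈ maximalIdeal 𝒪, algebraMap 𝒪 E c = 0)
    (hfinE : {u : Pol →ₐ[𝒪] E | F E u}.Finite) :
    ∃ (e : ℕ) (f : Fin e → Pol), (∀ i, u₀ (f i) = 0) ∧ ∀ I, Good F I →
      Function.Surjective (MvPolynomial.aeval (fun i => Ideal.Quotient.mk I (f i)) :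
        MvPolynomial (Fin e) 𝒪 →ₐ[𝒪] Pol ⧸ I) := by
  haveI : Finite E := art_finite hE
  haveI : Finite {u : Pol →ₐ[𝒪] E | F E u} := hfinE.to_subtype
  let Φ : RingHom.ker u₀ → ({u : Pol →ₐ[𝒪] E | F E u} → E) := fun v u => u.1 v.1
  obtain ⟨e, ⟨eq⟩⟩ := Finite.exists_equiv_fin (Set.range Φ)
  have hpre : ∀ i : Fin e, ∃ v : RingHom.ker u₀, Φ v = (eq.symm i).1 := fun i => (eq.symm i).2
  choose g hg using hpre
  refine ⟨e, fun i => (g i).1, fun i => (g i).2, fun I hI => ?_⟩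
  haveI := hI.isLocal
  haveI := hI.art.isLocalHom
  apply aeval_surjective_of_span_eq hI.art
  set 𝔞 : Ideal (Pol ⧸ I) := Ideal.map (algebraMap 𝒪 (Pol ⧸ I)) (maximalIdeal 𝒪) ⊔
    Ideal.span (Set.range fun i => Ideal.Quotient.mk I (g i).1) with h𝔞
  have hle : 𝔞 ≤ maximalIdeal (Pol ⧸ I) := by
    refine sup_le ?_ ?_
    · rw [Ideal.map_le_iff_le_comap]
      intro c hc
      rw [Ideal.mem_comap, IsLocalRing.mem_maximalIdeal]
      intro hu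
      exact (IsLocalRing.mem_maximalIdeal c).mp hc (isUnit_of_map_unit (algebraMap 𝒪 (Pol ⧸ I)) c hu)
    · rw [Ideal.span_le]
      rintro _ ⟨i, rfl⟩
      exact (hI.mk_mem_maximalIdeal_iff H _).mpr (g i).2
  by_contra hne
  have hlt : 𝔞 < maximalIdeal (Pol ⧸ I) := lt_of_le_of_ne hle hne
  obtain ⟨ψ, hψ𝔞, w, hw, hψw⟩ := exists_algHom_dual hI.art ε hε0 hε2 hεm 𝔞 hlt
    (fun c hc => Ideal.mem_sup_left (Ideal.mem_map_of_mem _ hc))
  obtain ⟨v, rfl⟩ := Ideal.Quotient.mk_surjective w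
  have hv : u₀ v = 0 := (hI.mk_mem_maximalIdeal_iff H v).mp hw
  have hu : F E (ψ.comp (Ideal.Quotient.mkₐ 𝒪 I)) := H.comp _ _ hI.art hE ψ _ hI.hF
  let i : Fin e := eq ⟨Φ ⟨v, hv⟩, Set.mem_range_self _⟩
  have h1 : Φ (g i) = Φ ⟨v, hv⟩ := by
    rw [hg i]
    simp [i]
  have h2 := congrFun h1 ⟨_, hu⟩
  have h3 : ψ (Ideal.Quotient.mk I (g i).1) = ψ (Ideal.Quotient.mk I v) := h2
  apply hψw
  rw [← h3]
  exact hψ𝔞 _ (Ideal.mem_sup_right (Ideal.subset_span ⟨i, rfl⟩))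

end Fermat.Agent.S53.X
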