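import Mathlib

set_option autoImplicit false
set_option linter.style.haveILetI false
set_option linter.unusedSectionVars false

namespace Fermat.Agent.S53.X

open IsLocalRing

variable {P : Type} [CommRing P]

/-- Mittag-Leffler style successive approximation. -/
theorem ml (m : Ideal P) [IsPrecomplete m P] (K : ℕ → Ideal P) (hmK : ∀ n, m ^ n ≤ K n)
    (hK : ∀ n, K n ≤ K (n + 1) ⊔ m ^ n) (a : ℕ → P) (ha : ∀ n, a (n + 1) - a n ∈ K n) (n₀ : ℕ) :
    ∃ p, (∀ n, n₀ ≤ n → p - a n ∈ K n) ∧ p - a n₀ ∈ m ^ n₀ := by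
  have step : ∀ (n : ℕ) (p : P), p - a n ∈ K n →
      ∃ p' : P, p' - a (n + 1) ∈ K (n + 1) ∧ p' - p ∈ m ^ n := by
    intro n p hp
    have h1 : a (n + 1) - p ∈ K (n + 1) ⊔ m ^ n := by
      apply hK n
      have := (K n).sub_mem (ha n) hp
      have e : a (n + 1) - p = a (n + 1) - a n - (p - a n) := by ring
      rw [e]; exact this
    obtain ⟨κ, hκ, μ, hμ, hsum⟩ := Submodule.mem_sup.mp h1
    refine ⟨p + μ, ?_, by simpa using hμ⟩
    have e : p + μ - a (n + 1) = -κ := by linear_combination hsum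
    rw [e]; exact (K (n + 1)).neg_mem hκ
  choose! nxt hnxt1 hnxt2 using step
  let s : ℕ → P := fun j => Nat.rec (a n₀) (fun j p => nxt (n₀ + j) p) j
  have hs0 : s 0 = a n₀ := rfl
  have hss : ∀ j, s (j + 1) = nxt (n₀ + j) (s j) := fun j => rfl
  have hsK : ∀ j, s j - a (n₀ + j) ∈ K (n₀ + j) := by
    intro j
    induction j with
    | zero => simp [hs0]
    | succ j ih => rw [hss]; exact hnxt1 (n₀ + j) (s j) ih
  have hsm : ∀ j, s (j + 1) - s j ∈ m ^ (n₀ + j) := by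
    intro j
    rw [hss]; exact hnxt2 (n₀ + j) (s j) (hsK j)
  have htel : ∀ j i, s (j + i) - s j ∈ m ^ (n₀ + j) := by
    intro j i
    induction i with
    | zero => simp
    | succ i ih =>
      have e : s (j + (i + 1)) - s j = (s (j + i + 1) - s (j + i)) + (s (j + i) - s j) := by
        rw [← add_assoc]; ring
      rw [e]
      refine (m ^ (n₀ + j)).add_mem ?_ ih
      exact Ideal.pow_le_pow_right (by omega) (hsm (j + i))
  have hcauchy : ∀ {i j : ℕ}, i ≤ j → s i ≡ s j [SMOD (m ^ i • ⊤ : Submodule P P)] := by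
    intro i j hij
    obtain ⟨d, rfl⟩ := Nat.exists_eq_add_of_le hij
    rw [SModEq.sub_mem, smul_eq_mul, Ideal.mul_top]
    have := htel i d
    have h2 : s i - s (i + d) = -(s (i + d) - s i) := by ring
    rw [h2]
    exact (m ^ i).neg_mem (Ideal.pow_le_pow_right (by omega) this)
  obtain ⟨L, hL⟩ := IsPrecomplete.prec ‹IsPrecomplete m P› hcauchy
  have hL' : ∀ j, L - s j ∈ m ^ (n₀ + j) := by
    intro j
    have h1 := hL (j + n₀)
    rw [SModEq.sub_mem, smul_eq_mul, Ideal.mul_top] at h1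
    have h2 := htel j n₀
    have e : L - s j = -(s (j + n₀) - L) + (s (j + n₀) - s j) := by ring
    rw [e]
    refine (m ^ (n₀ + j)).add_mem ((m ^ (n₀ + j)).neg_mem ?_) h2
    rw [add_comm n₀ j]; exact h1
  refine ⟨L, fun n hn => ?_, ?_⟩
  · obtain ⟨j, rfl⟩ := Nat.exists_eq_add_of_le hn
    have e : L - a (n₀ + j) = (L - s j) + (s j - a (n₀ + j)) := by ring
    rw [e]
    exact (K (n₀ + j)).add_mem (hmK _ (hL' j)) (hsK j)
  · have := hL' 0
    simpa [hs0] using this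

variable [IsLocalRing P] [IsNoetherianRing P] [IsAdicComplete (maximalIdeal P) P]
  [Finite (ResidueField P)]

theorem exists_min_of_directed (𝒥 : Set (Ideal P)) (hne : 𝒥.Nonempty)
    (hdir : ∀ K₁ ∈ 𝒥, ∀ K₂ ∈ 𝒥, ∃ K₃ ∈ 𝒥, K₃ ≤ K₁ ⊓ K₂)
    (hsup : ∀ K ∈ 𝒥, ∀ n, K ⊔ maximalIdeal P ^ n ∈ 𝒥) (n : ℕ) :
    ∃ K₀ ∈ 𝒥, maximalIdeal P ^ n ≤ K₀ ∧ ∀ K ∈ 𝒥, maximalIdeal P ^ n ≤ K → K₀ ≤ K := by
  set m := maximalIdeal P with hm
  haveI : Finite (P ⧸ m) := inferInstanceAs (Finite (ResidueField P))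
  haveI hfin : Finite (P ⧸ m ^ n) := Ideal.finite_quotient_pow (IsNoetherian.noetherian _) n
  have hfinK : ∀ K : Ideal P, m ^ n ≤ K → Finite (P ⧸ K) := fun K hK =>
    Finite.of_surjective _ (Ideal.Quotient.factor_surjective hK)
  let g : Ideal P → ℕ := fun K => Nat.card (P ⧸ K)
  let s : Set ℕ := g '' {K | K ∈ 𝒥 ∧ m ^ n ≤ K}
  have hsne : s.Nonempty := by
    obtain ⟨K, hK⟩ := hne
    exact ⟨_, K ⊔ m ^ n, ⟨hsup K hK n, le_sup_right⟩, rfl⟩
  have hsb : BddAbove s := by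
    refine ⟨Nat.card (P ⧸ m ^ n), ?_⟩
    rintro _ ⟨K, ⟨-, hK⟩, rfl⟩
    exact Nat.card_le_card_of_surjective _ (Ideal.Quotient.factor_surjective hK)
  obtain ⟨K₀, ⟨hK₀, hK₀n⟩, hK₀s⟩ := Nat.sSup_mem hsne hsb
  refine ⟨K₀, hK₀, hK₀n, fun K hK hKn => ?_⟩
  obtain ⟨K₃, hK₃, hK₃le⟩ := hdir K₀ hK₀ K hK
  have hK' : K₃ ⊔ m ^ n ∈ 𝒥 := hsup K₃ hK₃ n
  have hK'le : K₃ ⊔ m ^ n ≤ K₀ ⊓ K := sup_le hK₃le (le_inf hK₀n hKn)
  have hcard : g (K₃ ⊔ m ^ n) ≤ g K₀ := by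
    rw [hK₀s]
    exact le_csSup hsb ⟨_, ⟨hK', le_sup_right⟩, rfl⟩
  haveI := hfinK (K₃ ⊔ m ^ n) le_sup_right
  have hbij := Function.Surjective.bijective_of_nat_card_le
    (Ideal.Quotient.factor_surjective (hK'le.trans inf_le_left)) hcard
  have hle : K₀ ≤ K₃ ⊔ m ^ n := by
    intro x hx
    rw [← Ideal.Quotient.eq_zero_iff_mem]
    apply hbij.1
    rw [Ideal.Quotient.factor_mk, map_zero, Ideal.Quotient.eq_zero_iff_mem]
    exact hx
  exact hle.trans (hK'le.trans inf_le_right)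

/-- The tower theorem: a directed family of open ideals, stable under `· ⊔ m ^ n`. -/
theorem tower (𝒥 : Set (Ideal P)) (hne : 𝒥.Nonempty)
    (hdir : ∀ K₁ ∈ 𝒥, ∀ K₂ ∈ 𝒥, ∃ K₃ ∈ 𝒥, K₃ ≤ K₁ ⊓ K₂)
    (hopen : ∀ K ∈ 𝒥, ∃ n, maximalIdeal P ^ n ≤ K)
    (hsup : ∀ K ∈ 𝒥, ∀ n, K ⊔ maximalIdeal P ^ n ∈ 𝒥) :
    (∀ n, sInf 𝒥 ⊔ maximalIdeal P ^ n ∈ 𝒥) ∧
    (∀ c : Ideal P → P, (∀ K ∈ 𝒥, ∀ K' ∈ 𝒥, K ≤ K' → c K - c K' ∈ K') →
       ∃ p, ∀ K ∈ 𝒥, p - c K ∈ K) := by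
  set m := maximalIdeal P with hm
  choose K hK1 hK2 hK3 using exists_min_of_directed 𝒥 hne hdir hsup
  have hKstep : ∀ n, K n ≤ K (n + 1) ⊔ m ^ n := fun n =>
    hK3 n _ (hsup _ (hK1 (n + 1)) n) le_sup_right
  have hKsucc : ∀ n, K (n + 1) ≤ K n := fun n =>
    hK3 (n + 1) _ (hK1 n) ((Ideal.pow_le_pow_right (Nat.le_succ n)).trans (hK2 n))
  have hKanti : Antitone K := antitone_nat_of_succ_le hKsucc
  have hcof : ∀ K' ∈ 𝒥, ∃ n, K n ≤ K' := fun K' hK' => by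
    obtain ⟨n, hn⟩ := hopen K' hK'
    exact ⟨n, hK3 n K' hK' hn⟩
  constructor
  · intro n
    have : sInf 𝒥 ⊔ m ^ n = K n := by
      apply le_antisymm (sup_le (sInf_le (hK1 n)) (hK2 n))
      intro x hx
      let a : ℕ → P := fun j => if j ≤ n then x else 0
      have ha : ∀ j, a (j + 1) - a j ∈ K j := by
        intro j
        simp only [a]
        by_cases h1 : j + 1 ≤ n
        · have h2 : j ≤ n := by omega
          simp [h1, h2]
        · by_cases h2 : j ≤ n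
          · have h3 : j = n := by omega
            subst h3
            simp [hx]
          · simp [h1, h2]
      obtain ⟨p, hp1, hp2⟩ := ml m K hK2 hKstep a ha n
      have hpJ : p ∈ sInf 𝒥 := by
        rw [Submodule.mem_sInf]
        intro K' hK'
        obtain ⟨i, hi⟩ := hcof K' hK'
        have h1 := hp1 (max i (n + 1)) (by omega)
        have h2 : a (max i (n + 1)) = 0 := by
          simp only [a]
          rw [if_neg (by omega)]
        rw [h2, sub_zero] at h1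
        exact hi (hKanti (le_max_left _ _) h1)
      have hax : a n = x := by simp [a]
      rw [hax] at hp2
      have e : x = p + -(p - x) := by ring
      rw [e]
      exact Submodule.add_mem_sup hpJ ((m ^ n).neg_mem hp2)
    rw [this]; exact hK1 n
  · intro c hc
    obtain ⟨p, hp1, -⟩ := ml m K hK2 hKstep (fun j => c (K j))
      (fun j => hc _ (hK1 (j + 1)) _ (hK1 j) (hKsucc j)) 0
    refine ⟨p, fun K' hK' => ?_⟩
    obtain ⟨i, hi⟩ := hcof K' hK'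
    have e : p - c K' = (p - c (K i)) + (c (K i) - c K') := by ring
    rw [e]
    exact K'.add_mem (hi (hp1 i (Nat.zero_le _))) (hc _ (hK1 i) _ hK' hi)

end Fermat.Agent.S53.X
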