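import Mathlib
import Fermat.Agent.S53.XGens
import Fermat.Agent.S53.XEval
import Fermat.Agent.S53.XTower

set_option autoImplicit false
set_option linter.style.haveILetI false
set_option linter.unusedSectionVars false

namespace Fermat.Agent.S53.X

open IsLocalRing GaloisRep

variable {𝒪 : Type} [CommRing 𝒪] [IsLocalRing 𝒪] [Finite (ResidueField 𝒪)]
  {Pol : Type} [CommRing Pol] [Algebra 𝒪 Pol]
  {F : ∀ (A : Type) [CommRing A] [IsLocalRing A] [Algebra 𝒪 A], (Pol →ₐ[𝒪] A) → Prop}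
  {u₀ : Pol →ₐ[𝒪] ResidueField 𝒪}
  {e : ℕ} (f : Fin e → Pol)

theorem span_pow_eq_bot_of_mem {B : Type} [CommRing B] [IsLocalRing B] [Algebra 𝒪 B]
    (hB : IsArtinianTestAlgebra 𝒪 B) (b : Fin e → B) (hb : ∀ i, b i ∈ maximalIdeal B) :
    ∃ N : ℕ, Ideal.span (Set.range b) ^ N = ⊥ := by
  obtain ⟨N, hN⟩ := art_pow_eq_bot hB
  refine ⟨N, ?_⟩
  rw [eq_bot_iff, ← hN]
  apply Ideal.pow_right_mono
  rw [Ideal.span_le]
  rintro _ ⟨i, rfl⟩
  exact hb i

theorem exists_theta (H : Hyp F u₀) (hf0 : ∀ i, u₀ (f i) = 0) {I : Ideal Pol} (hI : Good F I) :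
    ∃ θ : MvPowerSeries (Fin e) 𝒪 →ₐ[𝒪] Pol ⧸ I, ∀ p : MvPolynomial (Fin e) 𝒪,
      θ (p : MvPowerSeries (Fin e) 𝒪) =
        MvPolynomial.aeval (fun i => Ideal.Quotient.mk I (f i)) p := by
  haveI := hI.isLocal
  obtain ⟨N, hN⟩ := span_pow_eq_bot_of_mem hI.art (fun i => Ideal.Quotient.mk I (f i))
    (fun i => (hI.mk_mem_maximalIdeal_iff H _).mpr (hf0 i))
  exact exists_eval_poly _ N hN

/-- the canonical map from the power series ring to a good quotient -/
noncomputable def theta (H : Hyp F u₀) (hf0 : ∀ i, u₀ (f i) = 0) {I : Ideal Pol}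
    (hI : Good F I) : MvPowerSeries (Fin e) 𝒪 →ₐ[𝒪] Pol ⧸ I :=
  Classical.choose (exists_theta f H hf0 hI)

variable (H : Hyp F u₀) (hf0 : ∀ i, u₀ (f i) = 0)

theorem theta_coe {I : Ideal Pol} (hI : Good F I) (p : MvPolynomial (Fin e) 𝒪) :
    theta f H hf0 hI (p : MvPowerSeries (Fin e) 𝒪) =
      MvPolynomial.aeval (fun i => Ideal.Quotient.mk I (f i)) p :=
  Classical.choose_spec (exists_theta f H hf0 hI) p

theorem theta_X {I : Ideal Pol} (hI : Good F I) (i : Fin e) :
    theta f H hf0 hI (MvPowerSeries.X i) = Ideal.Quotient.mk I (f i) := by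
  rw [← MvPolynomial.coe_X, theta_coe, MvPolynomial.aeval_X]

theorem theta_nil {I : Ideal Pol} (hI : Good F I) :
    ∃ N : ℕ, Ideal.span (Set.range fun i => theta f H hf0 hI (MvPowerSeries.X i)) ^ N = ⊥ := by
  haveI := hI.isLocal
  apply span_pow_eq_bot_of_mem hI.art
  intro i
  rw [theta_X]
  exact (hI.mk_mem_maximalIdeal_iff H _).mpr (hf0 i)

theorem theta_compat {I I' : Ideal Pol} (hI : Good F I) (hI' : Good F I') (hle : I ≤ I') :
    (Ideal.Quotient.factorₐ 𝒪 hle).comp (theta f H hf0 hI) = theta f H hf0 hI' := by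
  obtain ⟨N, hN⟩ := theta_nil f H hf0 hI'
  symm
  apply eval_unique _ _ N hN
  intro i
  rw [AlgHom.comp_apply, theta_X, theta_X]
  rfl

theorem theta_compat_apply {I I' : Ideal Pol} (hI : Good F I) (hI' : Good F I') (hle : I ≤ I')
    (x : MvPowerSeries (Fin e) 𝒪) :
    Ideal.Quotient.factor hle (theta f H hf0 hI x) = theta f H hf0 hI' x :=
  congrArg (fun g => g x) (theta_compat f H hf0 hI hI' hle)

theorem theta_isLocalHom {I : Ideal Pol} (hI : Good F I) :
    haveI := hI.isLocal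
    IsLocalHom (theta f H hf0 hI : MvPowerSeries (Fin e) 𝒪 →+* Pol ⧸ I) :=
  haveI := hI.isLocal
  isLocalHom_of_residue_surjective hI.art.residue_surjective _

variable (hsurj : ∀ I, Good F I →
      Function.Surjective (MvPolynomial.aeval (fun i => Ideal.Quotient.mk I (f i)) :
        MvPolynomial (Fin e) 𝒪 →ₐ[𝒪] Pol ⧸ I))

include hsurj in
theorem theta_surjective {I : Ideal Pol} (hI : Good F I) :
    Function.Surjective (theta f H hf0 hI) := by
  intro y
  obtain ⟨p, hp⟩ := hsurj I hI y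
  exact ⟨p, by rw [theta_coe, hp]⟩

theorem theta_mem_maximalIdeal_iff {I : Ideal Pol} (hI : Good F I)
    (x : MvPowerSeries (Fin e) 𝒪) :
    haveI := hI.isLocal
    theta f H hf0 hI x ∈ maximalIdeal (Pol ⧸ I) ↔ x ∈ maximalIdeal (MvPowerSeries (Fin e) 𝒪) := by
  haveI := hI.isLocal
  haveI := theta_isLocalHom f H hf0 hI
  constructor
  · intro h
    rw [IsLocalRing.mem_maximalIdeal] at h ⊢
    intro hu
    exact h (hu.map (theta f H hf0 hI))
  · intro h
    exact _root_.map_nonunit (theta f H hf0 hI : MvPowerSeries (Fin e) 𝒪 →+* Pol ⧸ I) x h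

include hsurj in
theorem map_theta_maximalIdeal {I : Ideal Pol} (hI : Good F I) :
    haveI := hI.isLocal
    Ideal.map (theta f H hf0 hI) (maximalIdeal (MvPowerSeries (Fin e) 𝒪)) =
      maximalIdeal (Pol ⧸ I) := by
  haveI := hI.isLocal
  apply le_antisymm
  · rw [Ideal.map_le_iff_le_comap]
    intro x hx
    exact (theta_mem_maximalIdeal_iff f H hf0 hI x).mpr hx
  · intro y hy
    obtain ⟨x, rfl⟩ := theta_surjective f H hf0 hsurj hI y
    exact Ideal.mem_map_of_mem _ ((theta_mem_maximalIdeal_iff f H hf0 hI x).mp hy)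

include H in
theorem map_mk_ker {I : Ideal Pol} (hI : Good F I) :
    haveI := hI.isLocal
    Ideal.map (Ideal.Quotient.mk I) (RingHom.ker u₀) = maximalIdeal (Pol ⧸ I) := by
  haveI := hI.isLocal
  apply le_antisymm
  · rw [Ideal.map_le_iff_le_comap]
    intro x hx
    exact (hI.mk_mem_maximalIdeal_iff H x).mpr hx
  · intro y hy
    obtain ⟨x, rfl⟩ := Ideal.Quotient.mk_surjective y
    exact Ideal.mem_map_of_mem _ ((hI.mk_mem_maximalIdeal_iff H x).mp hy)

theorem pow_le_ker_theta {I : Ideal Pol} (hI : Good F I) :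
    ∃ N : ℕ, maximalIdeal (MvPowerSeries (Fin e) 𝒪) ^ N ≤ RingHom.ker (theta f H hf0 hI) := by
  haveI := hI.isLocal
  obtain ⟨N, hN⟩ := art_pow_eq_bot hI.art
  refine ⟨N, fun x hx => ?_⟩
  have h1 : theta f H hf0 hI x ∈ Ideal.map (theta f H hf0 hI)
      (maximalIdeal (MvPowerSeries (Fin e) 𝒪) ^ N) := Ideal.mem_map_of_mem _ hx
  rw [Ideal.map_pow] at h1
  have h2 : Ideal.map (theta f H hf0 hI) (maximalIdeal (MvPowerSeries (Fin e) 𝒪)) ≤
      maximalIdeal (Pol ⧸ I) := by
    rw [Ideal.map_le_iff_le_comap]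
    intro x hx
    exact (theta_mem_maximalIdeal_iff f H hf0 hI x).mpr hx
  have h3 := Ideal.pow_right_mono h2 N h1
  rw [hN] at h3
  simpa using h3

include hsurj in
theorem ker_theta_sup {I : Ideal Pol} (hI : Good F I) (n : ℕ)
    (hI' : Good F (I ⊔ RingHom.ker u₀ ^ n)) :
    RingHom.ker (theta f H hf0 hI') =
      RingHom.ker (theta f H hf0 hI) ⊔ maximalIdeal (MvPowerSeries (Fin e) 𝒪) ^ n := by
  haveI := hI.isLocal
  have hs := theta_surjective f H hf0 hsurj hI
  apply le_antisymm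
  · intro x hx
    rw [RingHom.mem_ker, ← theta_compat_apply f H hf0 hI hI' le_sup_left] at hx
    obtain ⟨v, hv⟩ := Ideal.Quotient.mk_surjective (theta f H hf0 hI x)
    rw [← hv, Ideal.Quotient.factor_mk, Ideal.Quotient.eq_zero_iff_mem] at hx
    obtain ⟨i, hi, t, ht, hit⟩ := Submodule.mem_sup.mp hx
    have h1 : Ideal.Quotient.mk I t ∈ Ideal.map (theta f H hf0 hI)
        (maximalIdeal (MvPowerSeries (Fin e) 𝒪) ^ n) := by
      rw [Ideal.map_pow, map_theta_maximalIdeal f H hf0 hsurj hI, ← map_mk_ker H hI,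
        ← Ideal.map_pow]
      exact Ideal.mem_map_of_mem _ ht
    obtain ⟨y, hy, hyt⟩ := (Ideal.mem_map_iff_of_surjective _ hs).mp h1
    have h2 : theta f H hf0 hI (x - y) = 0 := by
      rw [map_sub, hyt, ← hv, ← hit, map_add, Ideal.Quotient.eq_zero_iff_mem.mpr hi]
      ring
    have e1 : x = (x - y) + y := by ring
    rw [e1]
    exact Submodule.add_mem_sup h2 hy
  · refine sup_le ?_ ?_
    · intro x hx
      rw [RingHom.mem_ker, ← theta_compat_apply f H hf0 hI hI' le_sup_left,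
        (RingHom.mem_ker).mp hx, map_zero]
    · intro x hx
      rw [RingHom.mem_ker, ← theta_compat_apply f H hf0 hI hI' le_sup_left]
      have h1 : theta f H hf0 hI x ∈ Ideal.map (theta f H hf0 hI)
        (maximalIdeal (MvPowerSeries (Fin e) 𝒪) ^ n) := Ideal.mem_map_of_mem _ hx
      rw [Ideal.map_pow, map_theta_maximalIdeal f H hf0 hsurj hI, ← map_mk_ker H hI,
        ← Ideal.map_pow] at h1
      obtain ⟨t, ht, htx⟩ := (Ideal.mem_map_iff_of_surjective _ Ideal.Quotient.mk_surjective).mp h1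
      rw [← htx, Ideal.Quotient.factor_mk, Ideal.Quotient.eq_zero_iff_mem]
      exact Ideal.mem_sup_right ht

end Fermat.Agent.S53.X
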