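import Mathlib
import Fermat.Agent.S53.XTheta

set_option autoImplicit false
set_option linter.style.haveILetI false
set_option linter.unusedSectionVars false

namespace Fermat.Agent.S53.X

open IsLocalRing GaloisRep

variable {𝒪 : Type} [CommRing 𝒪] [IsLocalRing 𝒪] [Finite (ResidueField 𝒪)]
  {Pol : Type} [CommRing Pol] [Algebra 𝒪 Pol]
  {F : ∀ (A : Type) [CommRing A] [IsLocalRing A] [Algebra 𝒪 A], (Pol →ₐ[𝒪] A) → Prop}
  {u₀ : Pol →ₐ[𝒪] ResidueField 𝒪}
  {e : ℕ} (f : Fin e → Pol)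
  (H : Hyp F u₀) (hf0 : ∀ i, u₀ (f i) = 0)

/-- the family of kernels of the `theta`, together with `⊤`. -/
def fam : Set (Ideal (MvPowerSeries (Fin e) 𝒪)) :=
  {K | K = ⊤ ∨ ∃ (I : Ideal Pol) (hI : Good F I), K = RingHom.ker (theta f H hf0 hI)}

theorem ker_theta_mem_fam {I : Ideal Pol} (hI : Good F I) :
    RingHom.ker (theta f H hf0 hI) ∈ fam f H hf0 := Or.inr ⟨I, hI, rfl⟩

theorem fam_nonempty : (fam f H hf0).Nonempty := ⟨⊤, Or.inl rfl⟩

theorem ker_theta_mono {I I' : Ideal Pol} (hI : Good F I) (hI' : Good F I') (hle : I ≤ I') :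
    RingHom.ker (theta f H hf0 hI) ≤ RingHom.ker (theta f H hf0 hI') := by
  intro x hx
  rw [RingHom.mem_ker, ← theta_compat_apply f H hf0 hI hI' hle, (RingHom.mem_ker).mp hx, map_zero]

theorem fam_dir : ∀ K₁ ∈ fam f H hf0, ∀ K₂ ∈ fam f H hf0, ∃ K₃ ∈ fam f H hf0, K₃ ≤ K₁ ⊓ K₂ := by
  rintro K₁ (rfl | ⟨I₁, hI₁, rfl⟩) K₂ hK₂
  · exact ⟨K₂, hK₂, le_inf le_top le_rfl⟩
  · rcases hK₂ with rfl | ⟨I₂, hI₂, rfl⟩
    · exact ⟨_, ker_theta_mem_fam f H hf0 hI₁, le_inf le_rfl le_top⟩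
    · exact ⟨_, ker_theta_mem_fam f H hf0 (hI₁.inf H hI₂),
        le_inf (ker_theta_mono f H hf0 _ _ inf_le_left) (ker_theta_mono f H hf0 _ _ inf_le_right)⟩

theorem fam_open : ∀ K ∈ fam f H hf0, ∃ n, maximalIdeal (MvPowerSeries (Fin e) 𝒪) ^ n ≤ K := by
  rintro K (rfl | ⟨I, hI, rfl⟩)
  · exact ⟨0, le_top⟩
  · exact pow_le_ker_theta f H hf0 hI

variable (hsurj : ∀ I, Good F I →
      Function.Surjective (MvPolynomial.aeval (fun i => Ideal.Quotient.mk I (f i)) :
        MvPolynomial (Fin e) 𝒪 →ₐ[𝒪] Pol ⧸ I))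

include hsurj in
theorem fam_sup : ∀ K ∈ fam f H hf0, ∀ n,
    K ⊔ maximalIdeal (MvPowerSeries (Fin e) 𝒪) ^ n ∈ fam f H hf0 := by
  rintro K (rfl | ⟨I, hI, rfl⟩) n
  · left; simp
  · rcases Nat.eq_zero_or_pos n with rfl | hn
    · left; simp
    · have hI' : Good F (I ⊔ RingHom.ker u₀ ^ n) :=
        hI.of_le H le_sup_left (sup_le (hI.le_ker H) (Ideal.pow_le_self hn.ne'))
      right
      exact ⟨_, hI', (ker_theta_sup f H hf0 hsurj hI n hI').symm⟩

include hsurj in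
theorem transfer {I I' : Ideal Pol} (hI : Good F I) (hI' : Good F I')
    (hle : RingHom.ker (theta f H hf0 hI) ≤ RingHom.ker (theta f H hf0 hI')) (v : Pol)
    (x : MvPowerSeries (Fin e) 𝒪) (hx : theta f H hf0 hI x = Ideal.Quotient.mk I v) :
    theta f H hf0 hI' x = Ideal.Quotient.mk I' v := by
  obtain ⟨y, hy⟩ := theta_surjective f H hf0 hsurj (hI.inf H hI') (Ideal.Quotient.mk _ v)
  have h1 : theta f H hf0 hI y = Ideal.Quotient.mk I v := by
    rw [← theta_compat_apply f H hf0 (hI.inf H hI') hI inf_le_left, hy, Ideal.Quotient.factor_mk]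
  have h2 : theta f H hf0 hI' y = Ideal.Quotient.mk I' v := by
    rw [← theta_compat_apply f H hf0 (hI.inf H hI') hI' inf_le_right, hy, Ideal.Quotient.factor_mk]
  have h3 : x - y ∈ RingHom.ker (theta f H hf0 hI) := by
    rw [RingHom.mem_ker, map_sub, hx, h1, sub_self]
  have h4 := hle h3
  rw [RingHom.mem_ker, map_sub, sub_eq_zero] at h4
  rw [h4, h2]

theorem finite_residueField_ps : Finite (ResidueField (MvPowerSeries (Fin e) 𝒪)) := by
  haveI : IsLocalHom (algebraMap 𝒪 (MvPowerSeries (Fin e) 𝒪)) := by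
    refine ⟨fun a ha => ?_⟩
    rw [MvPowerSeries.isUnit_iff_constantCoeff, MvPowerSeries.algebraMap_apply] at ha
    simpa using ha
  have hs : Function.Surjective
      (IsLocalRing.ResidueField.map (algebraMap 𝒪 (MvPowerSeries (Fin e) 𝒪))) := by
    intro x
    obtain ⟨g, rfl⟩ := residue_surjective x
    refine ⟨residue 𝒪 (MvPowerSeries.constantCoeff g), ?_⟩
    rw [IsLocalRing.ResidueField.map_residue, ← sub_eq_zero, ← map_sub, residue_eq_zero_iff,
      mem_maximalIdeal, mem_nonunits_iff, MvPowerSeries.isUnit_iff_constantCoeff,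
      MvPowerSeries.algebraMap_apply]
    simp
  exact Finite.of_surjective _ hs

variable [IsNoetherianRing 𝒪] [IsAdicComplete (maximalIdeal 𝒪) 𝒪]

include hsurj in
theorem fam_tower :
    (∀ n, sInf (fam f H hf0) ⊔ maximalIdeal (MvPowerSeries (Fin e) 𝒪) ^ n ∈ fam f H hf0) ∧
    (∀ c : Ideal (MvPowerSeries (Fin e) 𝒪) → MvPowerSeries (Fin e) 𝒪,
      (∀ K ∈ fam f H hf0, ∀ K' ∈ fam f H hf0, K ≤ K' → c K - c K' ∈ K') →
       ∃ p, ∀ K ∈ fam f H hf0, p - c K ∈ K) := by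
  haveI := isAdicComplete_mvPowerSeries (𝒪 := 𝒪) e
  haveI := finite_residueField_ps (𝒪 := 𝒪) (e := e)
  exact tower _ (fam_nonempty f H hf0) (fam_dir f H hf0) (fam_open f H hf0)
    (fam_sup f H hf0 hsurj)

include hsurj in
/-- every element of `Pol` is simultaneously hit. -/
theorem exists_common (v : Pol) : ∃ p : MvPowerSeries (Fin e) 𝒪, ∀ (I : Ideal Pol)
    (hI : Good F I), theta f H hf0 hI p = Ideal.Quotient.mk I v := by
  classical
  have hpre : ∀ (I : Ideal Pol) (hI : Good F I), ∃ x, theta f H hf0 hI x = Ideal.Quotient.mk I v :=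
    fun I hI => theta_surjective f H hf0 hsurj hI _
  choose c₀ hc₀ using hpre
  let c : Ideal (MvPowerSeries (Fin e) 𝒪) → MvPowerSeries (Fin e) 𝒪 := fun K =>
    if h : ∃ (I : Ideal Pol) (hI : Good F I), K = RingHom.ker (theta f H hf0 hI) then
      c₀ h.choose h.choose_spec.choose else 0
  have hc : ∀ (I : Ideal Pol) (hI : Good F I),
      theta f H hf0 hI (c (RingHom.ker (theta f H hf0 hI))) = Ideal.Quotient.mk I v := by
    intro I hI
    have h : ∃ (I' : Ideal Pol) (hI' : Good F I'),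
      RingHom.ker (theta f H hf0 hI) = RingHom.ker (theta f H hf0 hI') := ⟨I, hI, rfl⟩
    have e1 : c (RingHom.ker (theta f H hf0 hI)) = c₀ h.choose h.choose_spec.choose := by
      simp only [c]
      rw [dif_pos h]
    rw [e1]
    exact transfer f H hf0 hsurj h.choose_spec.choose hI h.choose_spec.choose_spec.ge v _ (hc₀ _ _)
  obtain ⟨p, hp⟩ := (fam_tower f H hf0 hsurj).2 c (by
    rintro K hK K' (rfl | ⟨I', hI', rfl⟩) hle
    · exact Submodule.mem_top
    · rcases hK with rfl | ⟨I, hI, rfl⟩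
      · exact hle Submodule.mem_top
      · rw [RingHom.mem_ker, map_sub, hc I' hI',
          transfer f H hf0 hsurj hI hI' hle v _ (hc I hI), sub_self])
  refine ⟨p, fun I hI => ?_⟩
  have := hp _ (ker_theta_mem_fam f H hf0 hI)
  rw [RingHom.mem_ker, map_sub, sub_eq_zero] at this
  rw [this, hc I hI]

theorem mem_sInf_fam_iff (x : MvPowerSeries (Fin e) 𝒪) :
    x ∈ sInf (fam f H hf0) ↔ ∀ (I : Ideal Pol) (hI : Good F I), theta f H hf0 hI x = 0 := by
  rw [Submodule.mem_sInf]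
  constructor
  · intro h I hI
    exact h _ (ker_theta_mem_fam f H hf0 hI)
  · rintro h K (rfl | ⟨I, hI, rfl⟩)
    · exact Submodule.mem_top
    · exact h I hI

end Fermat.Agent.S53.X
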