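import Mathlib
import Fermat.Agent.S53.XFam
import Fermat.Prelude.Thm_IsLocalRing_isAdicComplete_of_module_finite

set_option autoImplicit false
set_option linter.style.haveILetI false
set_option linter.unusedSectionVars false

namespace Fermat.Agent.S53

open IsLocalRing GaloisRep X

/-- Abstract pro-representability (Part X). -/
theorem prorep
    (𝒪 : Type) [CommRing 𝒪] [IsLocalRing 𝒪] [IsNoetherianRing 𝒪]
    [IsAdicComplete (maximalIdeal 𝒪) 𝒪] [Finite (ResidueField 𝒪)]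
    (Pol : Type) [CommRing Pol] [Algebra 𝒪 Pol]
    (F : ∀ (A : Type) [CommRing A] [IsLocalRing A] [Algebra 𝒪 A], (Pol →ₐ[𝒪] A) → Prop)
    (hcomp : ∀ (A B : Type) [CommRing A] [IsLocalRing A] [Algebra 𝒪 A]
      [CommRing B] [IsLocalRing B] [Algebra 𝒪 B],
      IsArtinianTestAlgebra 𝒪 A → IsArtinianTestAlgebra 𝒪 B →
      ∀ (φ : A →ₐ[𝒪] B) (u : Pol →ₐ[𝒪] A), F A u → F B (φ.comp u))
    (hinj : ∀ (A B : Type) [CommRing A] [IsLocalRing A] [Algebra 𝒪 A]
      [CommRing B] [IsLocalRing B] [Algebra 𝒪 B],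
      IsArtinianTestAlgebra 𝒪 A → IsArtinianTestAlgebra 𝒪 B →
      ∀ (φ : A →ₐ[𝒪] B), Function.Injective φ → ∀ (u : Pol →ₐ[𝒪] A), F B (φ.comp u) → F A u)
    (hfib : ∀ (A B C P : Type) [CommRing A] [IsLocalRing A] [Algebra 𝒪 A]
      [CommRing B] [IsLocalRing B] [Algebra 𝒪 B] [CommRing C] [IsLocalRing C] [Algebra 𝒪 C]
      [CommRing P] [IsLocalRing P] [Algebra 𝒪 P],
      IsArtinianTestAlgebra 𝒪 A → IsArtinianTestAlgebra 𝒪 B → IsArtinianTestAlgebra 𝒪 C →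
      IsArtinianTestAlgebra 𝒪 P →
      ∀ (f : A →ₐ[𝒪] C) (g : B →ₐ[𝒪] C) (pA : P →ₐ[𝒪] A) (pB : P →ₐ[𝒪] B),
      f.comp pA = g.comp pB →
      Function.Injective (fun x => (pA x, pB x)) →
      (∀ a b, f a = g b → ∃ x, pA x = a ∧ pB x = b) →
      ∀ (u : Pol →ₐ[𝒪] P), F A (pA.comp u) → F B (pB.comp u) → F P u)
    (u₀ : Pol →ₐ[𝒪] ResidueField 𝒪) (h₀ : F (ResidueField 𝒪) u₀)
    (h₀' : ∀ u : Pol →ₐ[𝒪] ResidueField 𝒪, F (ResidueField 𝒪) u → u = u₀)
    (E : Type) [CommRing E] [IsLocalRing E] [Algebra 𝒪 E] (hE : IsArtinianTestAlgebra 𝒪 E)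
    (ε : E) (hε0 : ε ≠ 0) (hε2 : ε * ε = 0) (hεm : ∀ c ∈ maximalIdeal 𝒪, algebraMap 𝒪 E c = 0)
    (hfinE : {u : Pol →ₐ[𝒪] E | F E u}.Finite) :
    ∃ (R : Type) (_ : CommRing R) (_ : IsLocalRing R) (_ : IsNoetherianRing R)
      (_ : IsAdicComplete (maximalIdeal R) R) (_ : Algebra 𝒪 R) (_ : IsLocalHom (algebraMap 𝒪 R)),
      Function.Surjective (IsLocalRing.residue R ∘ algebraMap 𝒪 R) ∧
      ∃ Ψ : Pol →ₐ[𝒪] R,
        (∀ (B : Type) [CommRing B] [IsLocalRing B] [Algebra 𝒪 B], IsArtinianTestAlgebra 𝒪 B →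
          ∀ q : R →ₐ[𝒪] B, F B (q.comp Ψ)) ∧
        (∀ (A : Type) [CommRing A] [IsLocalRing A] [Algebra 𝒪 A], IsArtinianTestAlgebra 𝒪 A →
          ∀ u : Pol →ₐ[𝒪] A, F A u → ∃ φ : R →ₐ[𝒪] A, φ.comp Ψ = u) ∧
        (∀ (A : Type) [CommRing A] [IsLocalRing A] [Algebra 𝒪 A], IsArtinianTestAlgebra 𝒪 A →
          ∀ φ φ' : R →ₐ[𝒪] A, φ.comp Ψ = φ'.comp Ψ → φ = φ') := by
  have H : Hyp F u₀ := ⟨hcomp, hinj, hfib, h₀, h₀'⟩
  obtain ⟨e, f, hf0, hsurj⟩ := exists_gens H hE ε hε0 hε2 hεm hfinE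
  haveI hPc := isAdicComplete_mvPowerSeries (𝒪 := 𝒪) e
  haveI hPl := isLocalHom_algebraMap_mvPowerSeries (𝒪 := 𝒪) e
  have hPres := residue_surjective_mvPowerSeries (𝒪 := 𝒪) e
  set J : Ideal (MvPowerSeries (Fin e) 𝒪) := sInf (fam f H hf0) with hJ
  have hJmem := mem_sInf_fam_iff f H hf0
  rw [← hJ] at hJmem
  have hbase : Good F (RingHom.ker u₀) := good_ker_base H
  have hJtop : J ≠ ⊤ := by
    intro h
    haveI := hbase.isLocal
    have h1 : (1 : MvPowerSeries (Fin e) 𝒪) ∈ J := h ▸ Submodule.mem_top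
    have h2 := (hJmem 1).mp h1 _ hbase
    rw [map_one] at h2
    exact one_ne_zero h2
  have hJle : J ≤ maximalIdeal (MvPowerSeries (Fin e) 𝒪) := IsLocalRing.le_maximalIdeal hJtop
  haveI : Nontrivial (MvPowerSeries (Fin e) 𝒪 ⧸ J) := Ideal.Quotient.nontrivial_iff.mpr hJtop
  haveI hRloc : IsLocalRing (MvPowerSeries (Fin e) 𝒪 ⧸ J) :=
    IsLocalRing.of_surjective' (Ideal.Quotient.mk J) Ideal.Quotient.mk_surjective
  haveI hmkloc : IsLocalHom (algebraMap (MvPowerSeries (Fin e) 𝒪) (MvPowerSeries (Fin e) 𝒪 ⧸ J)) :=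
    IsLocalHom.of_surjective _ Ideal.Quotient.mk_surjective
  haveI hRc : IsAdicComplete (maximalIdeal (MvPowerSeries (Fin e) 𝒪 ⧸ J))
      (MvPowerSeries (Fin e) 𝒪 ⧸ J) :=
    IsLocalRing.isAdicComplete_of_module_finite (𝒪 := MvPowerSeries (Fin e) 𝒪)
  haveI hRl : IsLocalHom (algebraMap 𝒪 (MvPowerSeries (Fin e) 𝒪 ⧸ J)) := by
    rw [IsScalarTower.algebraMap_eq 𝒪 (MvPowerSeries (Fin e) 𝒪) (MvPowerSeries (Fin e) 𝒪 ⧸ J)]
    exact RingHom.isLocalHom_comp _ _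
  have hRres : Function.Surjective (IsLocalRing.residue (MvPowerSeries (Fin e) 𝒪 ⧸ J) ∘
      algebraMap 𝒪 (MvPowerSeries (Fin e) 𝒪 ⧸ J)) := by
    intro x
    obtain ⟨y, rfl⟩ := IsLocalRing.residue_surjective x
    obtain ⟨p, rfl⟩ := Ideal.Quotient.mk_surjective y
    obtain ⟨c, hc⟩ := exists_sub_mem hPres p
    refine ⟨c, ?_⟩
    show IsLocalRing.residue _ (algebraMap 𝒪 (MvPowerSeries (Fin e) 𝒪 ⧸ J) c) = _
    rw [← sub_eq_zero, ← map_sub, IsLocalRing.residue_eq_zero_iff]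
    have h1 := _root_.map_nonunit
      (algebraMap (MvPowerSeries (Fin e) 𝒪) (MvPowerSeries (Fin e) 𝒪 ⧸ J)) _ hc
    have h2 : algebraMap 𝒪 (MvPowerSeries (Fin e) 𝒪 ⧸ J) c - Ideal.Quotient.mk J p =
        -(algebraMap (MvPowerSeries (Fin e) 𝒪) (MvPowerSeries (Fin e) 𝒪 ⧸ J)
          (p - algebraMap 𝒪 (MvPowerSeries (Fin e) 𝒪) c)) := by
      rw [map_sub, ← IsScalarTower.algebraMap_apply, neg_sub]
      rfl
    rw [h2]
    exact neg_mem h1
  -- the map Ψ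
  have hcommon := exists_common f H hf0 hsurj
  choose pv hpv using hcommon
  have hext : ∀ p p' : MvPowerSeries (Fin e) 𝒪,
      (∀ (I : Ideal Pol) (hI : Good F I), theta f H hf0 hI p = theta f H hf0 hI p') →
      Ideal.Quotient.mk J p = Ideal.Quotient.mk J p' := by
    intro p p' h
    rw [Ideal.Quotient.eq, hJmem]
    intro I hI
    rw [map_sub, h I hI, sub_self]
  let Ψ : Pol →ₐ[𝒪] (MvPowerSeries (Fin e) 𝒪 ⧸ J) :=
    { toFun := fun v => Ideal.Quotient.mk J (pv v)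
      map_one' := by
        rw [← map_one (Ideal.Quotient.mk J)]
        exact hext _ _ fun I hI => by rw [hpv, map_one, map_one]
      map_mul' := fun v w => by
        rw [← map_mul (Ideal.Quotient.mk J)]
        exact hext _ _ fun I hI => by rw [hpv, map_mul, map_mul, hpv, hpv]
      map_zero' := by
        rw [← map_zero (Ideal.Quotient.mk J)]
        exact hext _ _ fun I hI => by rw [hpv, map_zero, map_zero]
      map_add' := fun v w => by
        rw [← map_add (Ideal.Quotient.mk J)]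
        exact hext _ _ fun I hI => by rw [hpv, map_add, map_add, hpv, hpv]
      commutes' := fun c => by
        have : algebraMap 𝒪 (MvPowerSeries (Fin e) 𝒪 ⧸ J) c =
            Ideal.Quotient.mk J (algebraMap 𝒪 (MvPowerSeries (Fin e) 𝒪) c) := rfl
        rw [this]
        exact hext _ _ fun I hI => by
          rw [hpv, AlgHom.commutes]
          rfl }
  have hΨ : ∀ v, Ψ v = Ideal.Quotient.mk J (pv v) := fun v => rfl
  refine ⟨MvPowerSeries (Fin e) 𝒪 ⧸ J, inferInstance, hRloc, inferInstance, hRc, inferInstance,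
    hRl, hRres, Ψ, ?_, ?_, ?_⟩
  · -- (R1)
    intro B _ _ _ hB q
    obtain ⟨N, hN⟩ := art_pow_eq_bot hB
    have hN1 : maximalIdeal B ^ (N + 1) = ⊥ := by
      rw [pow_succ, hN, Ideal.bot_mul]
    have hmem := (fam_tower f H hf0 hsurj).1 (N + 1)
    rw [← hJ] at hmem
    rcases hmem with htop | ⟨I, hI, hKI⟩
    · exfalso
      have h1 : J ⊔ maximalIdeal (MvPowerSeries (Fin e) 𝒪) ^ (N + 1) ≤
          maximalIdeal (MvPowerSeries (Fin e) 𝒪) := sup_le hJle (Ideal.pow_le_self (Nat.succ_ne_zero N))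
      rw [htop] at h1
      exact (Ideal.IsPrime.ne_top inferInstance) (top_le_iff.mp h1)
    · haveI := hI.isLocal
      let q' : MvPowerSeries (Fin e) 𝒪 →ₐ[𝒪] B := q.comp (Ideal.Quotient.mkₐ 𝒪 J)
      haveI hq'loc : IsLocalHom (q' : MvPowerSeries (Fin e) 𝒪 →+* B) :=
        isLocalHom_of_residue_surjective hB.residue_surjective q'
      have hq'kill : ∀ t ∈ maximalIdeal (MvPowerSeries (Fin e) 𝒪) ^ (N + 1), q' t = 0 := by
        intro t ht
        have h1 : q' t ∈ Ideal.map (q' : MvPowerSeries (Fin e) 𝒪 →+* B)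
            (maximalIdeal (MvPowerSeries (Fin e) 𝒪) ^ (N + 1)) := Ideal.mem_map_of_mem _ ht
        rw [Ideal.map_pow] at h1
        have h2 := Ideal.pow_right_mono
          (IsLocalRing.map_maximalIdeal_le (q' : MvPowerSeries (Fin e) 𝒪 →+* B)) (N + 1) h1
        rw [hN1] at h2
        simpa using h2
      have hkill : ∀ v ∈ I, (q.comp Ψ) v = 0 := by
        intro v hv
        have h1 : pv v ∈ RingHom.ker (theta f H hf0 hI) := by
          rw [RingHom.mem_ker, hpv, Ideal.Quotient.eq_zero_iff_mem]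
          exact hv
        rw [← hKI] at h1
        obtain ⟨j, hj, t, ht, hjt⟩ := Submodule.mem_sup.mp h1
        show q (Ψ v) = 0
        rw [hΨ, ← hjt, map_add, Ideal.Quotient.eq_zero_iff_mem.mpr hj, zero_add]
        exact hq'kill t ht
      have e1 : q.comp Ψ = (Ideal.Quotient.liftₐ I (q.comp Ψ) hkill).comp
          (Ideal.Quotient.mkₐ 𝒪 I) := by
        ext v; rfl
      rw [e1]
      exact H.comp _ _ hI.art hB _ _ hI.hF
  · -- (R2)
    intro A _ _ _ hA u hu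
    have hI : Good F (RingHom.ker u) := good_ker H hA u hu
    have hle : ∀ a ∈ J, theta f H hf0 hI a = 0 := fun a ha => (hJmem a).mp ha _ hI
    refine ⟨(Ideal.kerLiftAlg u).comp (Ideal.Quotient.liftₐ J (theta f H hf0 hI) hle), ?_⟩
    ext v
    show Ideal.kerLiftAlg u (Ideal.Quotient.liftₐ J (theta f H hf0 hI) hle (Ψ v)) = u v
    rw [hΨ]
    have : Ideal.Quotient.liftₐ J (theta f H hf0 hI) hle (Ideal.Quotient.mk J (pv v)) =
      theta f H hf0 hI (pv v) := rfl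
    rw [this, hpv]
    rfl
  · -- (R3)
    intro A _ _ _ hA φ φ' hφ
    have hX : ∀ i, Ideal.Quotient.mk J (MvPowerSeries.X i) = Ψ (f i) := by
      intro i
      rw [hΨ]
      exact hext _ _ fun I hI => by rw [hpv, theta_X]
    let η : MvPowerSeries (Fin e) 𝒪 →ₐ[𝒪] A := φ.comp (Ideal.Quotient.mkₐ 𝒪 J)
    let η' : MvPowerSeries (Fin e) 𝒪 →ₐ[𝒪] A := φ'.comp (Ideal.Quotient.mkₐ 𝒪 J)
    haveI hηloc : IsLocalHom (η : MvPowerSeries (Fin e) 𝒪 →+* A) :=
      isLocalHom_of_residue_surjective hA.residue_surjective η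
    have hXm : ∀ i : Fin e, (MvPowerSeries.X i : MvPowerSeries (Fin e) 𝒪) ∈
        maximalIdeal (MvPowerSeries (Fin e) 𝒪) := by
      intro i
      rw [mem_maximalIdeal, mem_nonunits_iff, MvPowerSeries.isUnit_iff_constantCoeff]
      simp
    obtain ⟨N, hN⟩ := span_pow_eq_bot_of_mem hA (fun i => η (MvPowerSeries.X i))
      (fun i => _root_.map_nonunit (η : MvPowerSeries (Fin e) 𝒪 →+* A) _ (hXm i))
    have hηη' : η = η' := by
      apply eval_unique _ _ N hN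
      intro i
      show φ (Ideal.Quotient.mk J (MvPowerSeries.X i)) = φ' (Ideal.Quotient.mk J (MvPowerSeries.X i))
      rw [hX]
      exact congrArg (fun g => g (f i)) hφ
    ext y
    obtain ⟨p, rfl⟩ := Ideal.Quotient.mk_surjective y
    exact congrArg (fun g => g p) hηη'

end Fermat.Agent.S53
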