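/-
S53: wiring of the interface statements of `Glue.lean` / `Assembly.lean` to the landed
dictionary files.  (helper69)
-/
import Mathlib
import Fermat.Agent.S53.Assembly
import Fermat.Agent.S53.XMain
import Fermat.Agent.S53.Dict
import Fermat.Agent.S53.Residual
import Fermat.Agent.S53.FrameExists
import Fermat.Agent.S53.TangentGal

set_option autoImplicit false

noncomputable section

namespace Fermat.Agent.S53.Gl

open IsLocalRing GaloisRep

theorem dictBaseChange : DictBaseChange :=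
  fun _ _ _ _ _ _ φ hφ _ hr _ => baseChangeAlong_ofMat_isEquiv φ hφ hr

theorem dictConj : DictConj := by
  intro A _ _ r r' hr hr' e
  obtain ⟨P, hP, h⟩ := (ofMat_isEquiv_iff hr hr').mp e
  exact ⟨P, (Matrix.isUnit_iff_isUnit_det P).mpr hP, h⟩

variable {𝒪 : Type} [CommRing 𝒪] [IsLocalRing 𝒪] {ρbar : ResidualGaloisRep (ResidueField 𝒪)}

theorem nfUnique (F : Frame 𝒪 ρbar) : NFUnique F := by
  intro A _ _ _ r r' hloc hl hl' hn hn' P hP h
  exact tg_normalized_unique hloc F hl hn hl' hn' P ((Matrix.isUnit_iff_isUnit_det P).mp hP) h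

theorem dictResidual (F : Frame 𝒪 ρbar) : DictResidual F :=
  fun _ _ _ _ ψ hψ _ hr hl => residual_isEquiv_of_isLift F ψ hψ hr hl

/-- The statement of the existence of the normal form (TB `exists_normalized`). -/
def ExistsNormalized (F : Frame 𝒪 ρbar) : Prop :=
  ∀ (A : Type) [CommRing A] [IsLocalRing A] [Algebra 𝒪 A] [IsAdicComplete (maximalIdeal A) A],
    IsLocalHom (algebraMap 𝒪 A) → ∀ r : GQ →* M2 A, IsLift F r →
    ∃ (P : M2 A) (r' : GQ →* M2 A), IsUnit P.det ∧ (∀ σ, P * r σ = r' σ * P) ∧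
      IsLift F r' ∧ IsNormalized F r'

theorem nfExists (F : Frame 𝒪 ρbar) (h : ExistsNormalized F) : NFExists F := by
  intro A _ _ _ _ _ hloc ρA hres
  obtain ⟨b, hb⟩ := exists_basis_isLift F (IsLocalRing.ResidueField.map (algebraMap 𝒪 A))
    (fun c => IsLocalRing.ResidueField.map_residue _ c) ρA hres
  obtain ⟨P, r', hP, hc, hl, hn⟩ := h A hloc (matOf ρA b) hb
  have hcont : MatCont (matOf ρA b) := matCont_matOf ρA b
  have hcont' : MatCont r' := matCont_of_conj hcont P hP hc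
  refine ⟨r', hcont', ?_, hl, hn⟩
  exact isEquiv_trans (isEquiv_ofMat_matOf ρA b)
    ((ofMat_isEquiv_iff hcont hcont').mpr ⟨P, hP, hc⟩)

theorem proRepStatement : ProRepStatement := by
  intro 𝒪 _ _ _ _ _ Pol _ _ F hcomp hinj hfib u₀ h₀ h₀' E _ _ _ hE ε hε0 hε2 hεm hfinE
  exact prorep 𝒪 Pol F hcomp hinj hfib u₀ h₀ h₀' E hE ε hε0 hε2 hεm hfinE

/-- S53 from the existence of the normal form. -/
theorem main_of_existsNormalized
    (𝒪 : Type) [CommRing 𝒪] [IsDomain 𝒪] [IsDiscreteValuationRing 𝒪]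
    [IsAdicComplete (IsLocalRing.maximalIdeal 𝒪) 𝒪] [Finite (IsLocalRing.ResidueField 𝒪)]
    (ρbar : ResidualGaloisRep (IsLocalRing.ResidueField 𝒪))
    (𝒟 : ∀ ⦃A : Type⦄ [CommRing A] [IsLocalRing A] [Algebra 𝒪 A], GaloisRepAdic A → Prop)
    (habs : ρbar.IsAbsolutelyIrreducible)
    (h𝒟 : GaloisRep.IsDeformationCondition 𝒪 𝒟)
    (hbar : 𝒟 (GaloisRepAdic.ofResidualGaloisRep ρbar))
    (hfin : GaloisRep.TangentFinite 𝒪 ρbar 𝒟)
    (hN : ∀ F : Frame 𝒪 ρbar, ExistsNormalized F) :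
    Nonempty (GaloisRep.DeformationRingData 𝒪 ρbar 𝒟) := by
  obtain ⟨F⟩ := exists_frame ρbar habs
  exact main_of_interfaces proRepStatement 𝒪 ρbar 𝒟 habs h𝒟 hbar hfin F dictBaseChange dictConj
    (nfUnique F) (dictResidual F) (nfExists F (hN F))

end Fermat.Agent.S53.Gl

end
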